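import Fermat.Agent.SmallCurves.Torsion35

/-!
Simultaneous 3- and 5-level structure: the map to `y² = u (u + 9) (u - 16)`.
-/

set_option autoImplicit false

namespace FLTAgent.SmallCurves

open WeierstrassCurve

variable {F : Type*} [Field F] [CharZero F]

/-- `u` -/
def x15U (x₀ x₁ x₂ : F) : F := -4 * (x₂ - x₁) ^ 2 / ((x₀ - x₁) * (x₀ - x₂))

/-- `y` -/
def x15Y (W : WeierstrassCurve F) (x₀ x₁ x₂ : F) : F :=
  -4 * (2 * x₀ - x₁ - x₂) * ((x₀ - x₁) ^ 3 * psi2 W x₂ - (x₀ - x₂) ^ 3 * psi2 W x₁) /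
    ((x₂ - x₁) * ((x₀ - x₁) * (x₀ - x₂)) ^ 3)

/-- `z`, the invariant `b - 1/b` of the five-structure. -/
def x15Z (W : WeierstrassCurve F) (x₁ x₂ : F) : F :=
  1 + (W.b₂ * (x₁ + x₂) + 3 * (x₁ + x₂) ^ 2 + 2 * W.b₄) / (x₂ - x₁) ^ 2

lemma x15U_symm (x₀ x₁ x₂ : F) : x15U x₀ x₂ x₁ = x15U x₀ x₁ x₂ := by
  simp only [x15U]; congr 1 <;> ring

lemma x15Y_symm (W : WeierstrassCurve F) (x₀ x₁ x₂ : F) :
    x15Y W x₀ x₂ x₁ = x15Y W x₀ x₁ x₂ := by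
  simp only [x15Y]; rw [← neg_div_neg_eq]; congr 1 <;> ring

lemma x15Z_symm (W : WeierstrassCurve F) (x₁ x₂ : F) : x15Z W x₂ x₁ = x15Z W x₁ x₂ := by
  simp only [x15Z]; congr 2 <;> ring

/-- The identities in Tate normal form with parameters `b`, `d`, and `x₀ = w d`. -/
lemma param35_normal (W : WeierstrassCurve F) {b d w : F} (hb : b ≠ 0) (hd : d ≠ 0)
    (hw : w ≠ 0) (hw1 : w - 1 ≠ 0)
    (h2 : W.b₂ = d * (b - 6 + 1 / b)) (h4 : W.b₄ = d ^ 2 * (1 - 1 / b))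
    (h6 : W.b₆ = d ^ 3 / b) (h8 : W.b₈ = -(d ^ 4 / b)) (h3 : psi3 W (w * d) = 0) :
    x15U (w * d) 0 d ≠ 0 ∧
    x15Y W (w * d) 0 d ^ 2 =
      x15U (w * d) 0 d * (x15U (w * d) 0 d + 9) * (x15U (w * d) 0 d - 16) ∧
    x15Z W 0 d = 9 / 2 - 3 * x15U (w * d) 0 d / 8 -
      x15Y W (w * d) 0 d * (x15U (w * d) 0 d - 4) / (8 * x15U (w * d) 0 d) ∧
    W.c₄ ^ 3 * (x15Z W 0 d - 11) =
      W.Δ * (x15Z W 0 d ^ 2 - 12 * x15Z W 0 d + 16) ^ 3 := by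
  have hQ : w ^ 3 * b ^ 2 + 3 * w ^ 2 * (w - 1) ^ 2 * b + (w - 1) ^ 3 = 0 := by
    have e : psi3 W (w * d) * b = d ^ 4 *
        (w ^ 3 * b ^ 2 + 3 * w ^ 2 * (w - 1) ^ 2 * b + (w - 1) ^ 3) := by
      simp only [psi3, h2, h4, h6, h8]; field_simp; ring
    rw [h3, zero_mul, eq_comm, mul_eq_zero] at e
    exact e.resolve_left (pow_ne_zero 4 hd)
  have hP1 : psi2 W 0 = d ^ 3 / b := by simp [psi2, h6]
  have hP2 : psi2 W d = d ^ 3 * b := by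
    simp only [psi2, h2, h4, h6]; field_simp; ring
  have hu : x15U (w * d) 0 d = -4 / (w * (w - 1)) := by
    simp only [x15U, sub_zero]
    rw [show w * d - d = d * (w - 1) by ring]
    field_simp
  have hy : x15Y W (w * d) 0 d =
      -4 * (2 * w - 1) * (w ^ 3 * b ^ 2 - (w - 1) ^ 3) / (b * (w * (w - 1)) ^ 3) := by
    simp only [x15Y, sub_zero, hP1, hP2]
    rw [show w * d - d = d * (w - 1) by ring]
    field_simp
  have hz : x15Z W 0 d = b - 1 / b := by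
    simp only [x15Z, h2, h4]; field_simp; ring
  have hu0 : x15U (w * d) 0 d ≠ 0 := by
    rw [hu]; exact div_ne_zero (by norm_num) (mul_ne_zero hw hw1)
  refine ⟨hu0, ?_, ?_, ?_⟩
  · rw [hu, hy]; field_simp
    linear_combination (4 * (2 * w - 1) ^ 2 *
      (w ^ 3 * b ^ 2 + (w - 1) ^ 3 - 3 * (w * (w - 1)) ^ 2 * b)) * hQ
  · rw [hu, hy, hz]
    have : (-4 : F) ≠ 0 := by norm_num
    field_simp
    linear_combination (-(8 * (3 * (w * (w - 1)) + 1))) * hQ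
  · rw [hz]
    simp only [WeierstrassCurve.c₄, WeierstrassCurve.Δ, h2, h4, h6, h8]
    field_simp; ring

/-- The identities for a translated model with `x(P) = 0`. -/
lemma param35_aux (W : WeierstrassCurve F) {x₀ d : F} (hd : d ≠ 0) (h0 : x₀ ≠ 0)
    (h0d : x₀ - d ≠ 0) (hP : psi2 W 0 ≠ 0) (e1 : d * psi2 W 0 = phi2 W 0)
    (e2 : 0 * psi2 W d = phi2 W d) (h3 : psi3 W x₀ = 0) :
    x15U x₀ 0 d ≠ 0 ∧
    x15Y W x₀ 0 d ^ 2 = x15U x₀ 0 d * (x15U x₀ 0 d + 9) * (x15U x₀ 0 d - 16) ∧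
    x15Z W 0 d = 9 / 2 - 3 * x15U x₀ 0 d / 8 -
      x15Y W x₀ 0 d * (x15U x₀ 0 d - 4) / (8 * x15U x₀ 0 d) ∧
    W.c₄ ^ 3 * (x15Z W 0 d - 11) =
      W.Δ * (x15Z W 0 d ^ 2 - 12 * x15Z W 0 d + 16) ^ 3 := by
  obtain ⟨w, rfl⟩ : ∃ w, x₀ = w * d := ⟨x₀ / d, by field_simp⟩
  have hw : w ≠ 0 := left_ne_zero_of_mul h0
  have hw1 : w - 1 ≠ 0 := left_ne_zero_of_mul (show (w - 1) * d ≠ 0 by rwa [sub_mul, one_mul])
  simp only [psi2, phi2] at e1 e2 hP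
  ring_nf at hP
  obtain ⟨b, hb, h6⟩ : ∃ b : F, b ≠ 0 ∧ W.b₆ = d ^ 3 / b :=
    ⟨d ^ 3 / W.b₆, div_ne_zero (pow_ne_zero 3 hd) hP, by field_simp⟩
  have h8 : W.b₈ = -(d ^ 4 / b) := by
    rw [show d ^ 4 / b = d * W.b₆ by rw [h6]; ring]
    linear_combination e1
  have h4 : W.b₄ = d ^ 2 * (1 - 1 / b) := by
    rw [h6, h8] at e2
    field_simp at e2 ⊢
    apply mul_left_cancel₀ hd
    linear_combination e2
  have h2 : W.b₂ = d * (b - 6 + 1 / b) := by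
    have r := W.b_relation
    rw [h4, h6, h8] at r
    field_simp at r ⊢
    linear_combination -r
  exact param35_normal W hb hd hw hw1 h2 h4 h6 h8 h3

/-- The identities for any model. -/
lemma param35 (W : WeierstrassCurve F) {x₀ x₁ x₂ : F} (h12 : x₂ ≠ x₁) (h01 : x₀ ≠ x₁)
    (h02 : x₀ ≠ x₂) (hP : psi2 W x₁ ≠ 0) (e1 : x₂ * psi2 W x₁ = phi2 W x₁)
    (e2 : x₁ * psi2 W x₂ = phi2 W x₂) (h3 : psi3 W x₀ = 0) :
    x15U x₀ x₁ x₂ ≠ 0 ∧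
    x15Y W x₀ x₁ x₂ ^ 2 = x15U x₀ x₁ x₂ * (x15U x₀ x₁ x₂ + 9) * (x15U x₀ x₁ x₂ - 16) ∧
    x15Z W x₁ x₂ = 9 / 2 - 3 * x15U x₀ x₁ x₂ / 8 -
      x15Y W x₀ x₁ x₂ * (x15U x₀ x₁ x₂ - 4) / (8 * x15U x₀ x₁ x₂) ∧
    W.c₄ ^ 3 * (x15Z W x₁ x₂ - 11) =
      W.Δ * (x15Z W x₁ x₂ ^ 2 - 12 * x15Z W x₁ x₂ + 16) ^ 3 := by
  obtain ⟨V, hV⟩ : ∃ V, V = (⟨1, x₁, 0, 0⟩ : VariableChange F) • W := ⟨_, rfl⟩
  have t2 : ∀ x, psi2 V x = psi2 W (x + x₁) := fun x => by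
    simp only [hV, psi2, variableChange_b₂, variableChange_b₄, variableChange_b₆, inv_one,
      Units.val_one]
    ring
  have tφ : ∀ x, phi2 V x = phi2 W (x + x₁) - x₁ * psi2 W (x + x₁) := fun x => by
    simp only [hV, phi2, psi2, variableChange_b₂, variableChange_b₄, variableChange_b₆,
      variableChange_b₈, inv_one, Units.val_one]
    ring
  have t3 : ∀ x, psi3 V x = psi3 W (x + x₁) := fun x => by
    simp only [hV, psi3, variableChange_b₂, variableChange_b₄, variableChange_b₆,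
      variableChange_b₈, inv_one, Units.val_one]
    ring
  have hc : V.c₄ = W.c₄ := by simp [hV, variableChange_c₄]
  have hΔ : V.Δ = W.Δ := by simp [hV, variableChange_Δ]
  have hu : x15U (x₀ - x₁) 0 (x₂ - x₁) = x15U x₀ x₁ x₂ := by
    simp only [x15U]; congr 1 <;> ring
  have hy : x15Y V (x₀ - x₁) 0 (x₂ - x₁) = x15Y W x₀ x₁ x₂ := by
    simp only [x15Y, t2, sub_add_cancel, zero_add]; congr 1 <;> ring
  have hz : x15Z V 0 (x₂ - x₁) = x15Z W x₁ x₂ := by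
    simp only [x15Z, hV, variableChange_b₂, variableChange_b₄, inv_one, Units.val_one]
    congr 2 <;> ring
  rw [← hu, ← hy, ← hz, ← hc, ← hΔ]
  refine param35_aux V (sub_ne_zero.mpr h12) (sub_ne_zero.mpr h01) ?_ (by rwa [t2, zero_add])
    ?_ ?_ (by rwa [t3, sub_add_cancel])
  · rw [sub_sub_sub_cancel_right]; exact sub_ne_zero.mpr h02
  · rw [t2, tφ, zero_add, sub_mul, e1]
  · rw [t2, tφ, sub_add_cancel, zero_mul, e2, sub_self]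

end FLTAgent.SmallCurves
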