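import Mathlib

/-!
Rational points on `X₀(15) : y² = u (u + 9) (u - 16)`, by an elementary descent on the quartic
`(p² + q²) (p² + 16 q²) = □` of an isogenous curve.
-/

set_option autoImplicit false

namespace FLTAgent.SmallCurves

lemma sq_emod_eight_of_odd {p : ℤ} (hp : Odd p) : p ^ 2 % 8 = 1 := by
  obtain ⟨k, rfl⟩ := hp
  obtain ⟨m, rfl⟩ | ⟨m, rfl⟩ := Int.even_or_odd k <;> ring_nf <;> omega

lemma isSquare_of_mul_sq_eq {z a w : ℤ} (ha : a ≠ 0) (h : z * a ^ 2 = w ^ 2) : IsSquare z := by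
  rw [← Rat.isSquare_intCast_iff]
  refine ⟨(w : ℚ) / a, ?_⟩
  have h' : (z : ℚ) * (a : ℚ) ^ 2 = (w : ℚ) ^ 2 := by exact_mod_cast h
  have : (a : ℚ) ≠ 0 := by exact_mod_cast ha
  field_simp
  linear_combination h'

/-- Splitting of `R * S = r * s` for coprime `R, S` and coprime `r, s`. -/
lemma four_number {r s R S : ℤ} (hr : r ≠ 0) (hrs : IsCoprime r s) (hRS : IsCoprime R S)
    (h : R * S = r * s) :
    ∃ a b c d : ℤ, r = a * c ∧ R = a * b ∧ s = b * d ∧ S = c * d ∧ a ≠ 0 ∧ IsCoprime a d := by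
  obtain ⟨a, ha0, hc, hb⟩ :
      ∃ a : ℤ, a ≠ 0 ∧ a ∣ r ∧ a ∣ R ∧ ∀ b c, r = a * c → R = a * b → IsCoprime c b := by
    refine ⟨Int.gcd r R, ?_, Int.gcd_dvd_left r R, Int.gcd_dvd_right r R, ?_⟩
    · exact_mod_cast (Nat.pos_iff_ne_zero.mp (Int.gcd_pos_of_ne_zero_left R hr))
    · intro b c hc hb
      have hg : 0 < Int.gcd r R := Int.gcd_pos_of_ne_zero_left R hr
      obtain ⟨x, y, hxy⟩ : ∃ x y : ℤ, x * r + y * R = (Int.gcd r R : ℤ) :=
        ⟨Int.gcdA r R, Int.gcdB r R, by rw [Int.gcd_eq_gcd_ab]; ring⟩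
      refine ⟨x, y, mul_left_cancel₀ (a := (Int.gcd r R : ℤ)) (by exact_mod_cast hg.ne') ?_⟩
      calc (Int.gcd r R : ℤ) * (x * c + y * b)
          = x * ((Int.gcd r R : ℤ) * c) + y * ((Int.gcd r R : ℤ) * b) := by ring
        _ = x * r + y * R := by rw [← hc, ← hb]
        _ = (Int.gcd r R : ℤ) * 1 := by rw [hxy, mul_one]
  obtain ⟨c, rfl⟩ := hc
  obtain ⟨⟨b, rfl⟩, hb⟩ := hb
  have hcb : IsCoprime c b := hb b c rfl rfl
  have h' : b * S = c * s := mul_left_cancel₀ ha0 (by linear_combination h)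
  obtain ⟨d, rfl⟩ : c ∣ S := hcb.dvd_of_dvd_mul_left ⟨s, h'⟩
  have hc0 : c ≠ 0 := fun hc => hr (by simp [hc])
  refine ⟨a, b, c, d, rfl, rfl, ?_, rfl, ha0, hRS.of_mul_left_left.of_mul_right_right⟩
  exact mul_left_cancel₀ hc0 (by linear_combination -h')

/-- The quartic condition `(p² + q²) (p² + 16 q²) = □`. -/
def IsX15 (p q : ℤ) : Prop :=
  IsCoprime p q ∧ p ≠ 0 ∧ q ≠ 0 ∧ IsSquare ((p ^ 2 + q ^ 2) * (p ^ 2 + 16 * q ^ 2))

lemma IsX15.swap {p' q : ℤ} (h : IsX15 (4 * p') q) : IsX15 q p' := by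
  obtain ⟨h1, h2, h3, w, hw⟩ := h
  refine ⟨h1.of_mul_left_right.symm, h3, by simpa using h2, ?_⟩
  exact isSquare_of_mul_sq_eq (a := 4) (w := w) (by norm_num) (by linear_combination hw)

/-- Both factors square and `p` odd: a smaller solution with first entry not `± 2`. -/
lemma descent_both_sq {p q f g : ℤ} (hp : Odd p) (hcop : IsCoprime p q) (hq0 : q ≠ 0)
    (hf : p ^ 2 + q ^ 2 = f ^ 2) (hg : p ^ 2 + 16 * q ^ 2 = g ^ 2) :
    ∃ p' q' : ℤ, IsX15 p' q' ∧ p' ^ 2 + 16 * q' ^ 2 < p ^ 2 + 16 * q ^ 2 ∧ Odd p' := by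
  have hp2 : p % 2 = 1 := Int.odd_iff.mp hp
  have h4 : Int.gcd p (4 * q) = 1 := by
    rw [← Int.isCoprime_iff_gcd_eq_one]
    refine IsCoprime.mul_right ?_ hcop
    have : IsCoprime p (2 : ℤ) := by
      obtain ⟨k, rfl⟩ := hp
      exact ⟨1, -k, by ring⟩
    simpa using this.mul_right this
  obtain ⟨r, s, ⟨hpr, hqr⟩ | ⟨hpr, -⟩, -, hrs, hrsp⟩ :=
    PythagoreanTriple.coprime_classification.mp
      ⟨show PythagoreanTriple p q f by unfold PythagoreanTriple; linear_combination hf,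
        Int.isCoprime_iff_gcd_eq_one.mp hcop⟩
  swap
  · rw [hpr, mul_assoc] at hp2; omega
  obtain ⟨R, S, ⟨hpR, hqR⟩ | ⟨hpR, -⟩, -, hRS, hRSp⟩ :=
    PythagoreanTriple.coprime_classification.mp
      ⟨show PythagoreanTriple p (4 * q) g by unfold PythagoreanTriple; linear_combination hg,
        h4⟩
  swap
  · rw [hpR, mul_assoc] at hp2; omega
  rw [← Int.isCoprime_iff_gcd_eq_one] at hrs hRS
  have hr0 : r ≠ 0 := fun h => hq0 (by simp [hqr, h])
  have hs0 : s ≠ 0 := fun h => hq0 (by simp [hqr, h])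
  have key : R * S = 4 * (r * s) := by linarith
  have hbound : ∀ x y : ℤ, (x ∣ r * s) → (y ∣ r * s) →
      x ^ 2 + 16 * y ^ 2 < p ^ 2 + 16 * q ^ 2 := by
    intro x y hx hy
    have hrs0 : r * s ≠ 0 := mul_ne_zero hr0 hs0
    have hx' : x ^ 2 ≤ (r * s) ^ 2 :=
      Int.le_of_dvd (by positivity) (pow_dvd_pow_of_dvd hx 2)
    have hy' : y ^ 2 ≤ (r * s) ^ 2 :=
      Int.le_of_dvd (by positivity) (pow_dvd_pow_of_dvd hy 2)
    have : 0 < (r * s) ^ 2 := by positivity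
    have : q ^ 2 = 4 * (r * s) ^ 2 := by rw [hqr]; ring
    nlinarith [sq_nonneg p]
  rcases hRSp with ⟨hR, hS⟩ | ⟨hR, hS⟩
  · have h2S : IsCoprime (4 : ℤ) S := by
      obtain ⟨k, hk⟩ : Odd S := Int.odd_iff.mpr hS
      have : IsCoprime (2 : ℤ) S := ⟨-k, 1, by rw [hk]; ring⟩
      simpa using this.mul_left this
    obtain ⟨R', rfl⟩ : (4 : ℤ) ∣ R := h2S.dvd_of_dvd_mul_right ⟨r * s, key⟩
    obtain ⟨a, b, c, d, rfl, rfl, rfl, rfl, ha0, had⟩ := four_number hr0 hrs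
      hRS.of_mul_left_right (by linarith :
        R' * S = r * s)
    have hd : Odd d := (Int.odd_mul.mp (Int.odd_iff.mpr hS)).2
    have hb0 : b ≠ 0 := fun h => hs0 (by simp [h])
    refine ⟨d, a, ⟨had.symm, fun h => hs0 (by simp [h]), ha0, ?_⟩,
      hbound d a ⟨a * b * c, by ring⟩ ⟨b * c * d, by ring⟩, hd⟩
    refine isSquare_of_mul_sq_eq hb0 (w := c * (d ^ 2 + a ^ 2)) ?_
    linear_combination (d ^ 2 + a ^ 2) * (hpr - hpR)
  · have h2R : IsCoprime (4 : ℤ) R := by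
      obtain ⟨k, hk⟩ : Odd R := Int.odd_iff.mpr hR
      have : IsCoprime (2 : ℤ) R := ⟨-k, 1, by rw [hk]; ring⟩
      simpa using this.mul_left this
    obtain ⟨S', rfl⟩ : (4 : ℤ) ∣ S := h2R.dvd_of_dvd_mul_left ⟨r * s, key⟩
    obtain ⟨a, b, c, d, rfl, rfl, rfl, rfl, ha0, had⟩ := four_number hr0 hrs
      hRS.of_mul_right_right (by linarith :
        R * S' = r * s)
    have ha : Odd a := (Int.odd_mul.mp (Int.odd_iff.mpr hR)).1
    have hd0 : d ≠ 0 := fun h => hs0 (by simp [h])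
    have hc0 : c ≠ 0 := fun h => hr0 (by simp [h])
    refine ⟨a, d, ⟨had, ha0, hd0, ?_⟩,
      hbound a d ⟨b * c * d, by ring⟩ ⟨a * b * c, by ring⟩, ha⟩
    refine isSquare_of_mul_sq_eq hc0 (w := b * (a ^ 2 + d ^ 2)) ?_
    linear_combination (a ^ 2 + d ^ 2) * (hpR - hpr)

/-- Both factors five times a square: a smaller nontrivial solution, unless `(p,q) = (±2, ±1)`. -/
lemma descent_five {x y f g : ℤ} (hx : Odd x) (hy : Odd y) (hcop : IsCoprime x y)
    (hf : 4 * x ^ 2 + y ^ 2 = 5 * f ^ 2) (hg : x ^ 2 + 4 * y ^ 2 = 5 * g ^ 2)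
    (h5 : (5 : ℤ) ∣ y - x) :
    x.natAbs = 1 ∧ y.natAbs = 1 ∨
      ∃ p' q' : ℤ, IsX15 p' q' ∧ p' ^ 2 + 16 * q' ^ 2 < 4 * x ^ 2 + 16 * y ^ 2 ∧
        ¬ (p'.natAbs = 2 ∧ q'.natAbs = 1) := by
  have hx2 : x % 2 = 1 := Int.odd_iff.mp hx
  have hy2 : y % 2 = 1 := Int.odd_iff.mp hy
  obtain ⟨e, he⟩ : (2 : ℤ) ∣ y - x := by omega
  obtain ⟨A, hA⟩ : (5 : ℤ) ∣ x + 4 * y := by omega
  obtain ⟨B, hB⟩ : (10 : ℤ) ∣ 2 * (y - x) := by omega
  obtain ⟨A', hA'⟩ : (5 : ℤ) ∣ y + 4 * x := by omega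
  -- `A + 2 (B) i` and `A' - 2 (B) i` are primitive Pythagorean
  have hxA : x = A - 4 * B := by omega
  have hyA : y = A + B := by omega
  have hA2 : A' = A - 3 * B := by omega
  have cop : ∀ a b c c' e e' X Y : ℤ, IsCoprime X Y → c * a + c' * b = X → e * a + e' * b = Y →
      Int.gcd a b = 1 := by
    intro a b c c' e e' X Y hXY h1 h2
    rw [← Int.isCoprime_iff_gcd_eq_one]
    obtain ⟨u, v, huv⟩ := hXY
    exact ⟨u * c + v * e, u * c' + v * e', by linear_combination huv + u * h1 + v * h2⟩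
  have hx2y : IsCoprime x (2 * y) := by
    refine IsCoprime.mul_right ?_ hcop
    obtain ⟨k, hk⟩ := hx
    exact ⟨1, -k, by rw [hk]; ring⟩
  have h2xy : IsCoprime (2 * x) y := by
    refine IsCoprime.mul_left ?_ hcop
    obtain ⟨k, hk⟩ := hy
    exact ⟨-k, 1, by rw [hk]; ring⟩
  have hgA : PythagoreanTriple A (2 * B) g := by
    unfold PythagoreanTriple; subst hxA hyA
    linarith
  have hfA : PythagoreanTriple A' (-(2 * B)) f := by
    unfold PythagoreanTriple; subst hxA hyA hA2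
    linarith
  obtain ⟨r, s, ⟨hAr, hBr⟩ | ⟨hAr, -⟩, hgrs, hrs, -⟩ :=
    PythagoreanTriple.coprime_classification.mp
      ⟨hgA, cop A (2 * B) 1 (-2) 2 1 _ _ hx2y (by omega) (by omega)⟩
  swap
  · exfalso; rw [mul_assoc] at hAr; omega
  obtain ⟨R, S, ⟨hAR, hBR⟩ | ⟨hAR, -⟩, -, hRS, -⟩ :=
    PythagoreanTriple.coprime_classification.mp
      ⟨hfA, cop A' (-(2 * B)) 2 1 1 (-2) _ _ h2xy (by omega) (by omega)⟩
  swap
  · exfalso; rw [mul_assoc] at hAR; omega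
  rw [← Int.isCoprime_iff_gcd_eq_one] at hrs hRS
  have hB' : B = r * s := by linarith [hBr]
  have hBR' : R * S = -(r * s) := by linarith [hBR]
  rcases eq_or_ne (r * s) 0 with h0 | h0
  · left
    have hxy : y = x := by omega
    subst hxy
    have hu : IsUnit y := isCoprime_self.mp hcop
    exact ⟨Int.isUnit_iff_natAbs_eq.mp hu, Int.isUnit_iff_natAbs_eq.mp hu⟩
  right
  have hr0 : r ≠ 0 := left_ne_zero_of_mul h0
  have hs0 : s ≠ 0 := right_ne_zero_of_mul h0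
  obtain ⟨a, b, c, d, rfl, rfl, rfl, hS, ha0, had⟩ :=
    four_number hr0 hrs hRS.neg_right (by linear_combination -hBR' : R * -S = r * s)
  have hd0 : d ≠ 0 := fun h => hs0 (by simp [h])
  have hb0 : b ≠ 0 := fun h => hs0 (by simp [h])
  have hc0 : c ≠ 0 := fun h => hr0 (by simp [h])
  have rel : (a ^ 2 + d ^ 2) * (c ^ 2 - b ^ 2) = 3 * a * b * c * d := by
    obtain rfl : S = -(c * d) := by omega
    linear_combination -hA2 + hAR - hAr + 3 * hB'
  have sq : ∀ u v : ℤ, u ^ 2 + v ^ 2 = a ^ 2 + d ^ 2 → u * v = a * d →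
      IsSquare (((2 * u) ^ 2 + v ^ 2) * ((2 * u) ^ 2 + 16 * v ^ 2)) := by
    intro u v h1 h2
    refine isSquare_of_mul_sq_eq (mul_ne_zero hb0 hc0)
      (w := 2 * (a ^ 2 + d ^ 2) * (c ^ 2 + b ^ 2)) ?_
    have e1 : ((2 * u) ^ 2 + v ^ 2) * ((2 * u) ^ 2 + 16 * v ^ 2)
        = 4 * (4 * (u ^ 2 + v ^ 2) ^ 2 + 9 * (u * v) ^ 2) := by ring
    rw [e1, h1, h2]
    linear_combination (-4 * ((a ^ 2 + d ^ 2) * (c ^ 2 - b ^ 2) + 3 * a * b * c * d)) * rel
  have small : ∀ u v : ℤ, u * v = a * d →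
      (2 * u) ^ 2 + 16 * v ^ 2 < 4 * x ^ 2 + 16 * y ^ 2 := by
    intro u v huv
    have hu0 : u ≠ 0 := fun h => mul_ne_zero ha0 hd0 (by rw [← huv, h, zero_mul])
    have hv0 : v ≠ 0 := fun h => mul_ne_zero ha0 hd0 (by rw [← huv, h, mul_zero])
    have hu : u ^ 2 ≤ (a * d) ^ 2 := Int.le_of_dvd (by positivity) (pow_dvd_pow_of_dvd ⟨v, huv.symm⟩ 2)
    have hv : v ^ 2 ≤ (a * d) ^ 2 :=
      Int.le_of_dvd (by positivity) (pow_dvd_pow_of_dvd ⟨u, by rw [← huv, mul_comm]⟩ 2)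
    have hbc : (a * d) ^ 2 ≤ ((a * c) * (b * d)) ^ 2 :=
      Int.le_of_dvd (by positivity) (pow_dvd_pow_of_dvd ⟨b * c, by ring⟩ 2)
    have h4 : 4 * ((a * c) * (b * d)) ^ 2 ≤ g ^ 2 := by
      rcases hgrs with h | h <;> rw [h] <;> nlinarith [sq_nonneg ((a * c) ^ 2 - (b * d) ^ 2)]
    have : 0 < (a * d) ^ 2 := by positivity
    nlinarith [hg]
  by_cases h1 : a.natAbs = 1 ∧ d.natAbs = 1
  · exfalso
    have e : (a * d) * (a * d) = 1 := by
      rw [← Int.natAbs_mul_self' (a * d), Int.natAbs_mul, h1.1, h1.2]; rfl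
    have ea : a ^ 2 = 1 := by rw [← Int.natAbs_sq, h1.1]; rfl
    have ed : d ^ 2 = 1 := by rw [← Int.natAbs_sq, h1.2]; rfl
    have h2A : 2 * A = 3 * B := by
      rw [hAr, hB']
      linear_combination rel + (c ^ 2 + b ^ 2) * ea + (-(b ^ 2) - c ^ 2) * ed
    have hxy : y = -x := by omega
    subst hxy
    have := Int.isUnit_iff_natAbs_eq.mp (isCoprime_self.mp (show IsCoprime x x by simpa using hcop.neg_right))
    omega
  obtain ⟨k, hk⟩ | hd := Int.even_or_odd d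
  · have ha : Odd a := by
      rcases Int.even_or_odd a with ⟨l, hl⟩ | h
      · exfalso
        have := Int.isUnit_iff_natAbs_eq.mp
          (had.isUnit_of_dvd' (⟨l, by omega⟩ : (2 : ℤ) ∣ a) (⟨k, by omega⟩ : (2 : ℤ) ∣ d))
        omega
      · exact h
    refine ⟨2 * d, a, ⟨?_, mul_ne_zero two_ne_zero hd0, ha0, sq d a (by ring) (by ring)⟩,
      small d a (by ring), by omega⟩
    refine IsCoprime.mul_left ?_ had.symm
    obtain ⟨l, hl⟩ := ha
    exact ⟨-l, 1, by rw [hl]; ring⟩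
  · refine ⟨2 * a, d, ⟨?_, mul_ne_zero two_ne_zero ha0, hd0, sq a d rfl rfl⟩,
      small a d rfl, by omega⟩
    refine IsCoprime.mul_left ?_ had
    obtain ⟨l, hl⟩ := hd
    exact ⟨-l, 1, by rw [hl]; ring⟩

/-- If a product of positive coprime integers is a square, so is each factor. -/
lemma exists_sq_of_coprime_mul {a b w : ℤ} (ha : 0 < a) (hb : 0 < b) (hab : IsCoprime a b)
    (h : a * b = w ^ 2) : (∃ f, a = f ^ 2) ∧ ∃ g, b = g ^ 2 := by
  constructor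
  · obtain ⟨f, hf | hf⟩ := Int.sq_of_gcd_eq_one (Int.isCoprime_iff_gcd_eq_one.mp hab) h
    · exact ⟨f, hf⟩
    · nlinarith [sq_nonneg f]
  · obtain ⟨f, hf | hf⟩ := Int.sq_of_gcd_eq_one (Int.isCoprime_iff_gcd_eq_one.mp hab.symm)
      (by rwa [mul_comm] at h)
    · exact ⟨f, hf⟩
    · nlinarith [sq_nonneg f]

/-- The only nontrivial coprime solutions are `(±2, ±1)`. -/
theorem x15_quartic : ∀ {p q : ℤ}, IsX15 p q → p.natAbs = 2 ∧ q.natAbs = 1 := by
  suffices ∀ N : ℕ, ∀ p q : ℤ, p ^ 2 + 16 * q ^ 2 = N → IsX15 p q →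
      p.natAbs = 2 ∧ q.natAbs = 1 by
    intro p q h
    exact this (p ^ 2 + 16 * q ^ 2).toNat p q (by rw [Int.toNat_of_nonneg]; positivity) h
  intro N
  induction N using Nat.strong_induction_on with
  | _ N IH => ?_
  intro p q hN h
  have step : ∀ p' q' : ℤ, IsX15 p' q' → p' ^ 2 + 16 * q' ^ 2 < p ^ 2 + 16 * q ^ 2 →
      p'.natAbs = 2 ∧ q'.natAbs = 1 := by
    intro p' q' h' hlt
    refine IH (p' ^ 2 + 16 * q' ^ 2).toNat ?_ p' q' ?_ h'
    · have : 0 ≤ p' ^ 2 + 16 * q' ^ 2 := by positivity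
      omega
    · rw [Int.toNat_of_nonneg]; positivity
  obtain ⟨hcop, hp0, hq0, w, hw⟩ := h
  have hqcop : IsCoprime (p ^ 2) (q ^ 2) := hcop.pow
  -- the gcd of the two factors divides 15, and is prime to 3
  set G : ℤ := (Int.gcd (p ^ 2 + q ^ 2) (p ^ 2 + 16 * q ^ 2) : ℤ) with hG
  have hG1 : G ∣ p ^ 2 + q ^ 2 := Int.gcd_dvd_left _ _
  have hG2 : G ∣ p ^ 2 + 16 * q ^ 2 := Int.gcd_dvd_right _ _
  have h15 : G ∣ 15 := by
    obtain ⟨u, v, huv⟩ := hqcop
    have e : (15 : ℤ) = (16 * u - v) * (p ^ 2 + q ^ 2) + (v - u) * (p ^ 2 + 16 * q ^ 2) := by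
      linear_combination -15 * huv
    rw [e]; exact dvd_add (hG1.mul_left _) (hG2.mul_left _)
  have h3 : ¬ (3 : ℤ) ∣ p ^ 2 + q ^ 2 := by
    intro h
    have h' : ((p : ZMod 3) ^ 2 + (q : ZMod 3) ^ 2) = 0 := by
      exact_mod_cast (ZMod.intCast_zmod_eq_zero_iff_dvd _ 3).mpr h
    have key : ∀ a b : ZMod 3, a ^ 2 + b ^ 2 = 0 → a = 0 ∧ b = 0 := by decide
    obtain ⟨hp3, hq3⟩ := key _ _ h'
    rw [ZMod.intCast_zmod_eq_zero_iff_dvd] at hp3 hq3
    have := Int.isUnit_iff_natAbs_eq.mp (hcop.isUnit_of_dvd' hp3 hq3)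
    simp at this
  have hG35 : IsCoprime G 3 :=
    (((Int.prime_three.coprime_iff_not_dvd).mpr (fun h => h3 (h.trans hG1))).symm)
  have hG5 : G ∣ 5 := hG35.dvd_of_dvd_mul_left (by norm_num; exact h15)
  have hGpos : 0 < G := by
    rw [hG]; exact_mod_cast Int.gcd_pos_of_ne_zero_left _ (by positivity)
  have hGval : G = 1 ∨ G = 5 := by
    have : G ≤ 5 := Int.le_of_dvd (by norm_num) hG5
    interval_cases G <;> first | omega | (norm_num at hG5)
  obtain ⟨u, hu⟩ := hG1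
  obtain ⟨v, hv⟩ := hG2
  have huv : IsCoprime u v := by
    obtain ⟨x, y, hxy⟩ : ∃ x y : ℤ, x * (p ^ 2 + q ^ 2) + y * (p ^ 2 + 16 * q ^ 2) = G :=
      ⟨Int.gcdA _ _, Int.gcdB _ _, by rw [hG, Int.gcd_eq_gcd_ab]; ring⟩
    exact ⟨x, y, mul_left_cancel₀ hGpos.ne'
      (by linear_combination hxy - x * hu - y * hv)⟩
  have hu0 : 0 < u := pos_of_mul_pos_right (hu ▸ by positivity) hGpos.le
  have hv0 : 0 < v := pos_of_mul_pos_right (hv ▸ by positivity) hGpos.le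
  obtain ⟨W, hW⟩ : IsSquare (u * v) :=
    isSquare_of_mul_sq_eq hGpos.ne' (w := w) (by rw [hu, hv] at hw; linear_combination hw)
  obtain ⟨⟨f, rfl⟩, ⟨g, rfl⟩⟩ := exists_sq_of_coprime_mul hu0 hv0 huv (w := W) (by rw [hW, sq])
  rcases hGval with hG' | hG'
  · rw [hG', one_mul] at hu hv
    exfalso
    rcases Int.even_or_odd p with hp | hp
    · -- `4 ∣ p`, pass to `(q, p/4)`
      have hp2 : p % 2 = 0 := Int.even_iff.mp hp
      have hqodd : Odd q := by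
        rcases Int.even_or_odd q with hq | hq
        · have := Int.isUnit_iff_natAbs_eq.mp
            (hcop.isUnit_of_dvd' (even_iff_two_dvd.mp hp) (even_iff_two_dvd.mp hq))
          simp at this
        · exact hq
      obtain ⟨m, n, ⟨hqm, hpm⟩ | ⟨hqm, -⟩, -, -, hmn⟩ :=
        PythagoreanTriple.coprime_classification.mp
          ⟨show PythagoreanTriple q p f by unfold PythagoreanTriple; linear_combination hu,
            Int.isCoprime_iff_gcd_eq_one.mp hcop.symm⟩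
      swap
      · have := Int.odd_iff.mp hqodd; rw [mul_assoc] at hqm; omega
      obtain ⟨p', rfl⟩ : (4 : ℤ) ∣ p := by
        rcases hmn with ⟨hm, -⟩ | ⟨-, hn⟩
        · obtain ⟨k, rfl⟩ := Int.dvd_of_emod_eq_zero hm; exact ⟨k * n, by linear_combination hpm⟩
        · obtain ⟨k, rfl⟩ := Int.dvd_of_emod_eq_zero hn; exact ⟨m * k, by linear_combination hpm⟩
      have h' : IsX15 q p' := IsX15.swap ⟨hcop, hp0, hq0, w, hw⟩
      have := (step q p' h' (by nlinarith [mul_self_pos.mpr hq0])).1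
      have := Int.odd_iff.mp hqodd
      omega
    · obtain ⟨p', q', h', hlt, hodd⟩ := descent_both_sq hp hcop hq0 hu hv
      have := (step p' q' h' hlt).1
      have := Int.odd_iff.mp hodd
      omega
  · rw [hG'] at hu hv
    have hpe : Even p := by
      rcases Int.even_or_odd p with hp | hp
      · exact hp
      · exfalso
        have h1 := sq_emod_eight_of_odd hp
        obtain ⟨k, rfl⟩ | ⟨k, rfl⟩ := Int.even_or_odd g <;> ring_nf at hv <;>
          rcases Int.even_or_odd k with ⟨l, rfl⟩ | ⟨l, rfl⟩ <;> ring_nf at hv <;> omega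
    obtain ⟨x, rfl⟩ := even_iff_two_dvd.mp hpe
    have hqodd : Odd q := by
      rcases Int.even_or_odd q with hq | hq
      · have := Int.isUnit_iff_natAbs_eq.mp
          (hcop.isUnit_of_dvd' (dvd_mul_right 2 x) (even_iff_two_dvd.mp hq))
        simp at this
      · exact hq
    have hxodd : Odd x := by
      rcases Int.even_or_odd x with ⟨k, rfl⟩ | hx
      · exfalso
        have h1 := sq_emod_eight_of_odd hqodd
        obtain ⟨l, rfl⟩ | ⟨l, rfl⟩ := Int.even_or_odd f <;> ring_nf at hu <;>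
          rcases Int.even_or_odd l with ⟨i, rfl⟩ | ⟨i, rfl⟩ <;> ring_nf at hu <;>
          rcases Int.even_or_odd k with ⟨j, rfl⟩ | ⟨j, rfl⟩ <;> ring_nf at hu <;> omega
      · exact hx
    have hg2 : Even g := by
      rcases Int.even_or_odd g with hg | hg
      · exact hg
      · exfalso
        have := sq_emod_eight_of_odd hg
        have h4 : (2 : ℤ) ∣ (2 * x) ^ 2 + 16 * q ^ 2 := ⟨2 * x ^ 2 + 8 * q ^ 2, by ring⟩
        rw [hv] at h4; omega
    obtain ⟨g', rfl⟩ := even_iff_two_dvd.mp hg2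
    have hg' : x ^ 2 + 4 * q ^ 2 = 5 * g' ^ 2 := by linarith
    have hf' : 4 * x ^ 2 + q ^ 2 = 5 * f ^ 2 := by linarith
    have hcop' : IsCoprime x q := hcop.of_mul_left_right
    -- fix the sign of `x`
    have h55 : (5 : ℤ) ∣ (q - x) * (q + x) :=
      ⟨q ^ 2 - g' ^ 2, by linear_combination -hg'⟩
    suffices ∀ x' : ℤ, x' ^ 2 = x ^ 2 → Odd x' → IsCoprime x' q → (5 : ℤ) ∣ q - x' →
        (2 * x).natAbs = 2 ∧ q.natAbs = 1 by
      rcases (Int.prime_iff_natAbs_prime.mpr (by norm_num) : Prime (5 : ℤ)).dvd_or_dvd h55 with h | h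
      · exact this x rfl hxodd hcop' h
      · exact this (-x) (neg_sq x) hxodd.neg hcop'.neg_left (by rwa [sub_neg_eq_add])
    intro x' hsq hodd hc hdvd
    rcases descent_five (f := f) (g := g') hodd hqodd hc (by rw [hsq]; exact hf') (by rw [hsq]; exact hg') hdvd with
      ⟨hx1, hq1⟩ | ⟨p', q', h', hlt, hne⟩
    · refine ⟨?_, hq1⟩
      have : x.natAbs = 1 := by
        rw [← hx1, Int.natAbs_eq_iff_sq_eq, hsq]
      rw [Int.natAbs_mul, this]; rfl
    · exact absurd (step p' q' h' (by rw [hsq] at hlt; linarith)) hne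

/-- Rational `r` with `(r² + 1) (r² + 16)` a square. -/
theorem x15_quartic_rat {r w : ℚ} (h : (r ^ 2 + 1) * (r ^ 2 + 16) = w ^ 2) :
    r = 0 ∨ r = 2 ∨ r = -2 := by
  rcases eq_or_ne r 0 with h0 | h0
  · exact Or.inl h0
  have hd : (r.den : ℤ) ≠ 0 := by exact_mod_cast r.den_nz
  have hn : r.num ≠ 0 := Rat.num_ne_zero.mpr h0
  have hdQ : (r.den : ℚ) ≠ 0 := by exact_mod_cast r.den_nz
  have hr : r * r.den = r.num := Rat.mul_den_eq_num r
  have hsq : IsSquare ((r.num ^ 2 + (r.den : ℤ) ^ 2) * (r.num ^ 2 + 16 * (r.den : ℤ) ^ 2)) := by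
    rw [← Rat.isSquare_intCast_iff]
    refine ⟨w * r.den ^ 2, ?_⟩
    push_cast
    rw [← hr]
    linear_combination ((r.den : ℚ) ^ 4) * h
  obtain ⟨h2, h1⟩ := x15_quartic
    ⟨Int.isCoprime_iff_gcd_eq_one.mpr (by simpa [Int.gcd] using r.reduced.gcd_eq_one), hn, hd,
      hsq⟩
  have h1' : (r.den : ℚ) = 1 := by exact_mod_cast (by simpa using h1 : r.den = 1)
  rw [h1', mul_one] at hr
  rcases Int.natAbs_eq r.num with h | h <;> rw [h2] at h <;> rw [h] at hr <;> norm_num at hr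
  · exact Or.inr (Or.inl hr)
  · exact Or.inr (Or.inr hr)

/-- The finite rational points of `X₀(15)`. -/
theorem x15_points {u y : ℚ} (h : y ^ 2 = u * (u + 9) * (u - 16)) :
    (u = 0 ∧ y = 0) ∨ (u = -9 ∧ y = 0) ∨ (u = 16 ∧ y = 0) ∨
      (u = 36 ∧ (y = 180 ∨ y = -180)) ∨ (u = -4 ∧ (y = 20 ∨ y = -20)) := by
  rcases eq_or_ne (u + 9) 0 with hX | hX
  · have hu : u = -9 := by linarith
    subst hu
    exact Or.inr (Or.inl ⟨rfl, by simpa using h⟩)
  obtain ⟨r, hr⟩ : ∃ r, r = y / (2 * (u + 9)) := ⟨_, rfl⟩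
  have hy : y = r * (2 * (u + 9)) := by rw [hr]; field_simp
  subst hy
  have h2 : 4 * r ^ 2 * (u + 9) = u * (u - 16) :=
    mul_right_cancel₀ hX (by linear_combination h)
  have hw : (r ^ 2 + 1) * (r ^ 2 + 16) = (((u + 9) ^ 2 - 225) / (4 * (u + 9))) ^ 2 := by
    rw [div_pow, eq_div_iff (pow_ne_zero _ (mul_ne_zero four_ne_zero hX))]
    linear_combination ((4 * r ^ 2 * (u + 9)) + u * (u - 16) + 68 * (u + 9)) * h2
  rcases x15_quartic_rat hw with rfl | h' | h'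
  · rcases mul_eq_zero.mp (by linear_combination -h2 : u * (u - 16) = 0) with hu | hu
    · exact Or.inl ⟨hu, by simp⟩
    · exact Or.inr (Or.inr (Or.inl ⟨by linarith, by simp⟩))
  all_goals
    subst h'
    rcases mul_eq_zero.mp (by linear_combination -h2 : (u - 36) * (u + 4) = 0) with hu | hu
    · obtain rfl : u = 36 := by linarith
      norm_num
    · obtain rfl : u = -4 := by linarith
      norm_num

end FLTAgent.SmallCurves
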