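import Fermat.Prelude.Def_FLTPrelim_GaloisRep
import Fermat.Prelude.Def_FLTPrelim_Modularity
import Fermat.Prelude.Def_FLTPrelim_ModularRep
import Fermat.Agent.SmallCurves.X15
import Fermat.Agent.SmallCurves.Param35

/-!
A semistable curve has irreducible mod 3 or mod 5 representation.
-/

set_option autoImplicit false

namespace FLTAgent.SmallCurves

open WeierstrassCurve WeierstrassCurve.Affine

local notation "𝕂" => AlgebraicClosure ℚ

lemma isGalois_rat_algebraicClosure : IsGalois ℚ 𝕂 := by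
  have h : Algebra.IsAlgebraic ℚ 𝕂 := by
    have h := AlgebraicClosure.isAlgebraic ℚ
    rwa [Subsingleton.elim (AlgebraicClosure.instAlgebra ℚ) DivisionRing.toRatAlgebra] at h
  have : IsAlgClosure ℚ 𝕂 := ⟨inferInstance, h⟩
  have := IsAlgClosure.normal ℚ 𝕂
  exact ⟨⟩

variable (E : WeierstrassCurve ℚ)

/-- A proper Galois stable subgroup of the `p`-torsion, which has at most `p ^ 2` elements, is a
line, spanned by an eigenpoint. -/
lemma exists_eigen_point (p : ℕ) [Fact p.Prime]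
    (hne : ∃ P : (E.baseChange 𝕂).toAffine.Point, P ≠ 0 ∧ p • P = 0)
    (hfin : {P : (E.baseChange 𝕂).toAffine.Point | p • P = 0}.Finite)
    (hcard : Nat.card {P : (E.baseChange 𝕂).toAffine.Point | p • P = 0} < p ^ 3)
    (hred : ¬ Point.GaloisRepIsIrreducible (K := AlgebraicClosure ℚ) ℚ E.toAffine p) :
    ∃ P : (E.toAffine⁄𝕂).Point, P ≠ 0 ∧ p • P = 0 ∧
      ∀ σ : 𝕂 ≃ₐ[ℚ] 𝕂, ∃ k : ℕ, σ • P = k • P := by
  have hmem : ∀ P : (E.toAffine⁄𝕂).Point,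
      P ∈ Submodule.torsionBy ℤ (E.toAffine⁄𝕂).Point p ↔ p • P = 0 := by
    intro P
    rw [Submodule.mem_torsionBy_iff, natCast_zsmul]
  set M := Submodule.torsionBy ℤ (E.toAffine⁄𝕂).Point (p : ℤ)
  let e : M ≃ {P : (E.baseChange 𝕂).toAffine.Point | p • P = 0} :=
    { toFun := fun P => ⟨P.1, (hmem P.1).mp P.2⟩
      invFun := fun P => ⟨P.1, (hmem P.1).mpr P.2⟩
      left_inv := fun P => rfl
      right_inv := fun P => rfl }
  have : Finite M := by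
    have := hfin.to_subtype
    exact Finite.of_equiv _ e.symm
  have hnt : Nontrivial M := by
    obtain ⟨P, hP0, hP⟩ := hne
    exact ⟨⟨⟨P, (hmem P).mpr hP⟩, 0, fun h => hP0 (congrArg Subtype.val h)⟩⟩
  obtain ⟨N, hN, hbot, htop⟩ : ∃ N : Submodule (ZMod p) M,
      Point.IsGaloisStable ℚ N ∧ N ≠ ⊥ ∧ N ≠ ⊤ := by
    by_contra hc
    apply hred
    refine ⟨hnt, fun N hN => ?_⟩
    by_contra h
    exact hc ⟨N, hN, fun h' => h (Or.inl h'), fun h' => h (Or.inr h')⟩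
  have hle : Module.finrank (ZMod p) M ≤ 2 := by
    have h := Module.natCard_eq_pow_finrank (K := ZMod p) (V := M)
    rw [Nat.card_zmod, Nat.card_congr e] at h
    rw [h] at hcard
    have := (Nat.pow_lt_pow_iff_right (Fact.out (p := p.Prime)).one_lt).mp hcard
    omega
  have hlt : Module.finrank (ZMod p) N < Module.finrank (ZMod p) M := Submodule.finrank_lt htop
  obtain ⟨x, hxN, hx0⟩ := Submodule.exists_mem_ne_zero_of_ne_bot hbot
  have hspan : (Submodule.span (ZMod p) {x}) = N := by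
    refine Submodule.eq_of_le_of_finrank_le ((Submodule.span_singleton_le_iff_mem x N).mpr hxN) ?_
    rw [finrank_span_singleton hx0]
    omega
  refine ⟨x.1, fun h => hx0 (Subtype.ext h), (hmem _).mp x.2, fun σ => ?_⟩
  have hσ := hN σ x hxN
  rw [← hspan, Submodule.mem_span_singleton] at hσ
  obtain ⟨c, hc⟩ := hσ
  refine ⟨c.val, ?_⟩
  rw [← ZMod.natCast_zmod_val c, Nat.cast_smul_eq_nsmul] at hc
  exact (congrArg Subtype.val hc).symm

lemma smul_some_eq (σ : 𝕂 ≃ₐ[ℚ] 𝕂) {x y : 𝕂} (h : (E.toAffine⁄𝕂).Nonsingular x y) :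
    ∃ h' : (E.toAffine⁄𝕂).Nonsingular (σ x) (σ y),
      σ • (Point.some x y h : (E.toAffine⁄𝕂).Point) = Point.some (σ x) (σ y) h' :=
  ⟨_, rfl⟩

lemma nsmul_eq_mod {A : Type*} [AddMonoid A] {P : A} {n : ℕ} (h : n • P = 0) (k : ℕ) :
    k • P = (k % n) • P := by
  calc k • P = (n * (k / n) + k % n) • P := by rw [Nat.div_add_mod]
    _ = (k % n) • P := by rw [add_nsmul, mul_nsmul, h, nsmul_zero, zero_add]

/-- The abscissa of an eigenpoint of order three is fixed. -/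
lemma eigen_three_fixed {x y : 𝕂} {h : (E.toAffine⁄𝕂).Nonsingular x y}
    (h3 : 3 • (Point.some x y h : (E.toAffine⁄𝕂).Point) = 0)
    {σ : 𝕂 ≃ₐ[ℚ] 𝕂} {k : ℕ}
    (hσ : σ • (Point.some x y h : (E.toAffine⁄𝕂).Point) = k • Point.some x y h) : σ x = x := by
  obtain ⟨h', he⟩ := smul_some_eq E σ h
  rw [he, nsmul_eq_mod h3] at hσ
  have hk : k % 3 < 3 := Nat.mod_lt _ (by norm_num)
  interval_cases hm : k % 3
  · simp at hσ
  · rw [one_nsmul] at hσ
    exact (Point.some.inj hσ).1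
  · have h2 : 2 • (Point.some x y h : (E.toAffine⁄𝕂).Point) = -Point.some x y h := by
      rw [eq_neg_iff_add_eq_zero, ← succ_nsmul]; exact h3
    rw [h2, Point.neg_some] at hσ
    exact (Point.some.inj hσ).1

/-- The abscissae of an eigenpoint of order five and of its double are permuted. -/
lemma eigen_five_perm {x y x' y' : 𝕂} {h : (E.toAffine⁄𝕂).Nonsingular x y}
    {h' : (E.toAffine⁄𝕂).Nonsingular x' y'}
    (h5 : 5 • (Point.some x y h : (E.toAffine⁄𝕂).Point) = 0)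
    (h2 : 2 • (Point.some x y h : (E.toAffine⁄𝕂).Point) = Point.some x' y' h')
    {σ : 𝕂 ≃ₐ[ℚ] 𝕂} {k : ℕ}
    (hσ : σ • (Point.some x y h : (E.toAffine⁄𝕂).Point) = k • Point.some x y h) :
    σ x = x ∧ σ x' = x' ∨ σ x = x' ∧ σ x' = x := by
  have hd : σ • (Point.some x' y' h' : (E.toAffine⁄𝕂).Point) =
      2 • (σ • Point.some x y h) := by
    rw [← h2, two_nsmul, two_nsmul]
    exact Point.instDistribMulActionAlgEquiv.smul_add σ (Point.some x y h) (Point.some x y h)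
  rw [hσ, ← mul_nsmul', nsmul_eq_mod h5] at hd
  rw [nsmul_eq_mod h5] at hσ
  obtain ⟨g, hg⟩ := smul_some_eq E σ h
  obtain ⟨g', hg'⟩ := smul_some_eq E σ h'
  rw [hg] at hσ
  rw [hg'] at hd
  set P : (E.toAffine⁄𝕂).Point := Point.some x y h
  have h4 : 4 • P = -P := by rw [eq_neg_iff_add_eq_zero, ← succ_nsmul]; exact h5
  have h3 : (3 : ℕ) • P = -((2 : ℕ) • P) := by rw [eq_neg_iff_add_eq_zero, ← add_nsmul]; exact h5
  have hk : k % 5 < 5 := Nat.mod_lt _ (by norm_num)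
  have hm2 : 2 * k % 5 = 2 * (k % 5) % 5 := by rw [Nat.mul_mod]
  rw [hm2] at hd
  interval_cases hm : k % 5 <;> norm_num at hd
  · simp at hσ
  · rw [one_nsmul] at hσ
    rw [h2] at hd
    exact Or.inl ⟨(Point.some.inj hσ).1, (Point.some.inj hd).1⟩
  · rw [h2] at hσ
    rw [h4, Point.neg_some] at hd
    exact Or.inr ⟨(Point.some.inj hσ).1, (Point.some.inj hd).1⟩
  · rw [h3, h2, Point.neg_some] at hσ
    exact Or.inr ⟨(Point.some.inj hσ).1, (Point.some.inj hd).1⟩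
  · rw [h4, Point.neg_some] at hσ
    rw [h3, h2, Point.neg_some] at hd
    exact Or.inl ⟨(Point.some.inj hσ).1, (Point.some.inj hd).1⟩

/-- `5` cannot divide `c₄³ / Δ` once or twice when `c₄` and `Δ` have no common factor `5`. -/
lemma five_adic_absurd {c D M N : ℤ} {i : ℕ} (hss : (5 : ℤ) ∣ D → ¬ (5 : ℤ) ∣ c)
    (hi : i = 1 ∨ i = 2) (hM : ¬ (5 : ℤ) ∣ M) (hN : ¬ (5 : ℤ) ∣ N)
    (h : M * c ^ 3 = 5 ^ i * N * D) : False := by
  have h5 : Prime (5 : ℤ) := Int.prime_iff_natAbs_prime.mpr (by norm_num)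
  have hc : (5 : ℤ) ∣ c := by
    refine h5.dvd_of_dvd_pow ((h5.dvd_or_dvd (a := M) (b := c ^ 3) ?_).resolve_left hM)
    rw [h]
    exact ((dvd_pow_self 5 (by omega : i ≠ 0)).mul_right N).mul_right D
  apply fun hD => hss hD hc
  obtain ⟨c', rfl⟩ := hc
  rcases hi with rfl | rfl
  · refine (h5.dvd_or_dvd (a := N) ⟨5 * M * c' ^ 3, ?_⟩).resolve_left hN
    linarith
  · refine (h5.dvd_or_dvd (a := N) ⟨M * c' ^ 3, ?_⟩).resolve_left hN
    linarith

/-- The conclusion on the curve: no semistable curve lies over a rational point of `X₀(15)`. -/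
lemma no_semistable_x15 {c D : ℤ} (hD : D ≠ 0) (hss : (5 : ℤ) ∣ D → ¬ (5 : ℤ) ∣ c)
    {u y z : ℚ} (hu : u ≠ 0) (hy : y ^ 2 = u * (u + 9) * (u - 16))
    (hz : z = 9 / 2 - 3 * u / 8 - y * (u - 4) / (8 * u))
    (hj : (c : ℚ) ^ 3 * (z - 11) = (D : ℚ) * (z ^ 2 - 12 * z + 16) ^ 3) : False := by
  have hcast : ∀ (m n : ℤ), (m : ℚ) * (c : ℚ) ^ 3 = (n : ℚ) * (D : ℚ) → m * c ^ 3 = n * D :=
    fun m n h => by exact_mod_cast h
  rcases x15_points hy with ⟨rfl, -⟩ | ⟨rfl, rfl⟩ | ⟨rfl, rfl⟩ | ⟨rfl, rfl | rfl⟩ |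
      ⟨rfl, rfl | rfl⟩
  · exact hu rfl
  all_goals norm_num at hz; subst hz; norm_num at hj
  · -- `z = 63 / 8`
    exact five_adic_absurd hss (Or.inl rfl) (M := 2 ^ 15) (N := 211 ^ 3) (by norm_num)
      (by norm_num) (hcast _ _ (by push_cast; linarith))
  · -- `z = -3 / 2`
    exact five_adic_absurd hss (Or.inl rfl) (M := -32) (N := 29 ^ 3) (by norm_num)
      (by norm_num) (hcast _ _ (by push_cast; linarith))
  · -- `z = -29`
    exact five_adic_absurd hss (Or.inr rfl) (M := -8) (N := 241 ^ 3) (by norm_num)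
      (by norm_num) (hcast _ _ (by push_cast; linarith))
  · -- `z = 11`
    exact hD hj
  · -- `z = 1`
    exact five_adic_absurd hss (Or.inr rfl) (M := -2) (N := 1) (by norm_num)
      (by norm_num) (hcast _ _ (by push_cast; linarith))
  · exact hD hj

theorem mod_three_or_five_irreducible (W : WeierstrassCurve ℤ) (hΔ : W.Δ ≠ 0)
    (hW : W.IsSemistableModel) : W.ModRepIsIrreducible 3 ∨ W.ModRepIsIrreducible 5 := by
  by_contra hc
  push Not at hc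
  obtain ⟨hr3, hr5⟩ := hc
  set E : WeierstrassCurve ℚ := W.map (Int.castRingHom ℚ) with hE
  set V : WeierstrassCurve 𝕂 := E.baseChange 𝕂 with hV
  have hb : V.b₂ = (W.b₂ : 𝕂) ∧ V.b₄ = (W.b₄ : 𝕂) ∧ V.b₆ = (W.b₆ : 𝕂) ∧ V.b₈ = (W.b₈ : 𝕂) ∧
      V.c₄ = (W.c₄ : 𝕂) ∧ V.Δ = (W.Δ : 𝕂) := by
    simp [hV, hE, WeierstrassCurve.baseChange, map_b₂, map_b₄, map_b₆, map_b₈, map_c₄, map_Δ]
  obtain ⟨hb2, hb4, hb6, hb8, hc4, hVΔ⟩ := hb
  have hΔ' : V.Δ ≠ 0 := by rw [hVΔ]; exact_mod_cast hΔ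
  have : Fact (Nat.Prime 3) := ⟨by norm_num⟩
  have : Fact (Nat.Prime 5) := ⟨by norm_num⟩
  obtain ⟨P, hP0, hP, hPσ⟩ := exists_eigen_point E 3 (exists_three_torsion V hΔ')
    (three_torsion_card V).1 ((three_torsion_card V).2.trans_lt (by norm_num)) hr3
  obtain ⟨Q, hQ0, hQ, hQσ⟩ := exists_eigen_point E 5 (exists_five_torsion V hΔ')
    (five_torsion_card V).1 ((five_torsion_card V).2.trans_lt (by norm_num)) hr5
  rcases P with _ | ⟨x₀, y₀, h₀⟩
  · exact hP0 rfl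
  rcases Q with _ | ⟨x₁, y₁, h₁⟩
  · exact hQ0 rfl
  obtain ⟨x₂, y₂, h₂, h2Q, h21, hp1, hp2, -, e1, e2⟩ := five_torsion_data V h₁ hQ
  have h3 : psi3 V x₀ = 0 := psi3_eq_zero_of_three_nsmul V h₀ hP
  have ne : ∀ {x y : 𝕂} (h : V.toAffine.Nonsingular x y), 5 • Point.some x y h = 0 → x₀ ≠ x := by
    intro x y h h5 hx
    apply hP0
    have h5' : 5 • (Point.some x₀ y₀ h₀ : V.toAffine.Point) = 0 := by
      rcases eq_or_eq_neg_of_X_eq V h₀ h hx with e | e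
      · rw [e, h5]
      · rw [e]; exact (neg_nsmul _ _).trans (neg_eq_zero.mpr h5)
    have e : (Point.some x₀ y₀ h₀ : V.toAffine.Point) =
        2 • (3 • Point.some x₀ y₀ h₀) - 5 • Point.some x₀ y₀ h₀ := by abel
    rw [h5', sub_zero] at e
    exact e.trans ((congrArg _ hP).trans (nsmul_zero _))
  have h5' : 5 • (Point.some x₂ y₂ h₂ : V.toAffine.Point) = 0 := by
    rw [← h2Q, ← mul_nsmul', mul_comm, mul_nsmul']
    exact (congrArg _ hQ).trans (nsmul_zero _)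
  obtain ⟨hu0, hy, hz, hj⟩ := param35 V h21 (ne h₁ hQ) (ne h₂ h5') hp1 e1 e2 h3
  have fix0 : ∀ σ : 𝕂 ≃ₐ[ℚ] 𝕂, σ x₀ = x₀ := fun σ => by
    obtain ⟨k, hk⟩ := hPσ σ
    exact eigen_three_fixed E hP hk
  have perm : ∀ σ : 𝕂 ≃ₐ[ℚ] 𝕂, σ x₁ = x₁ ∧ σ x₂ = x₂ ∨ σ x₁ = x₂ ∧ σ x₂ = x₁ := fun σ => by
    obtain ⟨k, hk⟩ := hQσ σ
    exact eigen_five_perm E hQ h2Q hk
  have := isGalois_rat_algebraicClosure
  obtain ⟨u, hu⟩ : ∃ u : ℚ, algebraMap ℚ 𝕂 u = x15U x₀ x₁ x₂ := by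
    refine (InfiniteGalois.mem_range_algebraMap_iff_fixed _).mpr fun σ => ?_
    rcases perm σ with ⟨a, b⟩ | ⟨a, b⟩
    · simp [x15U, map_div₀, fix0 σ, a, b, map_ofNat]
    · conv_rhs => rw [← x15U_symm]
      simp [x15U, map_div₀, fix0 σ, a, b, map_ofNat]
  obtain ⟨y, hy'⟩ : ∃ y : ℚ, algebraMap ℚ 𝕂 y = x15Y V x₀ x₁ x₂ := by
    refine (InfiniteGalois.mem_range_algebraMap_iff_fixed _).mpr fun σ => ?_
    rcases perm σ with ⟨a, b⟩ | ⟨a, b⟩
    · simp [x15Y, psi2, map_div₀, fix0 σ, a, b, map_ofNat, hb2, hb4, hb6]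
    · conv_rhs => rw [← x15Y_symm]
      simp [x15Y, psi2, map_div₀, fix0 σ, a, b, map_ofNat, hb2, hb4, hb6]
  have hss : (5 : ℤ) ∣ W.Δ → ¬ (5 : ℤ) ∣ W.c₄ := hW 5 (by norm_num)
  set z : ℚ := 9 / 2 - 3 * u / 8 - y * (u - 4) / (8 * u) with hzdef
  have hz' : (z : 𝕂) = x15Z V x₁ x₂ := by
    rw [hz, ← hu, ← hy', hzdef]
    simp
  refine no_semistable_x15 hΔ hss (u := u) (y := y) (z := z) ?_ ?_ rfl ?_
  · rintro rfl
    simp [← hu] at hu0
  · rw [← hu, ← hy'] at hy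
    apply (algebraMap ℚ 𝕂).injective
    simpa using hy
  · rw [← hz', hc4, hVΔ] at hj
    exact_mod_cast hj

end FLTAgent.SmallCurves
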