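import Fermat.Agent.SmallCurves.Torsion35
import Fermat.Agent.SmallCurves.Semistable35
import Fermat.Agent.Torsion.SumSub

/-!
Abscissae of the multiples of a point, in Tate normal coordinates.
-/

set_option autoImplicit false

namespace FLTAgent.SmallCurves

open WeierstrassCurve WeierstrassCurve.Affine

section field

variable {F : Type*} [Field F] [DecidableEq F] (W : WeierstrassCurve F)

/-- Vieta for the abscissae of `Q + P` and `Q - P`. -/
lemma x_add_sub {x y x' y' u v s t : F} {hP : W.toAffine.Nonsingular x y}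
    {hQ : W.toAffine.Nonsingular x' y'} {hs : W.toAffine.Nonsingular u s}
    {ht : W.toAffine.Nonsingular v t} (hx : x' ≠ x)
    (hadd : Point.some x' y' hQ + Point.some x y hP = Point.some u s hs)
    (hsub : Point.some x' y' hQ - Point.some x y hP = Point.some v t ht) :
    (x' * x) ^ 2 - W.b₄ * (x' * x) - W.b₆ * (x' + x) - W.b₈ = (x' - x) ^ 2 * (u * v) ∧
      2 * (x' + x) * (x' * x) + W.b₂ * (x' * x) + W.b₄ * (x' + x) + W.b₆ =
        (x' - x) ^ 2 * (u + v) := by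
  rw [sub_eq_add_neg, Point.neg_some, Point.add_of_X_ne hx] at hsub
  rw [Point.add_of_X_ne hx] at hadd
  obtain ⟨hu, -⟩ := Point.some.inj hadd
  obtain ⟨hv, -⟩ := Point.some.inj hsub
  have e := FLTAgent.Torsion.addSubVal_of_X_ne (W := W.toAffine) hQ.1 hP.1 hx
  rw [hu, hv] at e
  have e0 := congrFun e 0
  have e1 := congrFun e 1
  simp [FLTAgent.Torsion.addSubVal] at e0 e1
  exact ⟨by linear_combination e0, by linear_combination e1⟩

/-- The abscissa of a point, with a junk value at infinity. -/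
def xPt : W.toAffine.Point → F
  | .some x _ _ => x
  | _ => 0

lemma xPt_neg (P : W.toAffine.Point) : xPt W (-P) = xPt W P := by
  rcases P with _ | ⟨x, y, h⟩
  · rfl
  · rw [Point.neg_some]; rfl

variable {W}

/-- Torsion of prime order: small multiples are nonzero. -/
lemma nsmul_ne_zero_of_prime {p : ℕ} (hp : p.Prime) {P : W.toAffine.Point} (hP : P ≠ 0)
    (hpP : p • P = 0) {k : ℕ} (hk : ¬ p ∣ k) : k • P ≠ 0 := by
  intro h
  apply hP
  have h1 : Nat.gcd k p = 1 := (hp.coprime_iff_not_dvd.mpr hk).symm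
  have hdvd : addOrderOf P ∣ Nat.gcd k p :=
    Nat.dvd_gcd (addOrderOf_dvd_of_nsmul_eq_zero h) (addOrderOf_dvd_of_nsmul_eq_zero hpP)
  rw [h1, Nat.dvd_one] at hdvd
  exact AddMonoid.addOrderOf_eq_one_iff.mp hdvd

/-- The abscissae of `k • P`. -/
def xMul (P : W.toAffine.Point) (k : ℕ) : F := xPt W (k • P)

lemma exists_mul_some {p : ℕ} (hp : p.Prime) {P : W.toAffine.Point} (hP : P ≠ 0)
    (hpP : p • P = 0) {k : ℕ} (hk : ¬ p ∣ k) :
    ∃ y h, k • P = Point.some (xMul P k) y h := by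
  have := nsmul_ne_zero_of_prime hp hP hpP hk
  rw [xMul]
  rcases hQ : k • P with _ | ⟨x, y, h⟩
  · exact absurd hQ this
  · exact ⟨y, h, rfl⟩

/-- `x (k P) = x (l P)` forces `k ≡ ± l`. -/
lemma xMul_ne {p : ℕ} (hp : p.Prime) {P : W.toAffine.Point} (hP : P ≠ 0)
    (hpP : p • P = 0) {k l : ℕ} (hk : ¬ p ∣ k) (hl : ¬ p ∣ l) (hlk : l < k)
    (h1 : ¬ p ∣ k - l) (h2 : ¬ p ∣ k + l) : xMul P k ≠ xMul P l := by
  obtain ⟨y, h, e⟩ := exists_mul_some hp hP hpP hk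
  obtain ⟨y', h', e'⟩ := exists_mul_some hp hP hpP hl
  intro hx
  rcases eq_or_eq_neg_of_X_eq W h h' hx with hh | hh <;> rw [← e, ← e'] at hh
  · apply nsmul_ne_zero_of_prime hp hP hpP h1
    have : (k - l) • P + l • P = l • P := by rw [← add_nsmul, Nat.sub_add_cancel hlk.le, hh]
    simpa using this
  · apply nsmul_ne_zero_of_prime hp hP hpP h2
    rw [add_nsmul, hh, neg_add_cancel]

/-- `x (k P) = x (l P)` when `p ∣ k + l`. -/
lemma xMul_eq_of_dvd_add {p : ℕ} {P : W.toAffine.Point} (hpP : p • P = 0) {k l : ℕ}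
    (h : p ∣ k + l) : xMul P k = xMul P l := by
  obtain ⟨m, hm⟩ := h
  have : k • P = -(l • P) := by
    rw [eq_neg_iff_add_eq_zero, ← add_nsmul, hm, mul_comm, mul_nsmul, nsmul_eq_mod hpP m]
    rw [← mul_nsmul, mul_comm, mul_nsmul, hpP, nsmul_zero]
  rw [xMul, this, xPt_neg, xMul]

lemma xMul_mod {p : ℕ} {P : W.toAffine.Point} (hpP : p • P = 0) (k : ℕ) :
    xMul P k = xMul P (k % p) := by
  rw [xMul, nsmul_eq_mod hpP k, xMul]

/-- The duplication relation `x (2P) ψ₂²(x) = φ₂(x)` and `ψ₂² ≠ 0`. -/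
lemma xMul_two {p : ℕ} (hp : p.Prime) (hp2 : p ≠ 2) {P : W.toAffine.Point} (hP : P ≠ 0)
    (hpP : p • P = 0) {k : ℕ} (hk : ¬ p ∣ k) :
    psi2 W (xMul P k) ≠ 0 ∧
      xMul P (2 * k) * psi2 W (xMul P k) = phi2 W (xMul P k) := by
  obtain ⟨y, h, e⟩ := exists_mul_some hp hP hpP hk
  have h2 : ¬ p ∣ 2 * k := fun hd => (hp.dvd_mul.mp hd).elim
    (fun h' => hp2 ((Nat.prime_dvd_prime_iff_eq hp Nat.prime_two).mp h')) hk
  have e2 : 2 • (k • P) = (2 * k) • P := by rw [← mul_nsmul']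
  obtain ⟨x', y', h', he, hne, hφ⟩ := two_nsmul_some W h
    (by rw [← e, e2]; exact nsmul_ne_zero_of_prime hp hP hpP h2)
  refine ⟨hne, ?_⟩
  rw [← e, e2] at he
  rw [show xMul P (2 * k) = x' by rw [xMul, he]; rfl]
  exact hφ

/-- Recursion for `x ((k ± 1) P)`. -/
lemma xMul_add_sub {p : ℕ} (hp : p.Prime) {P : W.toAffine.Point} (hP : P ≠ 0) (hpP : p • P = 0)
    {k : ℕ} (hk : ¬ p ∣ k + 1) (hk0 : ¬ p ∣ k + 2) (hk1 : ¬ p ∣ k) :
    (xMul P (k + 1) * xMul P 1) ^ 2 - W.b₄ * (xMul P (k + 1) * xMul P 1) -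
          W.b₆ * (xMul P (k + 1) + xMul P 1) - W.b₈ =
        (xMul P (k + 1) - xMul P 1) ^ 2 * (xMul P (k + 2) * xMul P k) ∧
      2 * (xMul P (k + 1) + xMul P 1) * (xMul P (k + 1) * xMul P 1) +
          W.b₂ * (xMul P (k + 1) * xMul P 1) + W.b₄ * (xMul P (k + 1) + xMul P 1) + W.b₆ =
        (xMul P (k + 1) - xMul P 1) ^ 2 * (xMul P (k + 2) + xMul P k) := by
  have h1 : ¬ p ∣ 1 := fun h => hp.one_lt.ne' (Nat.dvd_one.mp h)
  obtain ⟨y, h, e⟩ := exists_mul_some hp hP hpP h1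
  obtain ⟨y', h', e'⟩ := exists_mul_some hp hP hpP hk
  obtain ⟨s, hs, es⟩ := exists_mul_some hp hP hpP hk0
  obtain ⟨t, ht, et⟩ := exists_mul_some hp hP hpP hk1
  refine x_add_sub W (xMul_ne hp hP hpP hk h1 ?_ (by simpa using hk1) hk0) (hP := h) (hQ := h')
    (hs := hs) (ht := ht) ?_ ?_
  · rcases Nat.eq_zero_or_pos k with rfl | hk'
    · exact absurd (dvd_zero p) hk1
    · omega
  · rw [← e, ← e', ← es, ← add_nsmul]
  · rw [← e, ← e', ← et, sub_eq_iff_eq_add, ← add_nsmul]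

/-- Tate normal coordinates attached to a point whose order is a prime `≥ 5`. -/
lemma exists_tate {p : ℕ} (hp : p.Prime) (hp5 : 5 ≤ p) {P : W.toAffine.Point} (hP : P ≠ 0)
    (hpP : p • P = 0) :
    ∃ (U b c : F) (V : WeierstrassCurve F), U ≠ 0 ∧ b ≠ 0 ∧ c ≠ 0 ∧
      V = (⟨1, xMul P 1, 0, 0⟩ : VariableChange F) • W ∧
      V.b₂ = U * ((1 - c) ^ 2 - 4 * b) ∧ V.b₄ = b * (c - 1) * U ^ 2 ∧ V.b₆ = b ^ 2 * U ^ 3 ∧
      V.b₈ = -(b ^ 3) * U ^ 4 ∧
      xMul P 2 = xMul P 1 + b * U ∧ xMul P 3 = xMul P 1 + c * U ∧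
      (∀ k, ¬ p ∣ k → ¬ p ∣ k + 1 → ¬ p ∣ k + 2 →
        (xMul P (k + 2) - xMul P 1) * (xMul P k - xMul P 1) * (xMul P (k + 1) - xMul P 1) ^ 2 =
          b ^ 2 * U ^ 3 * (b * U - (xMul P (k + 1) - xMul P 1))) := by
  have nd : ∀ k, 0 < k → k < p → ¬ p ∣ k := fun k h0 hk h =>
    absurd (Nat.le_of_dvd h0 h) (not_le.mpr hk)
  obtain ⟨hψ, hφ⟩ := xMul_two hp (by omega) hP hpP (nd 1 one_pos (by omega))
  obtain ⟨V, hV⟩ : ∃ V, V = (⟨1, xMul P 1, 0, 0⟩ : VariableChange F) • W := ⟨_, rfl⟩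
  obtain ⟨x1, hx1⟩ : ∃ x1, x1 = xMul P 1 := ⟨_, rfl⟩
  rw [← hx1] at hψ hφ
  norm_num at hφ
  have hb2 : V.b₂ = W.b₂ + 12 * x1 := by simp [hV, hx1, variableChange_b₂]
  have hb4 : V.b₄ = W.b₄ + x1 * W.b₂ + 6 * x1 ^ 2 := by simp [hV, hx1, variableChange_b₄]
  have hb6 : V.b₆ = psi2 W x1 := by simp [hV, hx1, variableChange_b₆, psi2]; ring
  have hb8 : V.b₈ = psi3 W x1 := by simp [hV, hx1, variableChange_b₈, psi3]; ring
  obtain ⟨d, hd⟩ : ∃ d, d = xMul P 2 - x1 := ⟨_, rfl⟩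
  have hd0 : d ≠ 0 := by
    rw [hd, hx1, sub_ne_zero]
    exact xMul_ne hp hP hpP (nd 2 two_pos (by omega)) (nd 1 one_pos (by omega)) one_lt_two
      (nd 1 one_pos (by omega)) (nd 3 (by omega) (by omega))
  have e1 : V.b₈ = -(d * V.b₆) := by
    rw [hb8, hb6, hd]; rw [phi2_eq] at hφ; linear_combination hφ
  obtain ⟨U, hU⟩ : ∃ U, U = V.b₆ / d ^ 2 := ⟨_, rfl⟩
  obtain ⟨b, hb⟩ : ∃ b, b = d ^ 3 / V.b₆ := ⟨_, rfl⟩
  obtain ⟨c, hc⟩ : ∃ c, c = 1 + V.b₄ * d / V.b₆ := ⟨_, rfl⟩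
  have h6 : V.b₆ ≠ 0 := by rw [hb6]; exact hψ
  have hU0 : U ≠ 0 := by rw [hU]; exact div_ne_zero h6 (pow_ne_zero 2 hd0)
  have hb0 : b ≠ 0 := by rw [hb]; exact div_ne_zero (pow_ne_zero 3 hd0) h6
  have hbU : b * U = d := by rw [hb, hU]; field_simp
  have e4 : V.b₄ = b * (c - 1) * U ^ 2 := by rw [hb, hU, hc]; field_simp; ring
  have e6 : V.b₆ = b ^ 2 * U ^ 3 := by rw [hb, hU]; field_simp
  have e8 : V.b₈ = -(b ^ 3) * U ^ 4 := by rw [e1, ← hbU, e6]; ring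
  have e2 : V.b₂ = U * ((1 - c) ^ 2 - 4 * b) := by
    have r := V.b_relation
    rw [e4, e6, e8] at r
    apply mul_right_cancel₀ (mul_ne_zero (pow_ne_zero 2 hb0) (pow_ne_zero 3 hU0))
    linear_combination -r
  have h3 : xMul P 3 = x1 + c * U := by
    obtain ⟨-, hsum⟩ := xMul_add_sub hp hP hpP (k := 1) (nd 2 two_pos (by omega))
      (nd 3 (by omega) (by omega)) (nd 1 one_pos (by omega))
    rw [← hx1] at hsum
    norm_num at hsum
    rw [show xMul P 2 = x1 + d by rw [hd]; ring] at hsum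
    rw [hb4] at e4
    rw [hb6, psi2] at e6
    apply mul_right_cancel₀ (pow_ne_zero 2 hd0)
    linear_combination -hsum + d * e4 + e6 + (b * (c - 1) * U ^ 2 - c * U * (b * U + d)) * (hbU.symm)
  have hc0 : c ≠ 0 := by
    intro h0
    apply xMul_ne hp hP hpP (nd 3 (by omega) (by omega)) (nd 1 one_pos (by omega)) (by omega)
      (nd 2 two_pos (by omega)) (nd 4 (by omega) (by omega))
    rw [h3, h0, ← hx1]; ring
  refine ⟨U, b, c, V, hU0, hb0, hc0, hV, e2, e4, e6, e8,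
    by rw [hbU, hd, ← hx1]; ring, by rw [← hx1, h3], ?_⟩
  intro k hk hk1 hk2
  obtain ⟨hprod, hsum⟩ := xMul_add_sub hp hP hpP hk1 hk2 hk
  rw [← hx1] at hprod hsum ⊢
  rw [hb6, psi2] at e6
  rw [hb8, psi3] at e8
  linear_combination -hprod + x1 * hsum - e8 - (xMul P (k + 1) - x1) * e6

end field

/-- A Galois element permutes the abscissae as multiplication by its scalar. -/
lemma galois_xMul (E : WeierstrassCurve ℚ) {P : (E.toAffine⁄(AlgebraicClosure ℚ)).Point}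
    (σ : AlgebraicClosure ℚ ≃ₐ[ℚ] AlgebraicClosure ℚ) {k : ℕ} (hσ : σ • P = k • P) (j : ℕ)
    (hj : j • P ≠ 0) :
    σ (xMul (W := E.baseChange (AlgebraicClosure ℚ)) P j) =
      xMul (W := E.baseChange (AlgebraicClosure ℚ)) P (k * j) := by
  have h1 : σ • (j • P) = (k * j) • P := by
    rw [show σ • (j • P) = j • (σ • P) from
      (Point.map σ.toAlgHom).map_nsmul j P, hσ, ← mul_nsmul]
  rw [xMul, xMul]
  rcases hQ : j • P with _ | ⟨x, y, h⟩
  · exact absurd hQ hj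
  · rw [hQ] at h1
    obtain ⟨h', he⟩ := smul_some_eq E σ h
    rw [he] at h1
    rw [show (k * j) • (P : (E.baseChange (AlgebraicClosure ℚ)).toAffine.Point) =
      Point.some (σ x) (σ y) h' from h1.symm]
    rfl

end FLTAgent.SmallCurves
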