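import Fermat.Agent.SmallCurves.FreySmall
import Fermat.Agent.SmallCurves.TateForm
import Fermat.Agent.SmallCurves.X1Eleven.Descent
import Fermat.Agent.SmallCurves.X1Eleven.Invariant

/-!
No Galois stable eleven-line on a curve with positive `c₄` and positive discriminant.
-/

set_option autoImplicit false

namespace FLTAgent.SmallCurves

open WeierstrassCurve WeierstrassCurve.Affine X1Eleven

section field

variable {F : Type*} [Field F] [DecidableEq F] {W : WeierstrassCurve F}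

/-- `b / c` in Tate coordinates. -/
def par11R (P : W.toAffine.Point) : F :=
  (xMul P 2 - xMul P 1) / (xMul P 3 - xMul P 1)

/-- `c / (r - 1)` in Tate coordinates. -/
def par11S (P : W.toAffine.Point) : F :=
  par11R P * (xMul P 3 - xMul P 1) / (xMul P 4 - xMul P 1)

/-- The abscissa of the point of `y² + y = x³ - x²` attached to a point of order eleven. -/
def par11X (P : W.toAffine.Point) : F := (par11R P - 1) / (par11S P - 1)

/-- The ordinate of the point of `y² + y = x³ - x²` attached to a point of order eleven. -/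
def par11Y (P : W.toAffine.Point) : F := par11R P - 1

/-- The abscissa on the isogenous curve. -/
def par11I (P : W.toAffine.Point) : F := psiX (par11X P)

/-- `2Y + 1` on the isogenous curve. -/
def par11J (P : W.toAffine.Point) : F := psiA (par11X P) * (2 * par11Y P + 1)

variable {P : W.toAffine.Point}

lemma prime_eleven_nat : Nat.Prime 11 := by norm_num

/-- Tate coordinates of a point of order eleven. -/
lemma level_eleven_core (hP0 : P ≠ 0) (hP : 11 • P = 0) :
    ∃ (U b c : F) (V : WeierstrassCurve F), U ≠ 0 ∧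
      V = (⟨1, xMul P 1, 0, 0⟩ : VariableChange F) • W ∧
      V.b₂ = U * ((1 - c) ^ 2 - 4 * b) ∧ V.b₄ = b * (c - 1) * U ^ 2 ∧ V.b₆ = b ^ 2 * U ^ 3 ∧
      V.b₈ = -(b ^ 3) * U ^ 4 ∧
      OnE (par11X P) (par11Y P) ∧ par11X P ≠ 0 ∧ par11X P - 1 ≠ 0 ∧
      b * par11X P = (1 + par11Y P) * (par11X P + par11Y P) * par11Y P ∧
      c * par11X P = (par11X P + par11Y P) * par11Y P ∧
      xMul P 2 - xMul P 1 = b * U ∧ xMul P 3 - xMul P 1 = c * U ∧
      xMul P 4 - xMul P 1 = par11R P * (par11R P - 1) * U ∧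
      xMul P 5 - xMul P 1 = par11R P * par11S P * (par11S P - 1) * U ∧
      par11R P ≠ 0 ∧ par11S P ≠ 0 ∧ par11R P - 1 ≠ 0 ∧ par11S P - 1 ≠ 0 ∧
      par11S P - par11R P ≠ 0 ∧ b = par11R P * par11S P * (par11R P - 1) ∧
      c = par11S P * (par11R P - 1) := by
  have hp := prime_eleven_nat
  obtain ⟨U, b, c, V, hU, hb0, hc0, hV, e2, e4, e6, e8, x2, x3, hrec⟩ :=
    exists_tate (W := W) hp (by norm_num) hP0 hP
  have hx : ∀ k, ¬ 11 ∣ k → 1 < k → k < 10 → xMul P k - xMul P 1 ≠ 0 := fun k hk h1 h2 =>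
    sub_ne_zero.mpr (xMul_ne hp hP0 hP hk (by norm_num) h1 (by omega) (by omega))
  have hbc : b ≠ c := by
    intro h
    apply xMul_ne hp hP0 hP (k := 3) (l := 2) (by norm_num) (by norm_num) (by norm_num)
      (by norm_num) (by norm_num)
    rw [x2, x3, h]
  obtain ⟨r, hr⟩ : ∃ r, r = b / c := ⟨_, rfl⟩
  have hr1 : r - 1 ≠ 0 := by
    rw [hr, div_sub_one hc0]; exact div_ne_zero (sub_ne_zero.mpr hbc) hc0
  have hbr : b = r * c := by rw [hr]; field_simp
  clear hr
  obtain ⟨s, hs⟩ : ∃ s, s = c / (r - 1) := ⟨_, rfl⟩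
  obtain rfl : c = s * (r - 1) := by rw [hs, div_mul_cancel₀ _ hr1]
  clear hs
  obtain rfl : b = r * s * (r - 1) := by rw [hbr]; ring
  have hs0 : s ≠ 0 := left_ne_zero_of_mul hc0
  have hr0 : r ≠ 0 := left_ne_zero_of_mul (left_ne_zero_of_mul hb0)
  obtain ⟨x1, hx1⟩ : ∃ t, t = xMul P 1 := ⟨_, rfl⟩
  have x4 : xMul P 4 - x1 = r * (r - 1) * U := by
    have h := hrec 2 (by norm_num) (by norm_num) (by norm_num)
    norm_num at h
    rw [x2, x3, ← hx1] at h
    apply mul_right_cancel₀ (mul_ne_zero hb0 (mul_ne_zero (pow_ne_zero 2 hc0) (pow_ne_zero 3 hU)))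
    linear_combination h
  have x5 : xMul P 5 - x1 = r * s * (s - 1) * U := by
    have h := hrec 3 (by norm_num) (by norm_num) (by norm_num)
    norm_num at h
    rw [x3, ← hx1, x4] at h
    apply mul_right_cancel₀ (mul_ne_zero (mul_ne_zero hc0 (pow_ne_zero 2 (mul_ne_zero hr0 hr1)))
      (pow_ne_zero 3 hU))
    linear_combination h
  have hs1 : s - 1 ≠ 0 := by
    intro h
    refine hx 5 (by norm_num) (by norm_num) (by norm_num) ?_
    rw [← hx1, x5, h]; ring
  have x6' : xMul P 6 = xMul P 5 := xMul_eq_of_dvd_add hP (by norm_num)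
  have hF : (r - 1) * (r - s) = r * (s - 1) ^ 3 := by
    have h := hrec 4 (by norm_num) (by norm_num) (by norm_num)
    norm_num at h
    rw [x6', ← hx1, x4, x5] at h
    apply mul_left_cancel₀ (mul_ne_zero (mul_ne_zero (pow_ne_zero 3 hs0) (pow_ne_zero 3 hr0))
      (mul_ne_zero hr1 (pow_ne_zero 4 hU)))
    linear_combination -h
  have hrs : s - r ≠ 0 := fun h =>
    mul_ne_zero hr0 (pow_ne_zero 3 hs1) (by linear_combination -hF - (r - 1) * h)
  have eR : par11R P = r := by
    rw [par11R, x2, x3, add_sub_cancel_left, add_sub_cancel_left]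
    field_simp
  have eS : par11S P = s := by
    rw [par11S, eR, x3, add_sub_cancel_left, ← hx1, x4]
    field_simp
  have eX : par11X P = (r - 1) / (s - 1) := by rw [par11X, eR, eS]
  have eY : par11Y P = r - 1 := by rw [par11Y, eR]
  refine ⟨U, _, _, V, hU, hV, e2, e4, e6, e8, ?_, ?_, ?_, ?_, ?_, by rw [x2]; ring, by rw [x3]; ring,
    by rw [← hx1, x4, eR], by rw [← hx1, x5, eR, eS], by rwa [eR], by rwa [eS], by rwa [eR],
    by rwa [eS], by rwa [eR, eS], by rw [eR, eS], by rw [eR, eS]⟩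
  · rw [eX, eY]; unfold OnE
    field_simp
    linear_combination -hF
  · rw [eX]; exact div_ne_zero hr1 hs1
  · rw [eX, div_sub_one hs1]
    exact div_ne_zero (by rw [show r - 1 - (s - 1) = -(s - r) by ring]; exact neg_ne_zero.mpr hrs) hs1
  · rw [eX, eY]; field_simp; ring
  · rw [eX, eY]; field_simp; ring

lemma par11I_neg : par11I (-P) = par11I P ∧ par11J (-P) = par11J P := by
  have h : ∀ k, xMul (-P) k = xMul P k := fun k => by
    rw [xMul, neg_nsmul, xPt_neg, xMul]
  simp [par11I, par11J, par11X, par11Y, par11S, par11R, h]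

/-- Doubling translates the parameter by a point of order five. -/
lemma par11I_two (hP0 : P ≠ 0) (hP : 11 • P = 0) :
    par11I (2 • P) = par11I P ∧ par11J (2 • P) = par11J P := by
  obtain ⟨U, b, c, V, hU, -, -, -, -, -, hE, h0, h1, -, -, x2, x3, x4, x5, hr0, hs0, hr1, hs1, hrs,
    rfl, rfl⟩ := level_eleven_core hP0 hP
  have hm : ∀ j, xMul (2 • P) j = xMul P (2 * j) := fun j => by rw [xMul, xMul, ← mul_nsmul]
  have x6 : xMul P 6 = xMul P 5 := xMul_eq_of_dvd_add hP (by norm_num)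
  have x8 : xMul P 8 = xMul P 3 := xMul_eq_of_dvd_add hP (by norm_num)
  obtain ⟨r, hr⟩ : ∃ r, r = par11R P := ⟨_, rfl⟩
  obtain ⟨s, hs⟩ : ∃ s, s = par11S P := ⟨_, rfl⟩
  have hY : par11Y P = r - 1 := by rw [par11Y, hr]
  have hX : par11X P = (r - 1) / (s - 1) := by rw [par11X, hr, hs]
  simp only [← hr, ← hs] at x2 x3 x4 x5 hr0 hs0 hr1 hs1 hrs
  have h1r : 1 - r ≠ 0 := by rw [← neg_sub]; exact neg_ne_zero.mpr hr1
  have eR : par11R (2 • P) = (r - 1) * (1 - s) / (s * (s - r)) := by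
    rw [par11R, hm, hm, hm]
    norm_num
    rw [x6, show xMul P 4 - xMul P 2 = r * (r - 1) * (1 - s) * U by linear_combination x4 - x2,
      show xMul P 5 - xMul P 2 = r * s * (s - r) * U by linear_combination x5 - x2]
    field_simp
  have eS : par11S (2 • P) = r * (s - 1) / (s * (r - 1)) := by
    rw [par11S, eR, hm, hm, hm]
    norm_num
    rw [x8, x6, show xMul P 3 - xMul P 2 = s * (r - 1) * (1 - r) * U by linear_combination x3 - x2,
      show xMul P 5 - xMul P 2 = r * s * (s - r) * U by linear_combination x5 - x2]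
    field_simp
    ring
  have hs1' : r * (s - 1) / (s * (r - 1)) - 1 ≠ 0 := by
    rw [div_sub_one (mul_ne_zero hs0 hr1)]
    exact div_ne_zero (by rwa [show r * (s - 1) - s * (r - 1) = s - r by ring]) (mul_ne_zero hs0 hr1)
  obtain ⟨x, hx⟩ : ∃ x, x = par11X P := ⟨_, rfl⟩
  obtain ⟨y, hy⟩ : ∃ y, y = par11Y P := ⟨_, rfl⟩
  rw [← hx, ← hy] at hE
  rw [← hx] at h0 h1
  have er : r = 1 + y := by rw [hy, hY]; ring
  have es : s = (x + y) / x := by rw [hx, hy, hX, hY]; field_simp; ring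
  have hxy : x + y ≠ 0 := fun h => hs0 (by rw [es, h, zero_div])
  have hy0 := hE.y_ne h0 h1
  have h1x : 1 - x ≠ 0 := by rw [← neg_sub]; exact neg_ne_zero.mpr h1
  have eY' : par11Y (2 • P) = t3Y x y := by
    rw [par11Y, eR, er, es, show (1 + y - 1) * (1 - (x + y) / x) / ((x + y) / x * ((x + y) / x - (1 + y))) - 1 =
        (x ^ 2 - x - y) / ((x + y) * (1 - x)) by
      rw [show (x + y) / x - (1 + y) = y * (1 - x) / x by field_simp; ring]
      field_simp; ring,
      show t3Y x y = (-y * (y ^ 2 - x * (x - 1) ^ 2 - (x - 1) ^ 2) - (x - 1) ^ 3) / (x - 1) ^ 3 by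
        simp only [t3Y, t3X]; field_simp,
      div_eq_div_iff (mul_ne_zero hxy h1x) (pow_ne_zero 3 h1)]
    unfold OnE at hE
    linear_combination (-y ^ 2 * x + y ^ 2 - y * x ^ 2 + 2 * y * x - y) * hE
  have eX' : par11X (2 • P) = t3X x y := by
    have hden : par11S (2 • P) - 1 = (1 - x) / (x + y) := by
      rw [eS, er, es, add_sub_cancel_left, div_sub_one h0, add_sub_cancel_left,
        eq_div_iff hxy]
      field_simp
      ring
    have hnum : par11Y (2 • P) = (x ^ 2 - x - y) / ((x + y) * (1 - x)) := by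
      rw [par11Y, eR, er, es]
      rw [show (x + y) / x - (1 + y) = y * (1 - x) / x by field_simp; ring]
      field_simp; ring
    rw [par11X, ← par11Y, hnum, hden, div_div_div_eq,
      show (x ^ 2 - x - y) * (x + y) / ((x + y) * (1 - x) * (1 - x)) =
        (x ^ 2 - x - y) / (1 - x) ^ 2 by field_simp,
      show t3X x y = (y ^ 2 - x * (x - 1) ^ 2) / (x - 1) ^ 2 by simp only [t3X]; field_simp,
      div_eq_div_iff (pow_ne_zero 2 h1x) (pow_ne_zero 2 h1)]
    unfold OnE at hE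
    linear_combination -(x - 1) ^ 2 * hE
  obtain ⟨-, -, -, hI, hJ⟩ := t3_spec hE h0 h1
  exact ⟨by rw [par11I, eX', hI, hx, par11I], by rw [par11J, eX', eY', hJ, hx, hy, par11J]⟩

/-- The isogenous point depends only on the line. -/
lemma par11I_line (hP0 : P ≠ 0) (hP : 11 • P = 0) {k : ℕ} (hk : k • P ≠ 0) :
    par11I (k • P) = par11I P ∧ par11J (k • P) = par11J P := by
  have h2 : ∀ i, par11I (2 ^ i • P) = par11I P ∧ par11J (2 ^ i • P) = par11J P := by
    intro i
    induction i with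
    | zero => simp
    | succ i ih =>
      have hi0 : 2 ^ i • P ≠ 0 := nsmul_ne_zero_of_prime prime_eleven_nat hP0 hP fun h => by
        have := prime_eleven_nat.dvd_of_dvd_pow h; norm_num at this
      have hi : 11 • (2 ^ i • P) = 0 := by rw [← mul_nsmul, mul_comm, mul_nsmul, hP, nsmul_zero]
      rw [show 2 ^ (i + 1) • P = 2 • (2 ^ i • P) by rw [← mul_nsmul, pow_succ]]
      exact ⟨(par11I_two hi0 hi).1.trans ih.1, (par11I_two hi0 hi).2.trans ih.2⟩
  rw [nsmul_eq_mod hP] at hk ⊢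
  have key : ∃ i, k % 11 = 2 ^ i % 11 ∨ (k % 11 + 2 ^ i) % 11 = 0 := by
    have hlt : k % 11 < 11 := Nat.mod_lt _ (by norm_num)
    interval_cases hm : k % 11
    · simp at hk
    · exact ⟨0, by norm_num⟩
    · exact ⟨1, by norm_num⟩
    · exact ⟨3, by norm_num⟩
    · exact ⟨2, by norm_num⟩
    · exact ⟨4, by norm_num⟩
    · exact ⟨4, by norm_num⟩
    · exact ⟨2, by norm_num⟩
    · exact ⟨3, by norm_num⟩
    · exact ⟨1, by norm_num⟩
    · exact ⟨0, by norm_num⟩
  obtain ⟨i, h | h⟩ := key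
  · rw [show (k % 11) • P = 2 ^ i • P by rw [nsmul_eq_mod hP (2 ^ i), h]]
    exact h2 i
  · rw [show (k % 11) • P = -(2 ^ i • P) by
      rw [eq_neg_iff_add_eq_zero, ← add_nsmul, nsmul_eq_mod hP, h, zero_nsmul]]
    exact ⟨par11I_neg.1.trans (h2 i).1, par11I_neg.2.trans (h2 i).2⟩

end field

local notation "𝕂" => AlgebraicClosure ℚ

/-- A curve with positive `c₄` and discriminant has no stable eleven-line. -/
theorem no_eleven_line (E : WeierstrassCurve ℚ) (hΔ : 0 < E.Δ) (hc4 : 0 < E.c₄) :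
    ¬ Point.HasGaloisStableCofixedLine (K := AlgebraicClosure ℚ) ℚ E.toAffine 11 := by
  intro hline
  set W : WeierstrassCurve 𝕂 := E.baseChange 𝕂 with hW
  have hb : W.c₄ = (E.c₄ : 𝕂) ∧ W.Δ = (E.Δ : 𝕂) := by
    simp [hW, WeierstrassCurve.baseChange, map_c₄, map_Δ]
  obtain ⟨hWc, hWΔ⟩ := hb
  obtain ⟨P, hP0, hP, hPσ⟩ := exists_eigen_point_of_cofixed E hΔ.ne' 11 prime_eleven_nat hline
  obtain ⟨U, b, c, V, hU, hV, e2, e4, e6, e8, hE, h0, h1, hb, hc, -⟩ :=
    level_eleven_core (W := W) hP0 hP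
  have := isGalois_rat_algebraicClosure
  have fixed : ∀ σ : 𝕂 ≃ₐ[ℚ] 𝕂, σ (par11I (W := W) P) = par11I (W := W) P ∧
      σ (par11J (W := W) P) = par11J (W := W) P := by
    intro σ
    obtain ⟨k, hk⟩ := hPσ σ
    have hk0 : k • P ≠ 0 := by rw [← hk]; exact fun h => hP0 ((smul_eq_zero_iff_eq σ).mp h)
    have g : ∀ j, ¬ 11 ∣ j → σ (xMul (W := W) P j) = xMul (W := W) (k • P) j := fun j hj => by
      rw [galois_xMul E σ hk j (nsmul_ne_zero_of_prime (W := W) prime_eleven_nat hP0 hP hj), xMul,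
        xMul]
      exact congrArg (xPt _) (mul_nsmul P k j)
    obtain ⟨l1, l2⟩ := par11I_line (W := W) hP0 hP hk0
    have gR : σ (par11R (W := W) P) = par11R (W := W) (k • P) := by
      simp [par11R, g 1 (by norm_num), g 2 (by norm_num), g 3 (by norm_num)]
    have gS : σ (par11S (W := W) P) = par11S (W := W) (k • P) := by
      simp [par11S, gR, g 1 (by norm_num), g 3 (by norm_num), g 4 (by norm_num)]
    have gX : σ (par11X (W := W) P) = par11X (W := W) (k • P) := by simp [par11X, gR, gS]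
    refine ⟨Eq.trans ?_ l1, Eq.trans ?_ l2⟩
    · simp [par11I, psiX, psiNum, gX, map_ofNat]
    · simp [par11J, psiA, par11Y, gX, gR, map_ofNat]
  obtain ⟨X, hX⟩ := (InfiniteGalois.mem_range_algebraMap_iff_fixed _).mpr fun σ => (fixed σ).1
  obtain ⟨Z, hZ⟩ := (InfiniteGalois.mem_range_algebraMap_iff_fixed _).mpr fun σ => (fixed σ).2
  obtain ⟨x, hx⟩ : ∃ x, x = par11X (W := W) P := ⟨_, rfl⟩
  obtain ⟨y, hy⟩ : ∃ y, y = par11Y (W := W) P := ⟨_, rfl⟩
  rw [← hx, ← hy] at hE hb hc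
  rw [← hx] at h0 h1
  rw [par11I, ← hx] at hX
  rw [par11J, ← hx, ← hy] at hZ
  simp only [eq_ratCast] at hX hZ
  have hsq := psiA_sq h0 h1
  have hZ2 : Z ^ 2 = 4 * X ^ 3 - 4 * X ^ 2 - 40 * X - 79 := by
    apply (algebraMap ℚ 𝕂).injective
    simp only [eq_ratCast]
    push_cast
    rw [hX, hZ]
    unfold OnE at hE
    linear_combination hsq + 4 * psiA x ^ 2 * hE
  have hXY : OnE' X ((Z - 1) / 2) := by unfold OnE'; linear_combination hZ2 / 4
  have hVc : V.c₄ = U ^ 2 * (((1 - c) ^ 2 - 4 * b) ^ 2 - 24 * b * (c - 1)) := by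
    simp only [WeierstrassCurve.c₄, e2, e4]; ring
  have hVΔ : V.Δ = U ^ 6 * (b ^ 3 * (((1 - c) ^ 2 - 4 * b) ^ 2 - 8 * (c - 1) ^ 3 - 27 * b +
      9 * ((1 - c) ^ 2 - 4 * b) * (c - 1))) := by
    simp only [WeierstrassCurve.Δ, e2, e4, e6, e8]; ring
  have hVc' : V.c₄ = (E.c₄ : 𝕂) := by rw [← hWc, hV]; simp [variableChange_c₄]
  have hVΔ' : V.Δ = (E.Δ : 𝕂) := by rw [← hWΔ, hV]; simp [variableChange_Δ]
  have hx3 : x ^ 3 * (x - 1) ^ 3 ≠ 0 := mul_ne_zero (pow_ne_zero 3 h0) (pow_ne_zero 3 h1)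
  have hy' : (x ^ 3 * (x - 1) ^ 3 - 2 * (x - 1) ^ 3 - 2 * x ^ 4) * (2 * y + 1) =
      (Z : 𝕂) * (x ^ 3 * (x - 1) ^ 3) := by
    rw [hZ, psiA]; field_simp
  have hpos : ∀ j : ℚ, j < 0 →
      (((1 - c) ^ 2 - 4 * b) ^ 2 - 24 * b * (c - 1)) ^ 3 = (j : 𝕂) * (b ^ 3 *
        (((1 - c) ^ 2 - 4 * b) ^ 2 - 8 * (c - 1) ^ 3 - 27 * b +
          9 * ((1 - c) ^ 2 - 4 * b) * (c - 1))) → False := by
    intro j hj h
    have e : (E.c₄ : 𝕂) ^ 3 = (j : 𝕂) * (E.Δ : 𝕂) := by
      rw [← hVc', ← hVΔ', hVc, hVΔ]; linear_combination U ^ 6 * h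
    have e' : E.c₄ ^ 3 = j * E.Δ := by exact_mod_cast e
    nlinarith [pow_pos hc4 3, mul_pos (neg_pos.mpr hj) hΔ]
  rw [psiX, eq_comm, div_eq_iff (pow_ne_zero 2 (mul_ne_zero h0 h1))] at hX
  simp only [psiNum] at hX
  rcases rat_points' hXY with rfl | rfl
  · have hz : (Z - 11) * (Z + 11) = 0 := by linear_combination hZ2
    rcases mul_eq_zero.mp hz with hz | hz
    · obtain rfl : Z = 11 := by linear_combination hz
      push_cast at hX hy'
      exact hpos (-121) (by norm_num) (by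
        have := invariant_jA h0 (by linear_combination hX) hy' hb hc rfl
        push_cast; exact this)
    · obtain rfl : Z = -11 := by linear_combination hz
      push_cast at hX hy'
      exact hpos (-32768) (by norm_num) (by
        have := invariant_jB h0 (by linear_combination hX) hy' hb hc rfl
        push_cast; exact this)
  · have hz : (Z - 121) * (Z + 121) = 0 := by linear_combination hZ2
    rcases mul_eq_zero.mp hz with hz | hz
    · obtain rfl : Z = 121 := by linear_combination hz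
      push_cast at hX hy'
      have := invariant_cusp h0 (by linear_combination hX) hy' hb hc rfl
      rw [this, mul_zero, hVΔ'] at hVΔ
      exact hΔ.ne' (by exact_mod_cast hVΔ)
    · obtain rfl : Z = -121 := by linear_combination hz
      push_cast at hX hy'
      exact hpos (-24729001) (by norm_num) (by
        have := invariant_jC h0 (by linear_combination hX) hy' hb hc rfl
        push_cast; exact this)

/-- The Frey curve has no cofixed line for `p = 11`. -/
theorem frey_no_cofixed_eleven' (P : FreyPackage) (hp : P.p = 11) :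
    ¬ Point.HasGaloisStableCofixedLine (K := AlgebraicClosure ℚ) ℚ P.freyCurve P.p := by
  have h := no_eleven_line P.freyCurve ?_ ?_
  · rw [hp]; exact h
  · exact lt_of_le_of_ne (by rw [frey_disc_eq]; exact sq_nonneg _) (frey_disc_ne_zero P).symm
  · have ha : (P.a : ℚ) ^ P.p ≠ 0 := pow_ne_zero _ (by exact_mod_cast P.ha0)
    simp only [FreyPackage.freyCurve, WeierstrassCurve.c₄, WeierstrassCurve.b₂, WeierstrassCurve.b₄]
    nlinarith [sq_pos_of_ne_zero ha, sq_nonneg ((P.b : ℚ) ^ P.p),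
      sq_nonneg ((P.a : ℚ) ^ P.p + (P.b : ℚ) ^ P.p)]

end FLTAgent.SmallCurves
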