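import Mathlib
import Fermat.Agent.SmallCurves.X15

/-!
`s (s² + 22 s + 125) = □` and `h (h² + 6 h + 13) = □` have only the trivial rational solution.
These curves receive the points of `X₀(5)`, `X₀(13)` with square discriminant.
-/

set_option autoImplicit false

namespace FLTAgent.SmallCurves

/-- Coprime nonnegative factors of a fourth power are fourth powers. -/
lemma exists_fourth {a b c : ℤ} (ha : 0 ≤ a) (hab : IsCoprime a b) (h : a * b = c ^ 4) :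
    ∃ d : ℤ, a = d ^ 4 := by
  obtain ⟨d, hd⟩ := exists_associated_pow_of_mul_eq_pow' hab h
  refine ⟨d, ?_⟩
  rcases Int.associated_iff.mp hd with h' | h'
  · exact h'.symm
  · have : 0 ≤ d ^ 4 := by positivity
    omega

/-- A factor equation `u v = D a⁴` with coprime positive factors and `D = ℓ ^ i`. -/
lemma split_prime_pow_fourth {u v a D ℓ : ℤ} {i : ℕ} (hℓ : Prime ℓ) (hD : D = ℓ ^ i) (hD0 : 0 < D)
    (hu : 0 < u) (hv : 0 < v) (huv : IsCoprime u v) (h : u * v = D * a ^ 4) :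
    ∃ p q : ℤ, IsCoprime p q ∧ a ^ 2 = p ^ 2 * q ^ 2 ∧ u + v = D * p ^ 4 + q ^ 4 ∧
      (u = D * p ^ 4 ∧ v = q ^ 4 ∨ u = q ^ 4 ∧ v = D * p ^ 4) := by
  have key : ∀ u v : ℤ, 0 < u → 0 < v → IsCoprime u v → u * v = D * a ^ 4 → D ∣ u →
      ∃ p q : ℤ, IsCoprime p q ∧ a ^ 2 = p ^ 2 * q ^ 2 ∧ u = D * p ^ 4 ∧ v = q ^ 4 := by
    intro u v hu hv huv h hdvd
    obtain ⟨u', rfl⟩ := hdvd
    have hu' : 0 < u' := pos_of_mul_pos_right hu hD0.le
    have h' : u' * v = a ^ 4 := mul_left_cancel₀ hD0.ne' (by linear_combination h)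
    have hc : IsCoprime u' v := huv.of_mul_left_right
    obtain ⟨p, hp⟩ := exists_fourth hu'.le hc h'
    obtain ⟨q, hq⟩ := exists_fourth hv.le hc.symm (by rw [mul_comm]; exact h')
    refine ⟨p, q, ?_, ?_, by rw [hp], hq⟩
    · rw [hp, hq, IsCoprime.pow_iff (by norm_num) (by norm_num)] at hc
      exact hc
    · rw [hp, hq] at h'
      have h2 : (a ^ 2) ^ 2 = (p ^ 2 * q ^ 2) ^ 2 := by linear_combination -h'
      exact (sq_eq_sq₀ (by positivity) (by positivity)).mp h2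
  by_cases hℓu : ℓ ∣ u
  · have hℓv : IsCoprime D v := by
      rw [hD]
      exact ((huv.of_isCoprime_of_dvd_left hℓu)).pow_left
    have hdvd : D ∣ u := hℓv.dvd_of_dvd_mul_right ⟨a ^ 4, h⟩
    obtain ⟨p, q, h1, h2, h3, h4⟩ := key u v hu hv huv h hdvd
    exact ⟨p, q, h1, h2, by rw [h3, h4], Or.inl ⟨h3, h4⟩⟩
  · have hℓu' : IsCoprime D u := by
      rw [hD]
      exact ((hℓ.coprime_iff_not_dvd).mpr hℓu).pow_left
    have hdvd : D ∣ v := hℓu'.dvd_of_dvd_mul_left ⟨a ^ 4, h⟩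
    obtain ⟨p, q, h1, h2, h3, h4⟩ := key v u hv hu huv.symm (by rw [mul_comm]; exact h) hdvd
    exact ⟨p, q, h1, h2, by rw [h3, h4, add_comm], Or.inr ⟨h4, h3⟩⟩

set_option maxHeartbeats 1000000 in
/-- Fermat descent on `w² = M⁴ + 2 k M² e² + (k² + 4) e⁴`. -/
theorem quartic_descent {k ℓ : ℤ} {i : ℕ} (hℓ : Prime ℓ)
    (hD : k ^ 2 + 4 = ℓ ^ i)
    (hns : ∀ x y : ℤ, ℓ ∣ 2 * x ^ 2 - k * y ^ 2 → ℓ ∣ y)
    (hk8 : k % 8 = 3) (hk0 : 0 ≤ k) {M e w : ℤ} (hcop : IsCoprime M e)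
    (h : w ^ 2 = M ^ 4 + 2 * k * M ^ 2 * e ^ 2 + (k ^ 2 + 4) * e ^ 4) :
    e = 0 ∨ M = 0 := by
  suffices ∀ n : ℕ, ∀ M e w : ℤ, e.natAbs = n → IsCoprime M e →
      w ^ 2 = M ^ 4 + 2 * k * M ^ 2 * e ^ 2 + (k ^ 2 + 4) * e ^ 4 → e = 0 ∨ M = 0 from
    this _ M e w rfl hcop h
  intro n
  induction n using Nat.strong_induction_on with
  | _ n IH => ?_
  intro M e w hn hcop h
  by_contra hne
  push Not at hne
  obtain ⟨he0, hM0⟩ := hne
  obtain ⟨W, hW0, hW⟩ : ∃ W : ℤ, 0 ≤ W ∧ W ^ 2 = w ^ 2 := ⟨|w|, abs_nonneg w, sq_abs w⟩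
  rw [← hW] at h
  obtain ⟨T, hT⟩ : ∃ T, T = M ^ 2 + k * e ^ 2 := ⟨_, rfl⟩
  have hprod : (W - T) * (W + T) = 4 * e ^ 4 := by rw [hT]; linear_combination h
  obtain ⟨A, hA⟩ : (2 : ℤ) ∣ W + T := by
    have h2 : (2 : ℤ) ∣ (W + T) ^ 2 :=
      ⟨2 * e ^ 4 + T * (W + T), by linear_combination hprod⟩
    exact Int.prime_two.dvd_of_dvd_pow h2
  obtain ⟨B, hB⟩ : ∃ B, W - T = 2 * B := ⟨A - T, by linarith⟩
  have hAB : B * A = e ^ 4 := mul_left_cancel₀ (show (4 : ℤ) ≠ 0 by norm_num)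
    (by rw [← hprod, hA, hB]; ring)
  have hABpos : 0 < B ∧ 0 < A := by
    have he4 : 0 < B * A := by rw [hAB]; positivity
    rcases mul_pos_iff.mp he4 with h' | h'
    · exact h'
    · omega
  have hcopAB : IsCoprime B A := by
    rw [Int.isCoprime_iff_gcd_eq_one]
    by_contra hg
    obtain ⟨q, hq, hqd⟩ := Nat.exists_prime_and_dvd hg
    have hqP : Prime (q : ℤ) := Nat.prime_iff_prime_int.mp hq
    have hqB : (q : ℤ) ∣ B := (Int.natCast_dvd_natCast.mpr hqd).trans (Int.gcd_dvd_left _ _)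
    have hqA : (q : ℤ) ∣ A := (Int.natCast_dvd_natCast.mpr hqd).trans (Int.gcd_dvd_right _ _)
    have hqe : (q : ℤ) ∣ e := hqP.dvd_of_dvd_pow (hAB ▸ hqB.mul_right A)
    have hqT : (q : ℤ) ∣ T := by
      rw [show T = A - B by linarith]; exact dvd_sub hqA hqB
    have hqM : (q : ℤ) ∣ M := by
      refine hqP.dvd_of_dvd_pow (n := 2) ?_
      rw [show M ^ 2 = T - k * e ^ 2 by rw [hT]; ring]
      exact dvd_sub hqT ((dvd_pow hqe two_ne_zero).mul_left k)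
    exact hqP.not_unit (hcop.isUnit_of_dvd' hqM hqe)
  obtain ⟨a, hBa⟩ := exists_fourth hABpos.1.le hcopAB hAB
  obtain ⟨b, hAb⟩ := exists_fourth hABpos.2.le hcopAB.symm (by rw [mul_comm]; exact hAB)
  subst hBa hAb
  have hab : IsCoprime a b := (IsCoprime.pow_iff (by norm_num) (by norm_num)).mp hcopAB
  have hab2 : e ^ 2 = a ^ 2 * b ^ 2 := by
    have h2 : (e ^ 2) ^ 2 = (a ^ 2 * b ^ 2) ^ 2 := by linear_combination -hAB
    exact (sq_eq_sq₀ (by positivity) (by positivity)).mp h2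
  have hM2 : M ^ 2 = b ^ 4 - a ^ 4 - k * a ^ 2 * b ^ 2 := by
    have : T = b ^ 4 - a ^ 4 := by linarith
    rw [hT, hab2] at this
    linear_combination this
  have hae : a ∣ e := (Int.pow_dvd_pow_iff two_ne_zero).mp ⟨b ^ 2, hab2⟩
  have ha0 : a ≠ 0 := by rintro rfl; exact absurd hABpos.1 (by norm_num)
  have hb0 : b ≠ 0 := by rintro rfl; exact absurd hABpos.2 (by norm_num)
  have hℓ0 : (0 : ℤ) < k ^ 2 + 4 := by positivity
  -- no common divisor `ℓ`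
  have hMaℓ : ℓ ∣ M → ∀ x c : ℤ, c ∣ e → ℓ ∣ 2 * x ^ 2 - k * c ^ 2 → False := by
    intro hM x c hc hx
    exact hℓ.not_unit (hcop.isUnit_of_dvd' hM ((hns x c hx).trans hc))
  -- from a splitting to a smaller solution
  have descend : ∀ u v c x : ℤ, c ∣ a → c ≠ 0 → u * v = (k ^ 2 + 4) * c ^ 4 → IsCoprime u v →
      x ^ 2 = 2 * k * c ^ 2 + (u + v) → False := by
    intro u v c x hca hc0 huv hcop' hx
    have hpos : 0 < u * v := by rw [huv]; positivity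
    obtain ⟨hu, hv⟩ : 0 < u ∧ 0 < v := by
      rcases mul_pos_iff.mp hpos with h' | ⟨hu, hv⟩
      · exact h'
      · exfalso
        obtain ⟨p, q, -, hpq, hs, -⟩ := split_prime_pow_fourth hℓ hD hℓ0 (neg_pos.mpr hu)
          (neg_pos.mpr hv) hcop'.neg_neg (a := c) (by linear_combination huv)
        have hc2 : 0 < c ^ 2 := by positivity
        have hp0 : p ≠ 0 := by rintro rfl; simp [hpq] at hc2
        have h0 : x ^ 2 + (q ^ 2 - k * p ^ 2) ^ 2 + 4 * p ^ 4 = 0 := by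
          linear_combination hx - hs + (2 * k) * hpq
        have h1 : 0 < x ^ 2 + (q ^ 2 - k * p ^ 2) ^ 2 + 4 * p ^ 4 := by positivity
        omega
    obtain ⟨p, q, hpq, hcpq, hs, -⟩ := split_prime_pow_fourth hℓ hD hℓ0 hu hv hcop' huv
    have hp0 : p ≠ 0 := by rintro rfl; exact hc0 (by simpa using hcpq)
    have hq0 : q ≠ 0 := by rintro rfl; exact hc0 (by simpa using hcpq)
    have hpc : p ∣ c := (Int.pow_dvd_pow_iff two_ne_zero).mp ⟨q ^ 2, hcpq⟩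
    have hpe : p.natAbs ≤ e.natAbs :=
      Nat.le_of_dvd (Int.natAbs_pos.mpr he0) (Int.natAbs_dvd_natAbs.mpr (hpc.trans (hca.trans hae)))
    have hx' : x ^ 2 = q ^ 4 + 2 * k * q ^ 2 * p ^ 2 + (k ^ 2 + 4) * p ^ 4 := by
      rw [hx, hs, hcpq]; ring
    rcases lt_or_eq_of_le hpe with hlt | heq
    · rcases IH p.natAbs (hn ▸ hlt) q p x rfl hpq.symm hx' with h' | h'
      · exact hp0 h'
      · exact hq0 h'
    · -- then `b`, `q` are units and there is no room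
      have hp2 : p ^ 2 = e ^ 2 := by
        rw [← Int.natAbs_sq, heq, Int.natAbs_sq]
      have hca2 : c ^ 2 ≤ a ^ 2 := Int.le_of_dvd (by positivity) (pow_dvd_pow_of_dvd hca 2)
      have ha2 : 0 < a ^ 2 := by positivity
      rw [hcpq, hp2, hab2] at hca2
      have h1 : b ^ 2 * q ^ 2 ≤ 1 :=
        le_of_mul_le_mul_left (show a ^ 2 * (b ^ 2 * q ^ 2) ≤ a ^ 2 * 1 by linarith) ha2
      have hb1 : b ^ 2 = 1 := by
        have : 0 < b ^ 2 := by positivity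
        have : 0 < q ^ 2 := by positivity
        nlinarith
      have hM1 : M ^ 2 = 1 - (a ^ 2) ^ 2 - k * a ^ 2 := by
        rw [hM2, show b ^ 4 = (b ^ 2) ^ 2 by ring, hb1]; ring
      have hM2' : 0 < M ^ 2 := by positivity
      have : 0 ≤ k * a ^ 2 := by positivity
      have : 1 ≤ (a ^ 2) ^ 2 := one_le_pow₀ ha2
      omega
  rcases Int.even_or_odd a with ⟨a', rfl⟩ | ha
  · -- `a` even
    have hb : Odd b := by
      rcases Int.even_or_odd b with hb | hb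
      · exfalso
        exact Int.prime_two.not_unit
          (hab.isUnit_of_dvd' ⟨a', by ring⟩ (even_iff_two_dvd.mp hb))
      · exact hb
    have hMe : M ^ 2 = b ^ 4 - 16 * a' ^ 4 - 4 * k * a' ^ 2 * b ^ 2 := by rw [hM2]; ring
    obtain ⟨m, hm⟩ : Odd M := by
      have h1 : Odd (M ^ 2) := by
        obtain ⟨l, hl⟩ := hb.pow (n := 4)
        exact ⟨l - 8 * a' ^ 4 - 2 * k * a' ^ 2 * b ^ 2, by rw [hMe, hl]; ring⟩
      exact (Int.odd_pow.mp h1).resolve_right two_ne_zero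
    obtain ⟨l, hl⟩ := hb.pow (n := 2)
    obtain ⟨u, hu⟩ : (2 : ℤ) ∣ (b ^ 2 - 2 * k * a' ^ 2) - M :=
      ⟨l - k * a' ^ 2 - m, by rw [hl, hm]; ring⟩
    obtain ⟨v, hv⟩ : ∃ v, (b ^ 2 - 2 * k * a' ^ 2) + M = 2 * v := ⟨u + M, by linarith⟩
    have huv : u * v = (k ^ 2 + 4) * a' ^ 4 := mul_left_cancel₀ (show (4 : ℤ) ≠ 0 by norm_num) (by
      rw [show 4 * (u * v) = (2 * u) * (2 * v) by ring, ← hu, ← hv]
      linear_combination -hMe)
    have ha'a : a' ∣ a' + a' := dvd_add_self_left.mpr dvd_rfl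
    refine descend u v a' b ha'a (by omega) huv ?_ (by linarith)
    rw [Int.isCoprime_iff_gcd_eq_one]
    by_contra hg
    obtain ⟨q, hq, hqd⟩ := Nat.exists_prime_and_dvd hg
    have hqP : Prime (q : ℤ) := Nat.prime_iff_prime_int.mp hq
    have hqu : (q : ℤ) ∣ u := (Int.natCast_dvd_natCast.mpr hqd).trans (Int.gcd_dvd_left _ _)
    have hqv : (q : ℤ) ∣ v := (Int.natCast_dvd_natCast.mpr hqd).trans (Int.gcd_dvd_right _ _)
    have hqL : (q : ℤ) ∣ b ^ 2 - 2 * k * a' ^ 2 := by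
      rw [show b ^ 2 - 2 * k * a' ^ 2 = u + v by linarith]; exact dvd_add hqu hqv
    rcases hqP.dvd_or_dvd (huv ▸ hqu.mul_right v) with hqD | hqa
    · have hqℓ : Associated (q : ℤ) ℓ := (hqP.irreducible).associated_of_dvd hℓ.irreducible
        (hqP.dvd_of_dvd_pow (hD ▸ hqD))
      have hℓu : ℓ ∣ u := hqℓ.symm.dvd.trans hqu
      have hℓv : ℓ ∣ v := hqℓ.symm.dvd.trans hqv
      refine hMaℓ ?_ b (2 * a') ((dvd_of_eq (two_mul a')).trans hae) ?_
      · rw [show M = v - u by linarith]; exact dvd_sub hℓv hℓu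
      · rw [show 2 * b ^ 2 - k * (2 * a') ^ 2 = 2 * (u + v) by linarith]
        exact (dvd_add hℓu hℓv).mul_left 2
    · have hqa' := hqP.dvd_of_dvd_pow hqa
      have hqb : (q : ℤ) ∣ b := by
        refine hqP.dvd_of_dvd_pow (n := 2) ?_
        rw [show b ^ 2 = (b ^ 2 - 2 * k * a' ^ 2) + 2 * k * a' ^ 2 by ring]
        exact dvd_add hqL ((dvd_pow hqa' two_ne_zero).mul_left _)
      exact hqP.not_unit (hab.isUnit_of_dvd' (hqa'.trans ha'a) hqb)
  · -- `a` odd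
    have huv : (2 * b ^ 2 - k * a ^ 2 - 2 * M) * (2 * b ^ 2 - k * a ^ 2 + 2 * M) =
        (k ^ 2 + 4) * a ^ 4 := by
      linear_combination -4 * hM2
    set u := 2 * b ^ 2 - k * a ^ 2 - 2 * M with hu
    set v := 2 * b ^ 2 - k * a ^ 2 + 2 * M with hv
    refine descend u v a (2 * b) dvd_rfl ha0 huv ?_ (by linarith)
    rw [Int.isCoprime_iff_gcd_eq_one]
    by_contra hg
    obtain ⟨q, hq, hqd⟩ := Nat.exists_prime_and_dvd hg
    have hqP : Prime (q : ℤ) := Nat.prime_iff_prime_int.mp hq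
    have hqu : (q : ℤ) ∣ u := (Int.natCast_dvd_natCast.mpr hqd).trans (Int.gcd_dvd_left _ _)
    have hqv : (q : ℤ) ∣ v := (Int.natCast_dvd_natCast.mpr hqd).trans (Int.gcd_dvd_right _ _)
    have hq2 : ¬ (q : ℤ) ∣ 2 := by
      intro h2
      have hu2 : Odd u := by
        obtain ⟨s, hs⟩ := ha.pow (n := 2)
        have hk : k = 8 * (k / 8) + 3 := by omega
        refine ⟨b ^ 2 - (8 * (k / 8) + 3) * s - 4 * (k / 8) - 2 - M, ?_⟩
        rw [hu, hs]; linear_combination (-2 * s - 1) * hk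
      obtain ⟨t, ht⟩ := hu2
      exact hqP.not_unit (isUnit_of_dvd_one ((dvd_add_right (h2.mul_right t)).mp (ht ▸ hqu)))
    have hqL : (q : ℤ) ∣ 2 * b ^ 2 - k * a ^ 2 := by
      refine (hqP.dvd_or_dvd (a := 2) ?_).resolve_left hq2
      rw [show 2 * (2 * b ^ 2 - k * a ^ 2) = u + v by rw [hu, hv]; ring]
      exact dvd_add hqu hqv
    rcases hqP.dvd_or_dvd (huv ▸ hqu.mul_right v) with hqD | hqa
    · have hqℓ : Associated (q : ℤ) ℓ := (hqP.irreducible).associated_of_dvd hℓ.irreducible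
        (hqP.dvd_of_dvd_pow (hD ▸ hqD))
      refine hMaℓ ?_ b a hae (hqℓ.symm.dvd.trans hqL)
      refine hqℓ.symm.dvd.trans ?_
      refine (hqP.dvd_or_dvd (a := 2 * 2) (b := M) ?_).resolve_left
        (fun h => (hqP.dvd_or_dvd h).elim hq2 hq2)
      rw [show 2 * 2 * M = v - u by rw [hu, hv]; ring]
      exact dvd_sub hqv hqu
    · have hqa' := hqP.dvd_of_dvd_pow hqa
      have hqb : (q : ℤ) ∣ b := by
        refine hqP.dvd_of_dvd_pow (n := 2) ((hqP.dvd_or_dvd (a := 2) ?_).resolve_left hq2)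
        rw [show 2 * b ^ 2 = (2 * b ^ 2 - k * a ^ 2) + k * a ^ 2 by ring]
        exact dvd_add hqL ((dvd_pow hqa' two_ne_zero).mul_left _)
      exact hqP.not_unit (hab.isUnit_of_dvd' hqa' hqb)

lemma not_two_square_mod_five : ∀ x y : ℤ, (5 : ℤ) ∣ 2 * x ^ 2 - 11 * y ^ 2 → (5 : ℤ) ∣ y := by
  intro x y h
  have key : ∀ a b : ZMod 5, 2 * a ^ 2 - 11 * b ^ 2 = 0 → b = 0 := by decide
  have h' := (ZMod.intCast_zmod_eq_zero_iff_dvd _ 5).mpr h
  push_cast at h'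
  exact (ZMod.intCast_zmod_eq_zero_iff_dvd y 5).mp (key _ _ h')

lemma not_two_square_mod_thirteen :
    ∀ x y : ℤ, (13 : ℤ) ∣ 2 * x ^ 2 - 3 * y ^ 2 → (13 : ℤ) ∣ y := by
  intro x y h
  have key : ∀ a b : ZMod 13, 2 * a ^ 2 - 3 * b ^ 2 = 0 → b = 0 := by decide
  have h' := (ZMod.intCast_zmod_eq_zero_iff_dvd _ 13).mpr h
  push_cast at h'
  exact (ZMod.intCast_zmod_eq_zero_iff_dvd y 13).mp (key _ _ h')

/-- From `M Q = □` with `M`, `γ n²` coprime to both squares. -/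
lemma squares_of_mul_quad {α β γ M n W : ℤ} (hM : 0 < M) (hMn : IsCoprime M n)
    (hMγ : IsCoprime M γ) (hQ : 0 < α * M ^ 2 + β * M * n + γ * n ^ 2)
    (h : M * (α * M ^ 2 + β * M * n + γ * n ^ 2) = W ^ 2) :
    (∃ f, M = f ^ 2) ∧ ∃ g, α * M ^ 2 + β * M * n + γ * n ^ 2 = g ^ 2 := by
  refine exists_sq_of_coprime_mul hM hQ ?_ h
  have : IsCoprime M (γ * n ^ 2) := hMγ.mul_right hMn.pow_right
  rw [show α * M ^ 2 + β * M * n + γ * n ^ 2 = γ * n ^ 2 + M * (α * M + β * n) by ring]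
  exact this.add_mul_left_right (α * M + β * n)

/-- Integral form of the rational equation `s (s² + β s + γ) = □`. -/
lemma integral_form' {β γ : ℤ} {s y : ℚ} (hs : s ≠ 0) (hdisc : β ^ 2 < 4 * γ)
    (h : y ^ 2 = s * (s ^ 2 + β * s + γ)) :
    ∃ m e W : ℤ, 0 < m ∧ e ≠ 0 ∧ IsCoprime m (e ^ 2) ∧
      m * (m ^ 2 + β * m * e ^ 2 + γ * (e ^ 2) ^ 2) = W ^ 2 ∧
      (s.den : ℤ) = e ^ 2 ∧ m = s.num := by
  have hn : (0 : ℤ) < s.den := by exact_mod_cast s.den_pos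
  have hm0 : s.num ≠ 0 := Rat.num_ne_zero.mpr hs
  have hs' : s * s.den = s.num := Rat.mul_den_eq_num s
  have hcop : IsCoprime s.num (s.den : ℤ) :=
    Int.isCoprime_iff_gcd_eq_one.mpr (by simpa [Int.gcd] using s.reduced.gcd_eq_one)
  obtain ⟨Q, hQ⟩ : ∃ Q, Q = s.num ^ 2 + β * s.num * s.den + γ * (s.den : ℤ) ^ 2 := ⟨_, rfl⟩
  have hQpos : 0 < Q := by
    have h2 : 0 < (s.den : ℤ) ^ 2 := by positivity
    nlinarith [sq_nonneg (2 * s.num + β * s.den)]
  obtain ⟨W, hW⟩ : IsSquare ((s.den : ℤ) * (s.num * Q)) := by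
    rw [← Rat.isSquare_intCast_iff]
    refine ⟨y * s.den ^ 2, ?_⟩
    rw [hQ]; push_cast; rw [← hs']
    linear_combination (-(s.den : ℚ) ^ 4) * h
  have hWsq : (s.den : ℤ) * (s.num * Q) = W ^ 2 := by rw [hW, sq]
  have hm : 0 < s.num := by
    rcases lt_or_gt_of_ne hm0 with h' | h'
    · exfalso
      nlinarith [sq_nonneg W, mul_pos hn hQpos]
    · exact h'
  have hnQ : IsCoprime (s.den : ℤ) (s.num * Q) := by
    refine hcop.symm.mul_right ?_
    rw [hQ, show s.num ^ 2 + β * s.num * s.den + γ * (s.den : ℤ) ^ 2 =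
      s.num ^ 2 + (s.den : ℤ) * (β * s.num + γ * s.den) by ring]
    exact (hcop.symm.pow_right (n := 2)).add_mul_left_right (β * s.num + γ * s.den)
  obtain ⟨⟨e, he⟩, ⟨g, hg⟩⟩ := exists_sq_of_coprime_mul hn (mul_pos hm hQpos) hnQ hWsq
  refine ⟨s.num, e, g, hm, fun h0 => ?_, he ▸ hcop, ?_, he, rfl⟩
  · rw [h0] at he; norm_num at he
  · rw [← hg, hQ, ← he]

lemma integral_form {β γ : ℤ} {s y : ℚ} (hs : s ≠ 0) (hdisc : β ^ 2 < 4 * γ)
    (h : y ^ 2 = s * (s ^ 2 + β * s + γ)) :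
    ∃ m e W : ℤ, 0 < m ∧ e ≠ 0 ∧ IsCoprime m (e ^ 2) ∧
      m * (m ^ 2 + β * m * e ^ 2 + γ * (e ^ 2) ^ 2) = W ^ 2 := by
  obtain ⟨m, e, W, h1, h2, h3, h4, -⟩ := integral_form' hs hdisc h
  exact ⟨m, e, W, h1, h2, h3, h4⟩

/-- The curve for `p = 13`: `h (h² + 6 h + 13)` is a square only for `h = 0`. -/
theorem sq_thirteen {h y : ℚ} (e : y ^ 2 = h * (h ^ 2 + 6 * h + 13)) : h = 0 := by
  by_contra h0
  obtain ⟨m, E, W, hm, hE, hcop, hW⟩ :=
    integral_form (β := 6) (γ := 13) h0 (by norm_num) (by push_cast; exact e)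
  have h13 : Prime (13 : ℤ) := Int.prime_iff_natAbs_prime.mpr (by norm_num)
  have hEpos : 0 < E ^ 2 := by positivity
  have D := @quartic_descent 3 13 1 h13 (by norm_num)
    not_two_square_mod_thirteen (by norm_num) (by norm_num)
  by_cases hd : (13 : ℤ) ∣ m
  · obtain ⟨K, rfl⟩ := hd
    have hK : 0 < K := by linarith
    obtain ⟨W', rfl⟩ : (13 : ℤ) ∣ W := by
      refine h13.dvd_of_dvd_pow (n := 2) ?_
      rw [← hW]; exact dvd_mul_of_dvd_left (dvd_mul_right _ _) _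
    have hW' : K * (13 * K ^ 2 + 6 * K * E ^ 2 + 1 * (E ^ 2) ^ 2) = W' ^ 2 :=
      mul_left_cancel₀ (show (169 : ℤ) ≠ 0 by norm_num) (by linear_combination hW)
    obtain ⟨⟨f, rfl⟩, ⟨g, hg⟩⟩ :=
      squares_of_mul_quad hK hcop.of_mul_left_right isCoprime_one_right (by positivity) hW'
    rcases D (M := E) (e := f) (w := g)
      ((IsCoprime.pow_iff two_pos two_pos).mp hcop.of_mul_left_right).symm
      (by linear_combination -hg) with h' | h'
    · simp [h'] at hK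
    · exact hE h'
  · obtain ⟨⟨f, rfl⟩, ⟨g, hg⟩⟩ := squares_of_mul_quad (α := 1) (β := 6) (γ := 13) hm hcop
      ((h13.coprime_iff_not_dvd.mpr hd).symm) (by positivity) (by rw [one_mul]; exact hW)
    rcases D (M := f) (e := E) (w := g) ((IsCoprime.pow_iff two_pos two_pos).mp hcop)
      (by linear_combination -hg) with h' | h'
    · exact hE h'
    · simp [h'] at hm

/-- The curve for `p = 5`: `s (s² + 22 s + 125)` is a square only for `s = 0`. -/
theorem sq_five {s y : ℚ} (e : y ^ 2 = s * (s ^ 2 + 22 * s + 125)) : s = 0 := by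
  by_contra h0
  obtain ⟨m, E, W, hm, hE, hcop, hW⟩ :=
    integral_form (β := 22) (γ := 125) h0 (by norm_num) (by push_cast; exact e)
  have h5 : Prime (5 : ℤ) := Int.prime_iff_natAbs_prime.mpr (by norm_num)
  have hEpos : 0 < E ^ 2 := by positivity
  have D := @quartic_descent 11 5 3 h5 (by norm_num)
    not_two_square_mod_five (by norm_num) (by norm_num)
  -- a unit class `2` would be a square modulo `5`
  have nonres : ∀ f g : ℤ, ¬ (5 : ℤ) ∣ f → ¬ (5 : ℤ) ∣ E → (5 : ℤ) ∣ 2 * f ^ 2 * E ^ 2 - g ^ 2 →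
      False := by
    intro f g hf hE5 h
    have key : ∀ a b c : ZMod 5, 2 * a ^ 2 * b ^ 2 - c ^ 2 = 0 → a = 0 ∨ b = 0 := by decide
    have h' := (ZMod.intCast_zmod_eq_zero_iff_dvd _ 5).mpr h
    push_cast at h'
    rcases key _ _ _ h' with h'' | h''
    · exact hf ((ZMod.intCast_zmod_eq_zero_iff_dvd f 5).mp h'')
    · exact hE5 ((ZMod.intCast_zmod_eq_zero_iff_dvd E 5).mp h'')
  by_cases hd : (5 : ℤ) ∣ m
  swap
  · obtain ⟨⟨f, rfl⟩, ⟨g, hg⟩⟩ := squares_of_mul_quad (α := 1) (β := 22) (γ := 125) hm hcop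
      (by have := ((h5.coprime_iff_not_dvd.mpr hd).symm).pow_right (n := 3); norm_num at this
          exact this) (by positivity) (by rw [one_mul]; exact hW)
    rcases D (M := f) (e := E) (w := g) ((IsCoprime.pow_iff two_pos two_pos).mp hcop)
      (by linear_combination -hg) with h' | h'
    · exact hE h'
    · simp [h'] at hm
  obtain ⟨K, rfl⟩ := hd
  have hK : 0 < K := by linarith
  have hE5 : ¬ (5 : ℤ) ∣ E := fun h => h5.not_unit (hcop.isUnit_of_dvd' (dvd_mul_right 5 K)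
    (dvd_pow h two_ne_zero))
  have hcE5 : IsCoprime (5 : ℤ) ((E ^ 2) ^ 2) := ((h5.coprime_iff_not_dvd.mpr hE5).pow_right).pow_right
  obtain ⟨W', rfl⟩ : (5 : ℤ) ∣ W := by
    refine h5.dvd_of_dvd_pow (n := 2) ?_
    rw [← hW]; exact dvd_mul_of_dvd_left (dvd_mul_right _ _) _
  have hW' : K * (5 * K ^ 2 + 22 * K * E ^ 2 + 25 * (E ^ 2) ^ 2) = W' ^ 2 :=
    mul_left_cancel₀ (show (25 : ℤ) ≠ 0 by norm_num) (by linear_combination hW)
  by_cases hd1 : (5 : ℤ) ∣ K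
  swap
  · obtain ⟨⟨f, rfl⟩, ⟨g, hg⟩⟩ := squares_of_mul_quad hK hcop.of_mul_left_right
      (by have := ((h5.coprime_iff_not_dvd.mpr hd1).symm).pow_right (n := 2); norm_num at this
          exact this) (by positivity) hW'
    exact nonres f g (fun h => hd1 (dvd_pow h two_ne_zero)) hE5
      ⟨-(f ^ 4) - 4 * f ^ 2 * E ^ 2 - 5 * E ^ 4, by linear_combination hg⟩
  obtain ⟨L, rfl⟩ := hd1
  have hL : 0 < L := by linarith
  obtain ⟨W'', rfl⟩ : (5 : ℤ) ∣ W' := by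
    refine h5.dvd_of_dvd_pow (n := 2) ?_
    rw [← hW']; exact dvd_mul_of_dvd_left (dvd_mul_right _ _) _
  have hW'' : L * (25 * L ^ 2 + 22 * L * E ^ 2 + 5 * (E ^ 2) ^ 2) = W'' ^ 2 :=
    mul_left_cancel₀ (show (25 : ℤ) ≠ 0 by norm_num) (by linear_combination hW')
  have hcL : IsCoprime L (E ^ 2) := hcop.of_mul_left_right.of_mul_left_right
  by_cases hd2 : (5 : ℤ) ∣ L
  swap
  · obtain ⟨⟨f, rfl⟩, ⟨g, hg⟩⟩ := squares_of_mul_quad hL hcL
      ((h5.coprime_iff_not_dvd.mpr hd2).symm) (by positivity) hW''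
    exact nonres f g (fun h => hd2 (dvd_pow h two_ne_zero)) hE5
      ⟨-5 * f ^ 4 - 4 * f ^ 2 * E ^ 2 - E ^ 4, by linear_combination hg⟩
  obtain ⟨N, rfl⟩ := hd2
  have hN : 0 < N := by linarith
  obtain ⟨V, rfl⟩ : (5 : ℤ) ∣ W'' := by
    refine h5.dvd_of_dvd_pow (n := 2) ?_
    rw [← hW'']; exact dvd_mul_of_dvd_left (dvd_mul_right _ _) _
  have hV : N * (125 * N ^ 2 + 22 * N * E ^ 2 + 1 * (E ^ 2) ^ 2) = V ^ 2 :=
    mul_left_cancel₀ (show (25 : ℤ) ≠ 0 by norm_num) (by linear_combination hW'')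
  obtain ⟨⟨f, rfl⟩, ⟨g, hg⟩⟩ := squares_of_mul_quad hN hcL.of_mul_left_right isCoprime_one_right
    (by positivity) hV
  rcases D (M := E) (e := f) (w := g)
    ((IsCoprime.pow_iff two_pos two_pos).mp hcL.of_mul_left_right).symm
    (by linear_combination -hg) with h' | h'
  · simp [h'] at hN
  · exact hE h'

end FLTAgent.SmallCurves
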