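import Fermat.Prelude.Def_FLTPrelim_CofixedLine
import Fermat.Agent.SmallCurves.Semistable35
import Fermat.Agent.SmallCurves.SquareDescent
import Fermat.Agent.Torsion.Basic

/-!
Generalities on Galois stable lines in `E[p]`, and the case `p = 5` for curves with square
discriminant.
-/

set_option autoImplicit false

namespace FLTAgent.SmallCurves

open WeierstrassCurve WeierstrassCurve.Affine

local notation "𝕂" => AlgebraicClosure ℚ

/-- A Galois stable cofixed line gives an eigenpoint. -/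
lemma exists_eigen_point_of_cofixed (E : WeierstrassCurve ℚ) (hΔ : E.Δ ≠ 0) (p : ℕ) (hp : p.Prime)
    (h : Point.HasGaloisStableCofixedLine (K := AlgebraicClosure ℚ) ℚ E.toAffine p) :
    ∃ P : (E.toAffine⁄𝕂).Point, P ≠ 0 ∧ p • P = 0 ∧
      ∀ σ : 𝕂 ≃ₐ[ℚ] 𝕂, ∃ k : ℕ, σ • P = k • P := by
  have : Fact p.Prime := ⟨hp⟩
  have : E.IsElliptic := ⟨isUnit_iff_ne_zero.mpr hΔ⟩
  have hfin := FLTAgent.Torsion.finite_torsionBy_rat E (n := p) hp.ne_zero
  have hcard := FLTAgent.Torsion.card_torsionBy_rat E (n := p) hp.ne_zero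
  let e : Submodule.torsionBy ℤ (E.toAffine⁄𝕂).Point (p : ℤ) ≃
      {P : (E.baseChange 𝕂).toAffine.Point | p • P = 0} :=
    Equiv.subtypeEquivRight fun P => FLTAgent.Torsion.mem_torsionBy_iff_nsmul
  refine exists_eigen_point E p ?_ ?_ ?_ ?_
  · by_contra hc
    push Not at hc
    have : Subsingleton (Submodule.torsionBy ℤ (E.toAffine⁄𝕂).Point (p : ℤ)) :=
      ⟨fun a b => Subtype.ext <| by
        have h0 : ∀ c : Submodule.torsionBy ℤ (E.toAffine⁄𝕂).Point (p : ℤ),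
            (c : (E.toAffine⁄𝕂).Point) = 0 := fun c => by
          by_contra hc0
          exact hc c hc0 (e c).2
        rw [h0 a, h0 b]⟩
    have h1 : p ^ 2 = 1 := hcard.symm.trans (Nat.card_eq_one_iff_unique.mpr ⟨this, ⟨0⟩⟩)
    simp [hp.one_lt.ne'] at h1
  · exact Set.finite_coe_iff.mp (Finite.of_equiv _ e)
  · rw [← Nat.card_congr e]
    exact hcard.trans_lt (Nat.pow_lt_pow_right hp.one_lt (by norm_num))
  · rintro ⟨-, hirr⟩
    obtain ⟨N, hN, hbot, htop, -⟩ := h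
    exact (hirr N hN).elim hbot htop

/-- On a curve with square discriminant and Galois stable five-line: impossible. -/
theorem no_five_line_of_square_disc (E : WeierstrassCurve ℚ) (hΔ : E.Δ ≠ 0) {r : ℚ}
    (hr : E.Δ = r ^ 2) :
    ¬ Point.HasGaloisStableCofixedLine (K := AlgebraicClosure ℚ) ℚ E.toAffine 5 := by
  intro hline
  set V : WeierstrassCurve 𝕂 := E.baseChange 𝕂 with hV
  have hb : V.b₂ = (E.b₂ : 𝕂) ∧ V.b₄ = (E.b₄ : 𝕂) ∧ V.c₄ = (E.c₄ : 𝕂) ∧ V.Δ = (E.Δ : 𝕂) := by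
    simp [hV, WeierstrassCurve.baseChange, map_b₂, map_b₄, map_c₄, map_Δ]
  obtain ⟨hb2, hb4, hc4, hVΔ⟩ := hb
  have hΔ' : V.Δ ≠ 0 := by rw [hVΔ]; exact_mod_cast hΔ
  obtain ⟨Q, hQ0, hQ, hQσ⟩ := exists_eigen_point_of_cofixed E hΔ 5 (by norm_num) hline
  obtain ⟨P, hP0, hP⟩ := exists_three_torsion V hΔ'
  rcases P with _ | ⟨x₀, y₀, h₀⟩
  · exact hP0 rfl
  rcases Q with _ | ⟨x₁, y₁, h₁⟩
  · exact hQ0 rfl
  obtain ⟨x₂, y₂, h₂, h2Q, h21, hp1, hp2, -, e1, e2⟩ := five_torsion_data V h₁ hQ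
  have ne : ∀ {x y : 𝕂} (h : V.toAffine.Nonsingular x y), 5 • Point.some x y h = 0 → x₀ ≠ x := by
    intro x y h h5 hx
    apply hP0
    have h5' : 5 • (Point.some x₀ y₀ h₀ : V.toAffine.Point) = 0 := by
      rcases eq_or_eq_neg_of_X_eq V h₀ h hx with e | e
      · rw [e, h5]
      · rw [e]; exact (neg_nsmul _ _).trans (neg_eq_zero.mpr h5)
    have e : (Point.some x₀ y₀ h₀ : V.toAffine.Point) =
        2 • (3 • Point.some x₀ y₀ h₀) - 5 • Point.some x₀ y₀ h₀ := by abel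
    rw [h5', sub_zero] at e
    exact e.trans ((congrArg _ hP).trans (nsmul_zero _))
  have h5' : 5 • (Point.some x₂ y₂ h₂ : V.toAffine.Point) = 0 := by
    rw [← h2Q, ← mul_nsmul', mul_comm, mul_nsmul']
    exact (congrArg _ hQ).trans (nsmul_zero _)
  obtain ⟨-, -, -, hj⟩ := param35 V h21 (ne h₁ hQ) (ne h₂ h5') hp1 e1 e2
    (psi3_eq_zero_of_three_nsmul V h₀ hP)
  have := isGalois_rat_algebraicClosure
  obtain ⟨z, hz⟩ : ∃ z : ℚ, algebraMap ℚ 𝕂 z = x15Z V x₁ x₂ := by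
    refine (InfiniteGalois.mem_range_algebraMap_iff_fixed _).mpr fun σ => ?_
    obtain ⟨k, hk⟩ := hQσ σ
    rcases eigen_five_perm E hQ h2Q hk with ⟨a, b⟩ | ⟨a, b⟩
    · simp [x15Z, map_div₀, a, b, map_ofNat, hb2, hb4]
    · conv_rhs => rw [← x15Z_symm]
      simp [x15Z, map_div₀, a, b, map_ofNat, hb2, hb4]
  rw [← hz, hc4, hVΔ] at hj
  have hj' : E.c₄ ^ 3 * (z - 11) = E.Δ * (z ^ 2 - 12 * z + 16) ^ 3 := by
    apply (algebraMap ℚ 𝕂).injective
    simpa using hj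
  obtain ⟨s, rfl⟩ : ∃ s, z = s + 11 := ⟨z - 11, by ring⟩
  have hR : s ^ 2 + 4 * s - 1 ≠ 0 := by
    intro h
    have h5 : IsSquare ((5 : ℕ) : ℚ) := ⟨s + 2, by push_cast; linear_combination -h⟩
    rw [Rat.isSquare_natCast_iff] at h5
    obtain ⟨n, hn⟩ := h5
    rcases Nat.lt_or_ge n 3 with h' | h'
    · interval_cases n <;> simp at hn
    · nlinarith
  have hr0 : r ≠ 0 := by rintro rfl; exact hΔ (by rw [hr]; ring)
  have hsq : (s * E.c₆ / (r * (s ^ 2 + 4 * s - 1))) ^ 2 = s * (s ^ 2 + 22 * s + 125) := by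
    rw [div_pow, div_eq_iff (pow_ne_zero 2 (mul_ne_zero hr0 hR)), mul_pow r, ← hr]
    have hrel : E.c₆ ^ 2 = E.c₄ ^ 3 - 1728 * E.Δ := by
      linear_combination E.c_relation
    rw [mul_pow s, hrel]
    linear_combination s * hj'
  have hs := sq_five hsq
  subst hs
  norm_num at hj'
  exact hΔ hj'

end FLTAgent.SmallCurves
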