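import Mathlib
import Fermat.Agent.SmallCurves.SquareDescent

/-!
Rational points of `X₀(14) : y² = X (X² + 13 X + 128)`.
-/

set_option autoImplicit false

namespace FLTAgent.SmallCurves

/-- The isogenous quartic `Z² = x⁴ - 26 x² y² - 343 y⁴` leads back, with a divisor of `y`. -/
lemma x14_step_two {x y Z : ℤ} (hcop : IsCoprime x y) (hy : y ≠ 0)
    (h : Z ^ 2 = x ^ 4 - 26 * x ^ 2 * y ^ 2 - 343 * y ^ 4) :
    ∃ M e w : ℤ, IsCoprime M e ∧ M ≠ 0 ∧ e ≠ 0 ∧
      w ^ 2 = M ^ 4 + 13 * M ^ 2 * e ^ 2 + 128 * e ^ 4 ∧ e ∣ y ∧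
      (M ^ 2 = 4 → e ^ 2 = 1 → x ^ 2 = 49 ∧ y ^ 2 = 1) ∧
      (e ^ 2 = y ^ 2 → x ^ 2 = 49 → y ^ 2 = 1) := by
  obtain ⟨L, hL⟩ : ∃ L, L = x ^ 2 - 13 * y ^ 2 := ⟨_, rfl⟩
  have hprod : (L - Z) * (L + Z) = 512 * y ^ 4 := by rw [hL]; linear_combination -h
  obtain ⟨A, hA⟩ : (2 : ℤ) ∣ L - Z := by
    rcases Int.prime_two.dvd_or_dvd (show (2 : ℤ) ∣ (L - Z) * (L + Z) from
      ⟨256 * y ^ 4, by linear_combination hprod⟩) with h' | h' <;> omega
  obtain ⟨B, hB⟩ : (2 : ℤ) ∣ L + Z := by omega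
  have hsum : A + B = L := by omega
  have hAB : A * B = 128 * y ^ 4 := mul_left_cancel₀ (show (4 : ℤ) ≠ 0 by norm_num)
    (by rw [show 4 * (A * B) = (2 * A) * (2 * B) by ring, ← hA, ← hB, hprod]; ring)
  have hy4 : 0 < y ^ 4 := by positivity
  have hodd_common : ∀ q : ℤ, Prime q → q ∣ A → q ∣ B → q ∣ 2 := by
    intro q hq hqA hqB
    rcases hq.dvd_or_dvd (hAB ▸ hqA.mul_right B) with h2 | hqy
    · exact hq.dvd_of_dvd_pow (n := 7) (by norm_num; exact h2)
    · exfalso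
      have hqy' := hq.dvd_of_dvd_pow hqy
      have hqx : q ∣ x := by
        refine hq.dvd_of_dvd_pow (n := 2) ?_
        rw [show x ^ 2 = A + B + 13 * y ^ 2 by rw [hsum, hL]; ring]
        exact dvd_add (dvd_add hqA hqB) ((dvd_pow hqy' two_ne_zero).mul_left 13)
      exact hq.not_unit (hcop.isUnit_of_dvd' hqx hqy')
  -- both factors have the sign of `L`, which is then positive
  obtain ⟨hA0, hB0⟩ : 0 < A ∧ 0 < B := by
    rcases mul_pos_iff.mp (show 0 < A * B by rw [hAB]; linarith) with h' | ⟨hA0, hB0⟩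
    · exact h'
    · exfalso
      have : x ^ 2 < 13 * y ^ 2 := by linarith
      nlinarith [sq_nonneg Z, sq_nonneg x, sq_nonneg y]
  by_cases h2 : Int.gcd A B = 1
  · -- `{A, B} = {128 b⁴, a⁴}`
    obtain ⟨b, a, hba, hab, hs, hcases⟩ := split_prime_pow_fourth (a := y) (i := 7)
      Int.prime_two (by norm_num : (128 : ℤ) = 2 ^ 7) (by norm_num) hA0 hB0
      (Int.isCoprime_iff_gcd_eq_one.mpr h2) hAB
    have ha0 : a ≠ 0 := by rintro rfl; simp at hab; exact hy hab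
    have hb0 : b ≠ 0 := by rintro rfl; simp at hab; exact hy hab
    refine ⟨a, b, x, hba.symm, ha0, hb0, ?_, (Int.pow_dvd_pow_iff two_ne_zero).mp ⟨a ^ 2, hab⟩,
      ?_, ?_⟩
    · rw [hsum, hL, hab] at hs; linear_combination hs
    · intro ha _
      exfalso
      have hev : (2 : ℤ) ∣ a := Int.prime_two.dvd_of_dvd_pow (n := 2) (by omega)
      have : IsCoprime (2 : ℤ) (2 : ℤ) := by
        refine IsCoprime.of_isCoprime_of_dvd_right (IsCoprime.of_isCoprime_of_dvd_left ?_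
          (show (2 : ℤ) ∣ 128 * b ^ 4 from ⟨64 * b ^ 4, by ring⟩))
          (show (2 : ℤ) ∣ a ^ 4 from dvd_pow hev (by norm_num))
        rcases hcases with ⟨h1, h3⟩ | ⟨h1, h3⟩
        · exact h1 ▸ h3 ▸ Int.isCoprime_iff_gcd_eq_one.mpr h2
        · exact (h1 ▸ h3 ▸ Int.isCoprime_iff_gcd_eq_one.mpr h2).symm
      exact absurd (isCoprime_self.mp this) (by decide)
    · intro hby hx
      rw [← hby]
      have ha2 : a ^ 2 = 1 := by
        have : b ^ 2 * 1 = b ^ 2 * a ^ 2 := by linarith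
        exact (mul_left_cancel₀ (pow_ne_zero 2 hb0) this).symm
      rw [hsum, hL, hab, hx, ha2, show a ^ 4 = (a ^ 2) ^ 2 by ring, ha2] at hs
      have : 0 < b ^ 2 := by positivity
      nlinarith
  · -- `{A, B} = {2² a⁴, 2⁵ b⁴}`
    obtain ⟨q, hq, hqd⟩ := Nat.exists_prime_and_dvd h2
    have hq2 : (2 : ℤ) ∣ A ∧ (2 : ℤ) ∣ B := by
      have hqP : Prime (q : ℤ) := Nat.prime_iff_prime_int.mp hq
      have hqA : (q : ℤ) ∣ A := (Int.natCast_dvd_natCast.mpr hqd).trans (Int.gcd_dvd_left _ _)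
      have hqB : (q : ℤ) ∣ B := (Int.natCast_dvd_natCast.mpr hqd).trans (Int.gcd_dvd_right _ _)
      have : q = 2 := (Nat.prime_dvd_prime_iff_eq hq Nat.prime_two).mp
        (Int.natCast_dvd_natCast.mp (hodd_common q hqP hqA hqB))
      subst this; exact ⟨hqA, hqB⟩
    have hyodd : Odd y := by
      rcases Int.even_or_odd y with hy2 | hy2
      · exfalso
        have h2y : (2 : ℤ) ∣ y := even_iff_two_dvd.mp hy2
        have h2x : (2 : ℤ) ∣ x := by
          refine Int.prime_two.dvd_of_dvd_pow (n := 2) ?_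
          rw [show x ^ 2 = A + B + 13 * y ^ 2 by rw [hsum, hL]; ring]
          exact dvd_add (dvd_add hq2.1 hq2.2) ((dvd_pow h2y two_ne_zero).mul_left 13)
        exact Int.prime_two.not_unit (hcop.isUnit_of_dvd' h2x h2y)
      · exact hy2
    have hxodd : Odd x := by
      rcases Int.even_or_odd x with hx2 | hx2
      · exfalso
        obtain ⟨k, hk⟩ := hyodd.pow (n := 2)
        obtain ⟨l, hl⟩ := hx2.pow_of_ne_zero (n := 2) two_ne_zero
        omega
      · exact hx2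
    have h4 : (A + B) % 8 = 4 := by
      rw [hsum, hL]
      have := sq_emod_eight_of_odd hxodd
      have := sq_emod_eight_of_odd hyodd
      omega
    obtain ⟨A', rfl⟩ := hq2.1
    obtain ⟨B', rfl⟩ := hq2.2
    have h32 : A' * B' = 32 * y ^ 4 := by linarith
    obtain ⟨A'', rfl⟩ : (2 : ℤ) ∣ A' := by
      rcases Int.prime_two.dvd_or_dvd (show (2 : ℤ) ∣ A' * B' from ⟨16 * y ^ 4, by linarith⟩)
        with h' | h' <;> omega
    obtain ⟨B'', rfl⟩ : (2 : ℤ) ∣ B' := by omega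
    have h8 : A'' * B'' = 8 * y ^ 4 := by linarith
    have hcop' : IsCoprime A'' B'' := by
      rw [Int.isCoprime_iff_gcd_eq_one]
      by_contra hg
      obtain ⟨q, hq, hqd⟩ := Nat.exists_prime_and_dvd hg
      have hqA : (q : ℤ) ∣ A'' := (Int.natCast_dvd_natCast.mpr hqd).trans (Int.gcd_dvd_left _ _)
      have hqB : (q : ℤ) ∣ B'' := (Int.natCast_dvd_natCast.mpr hqd).trans (Int.gcd_dvd_right _ _)
      have : q = 2 := (Nat.prime_dvd_prime_iff_eq hq Nat.prime_two).mp (Int.natCast_dvd_natCast.mp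
        (hodd_common q (Nat.prime_iff_prime_int.mp hq) ((hqA.mul_left 2).mul_left 2)
          ((hqB.mul_left 2).mul_left 2)))
      subst this
      push_cast at hqA hqB
      omega
    obtain ⟨b, a, hba, hab, hs, hcases⟩ := split_prime_pow_fourth (a := y) (i := 3)
      Int.prime_two (by norm_num : (8 : ℤ) = 2 ^ 3) (by norm_num) (by linarith) (by linarith)
      hcop' h8
    have ha0 : a ≠ 0 := by rintro rfl; simp at hab; exact hy hab
    have hb0 : b ≠ 0 := by rintro rfl; simp at hab; exact hy hab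
    have hby : b ∣ y := (Int.pow_dvd_pow_iff two_ne_zero).mp ⟨a ^ 2, hab⟩
    refine ⟨2 * a, b, 2 * x, ?_, mul_ne_zero two_ne_zero ha0, hb0, ?_, hby, ?_, ?_⟩
    · refine IsCoprime.mul_left ?_ hba.symm
      obtain ⟨k, hk⟩ : Odd b := by
        obtain ⟨t, ht⟩ := hby
        exact (Int.odd_mul.mp (ht ▸ hyodd)).1
      exact ⟨-k, 1, by rw [hk]; ring⟩
    · linear_combination (4 : ℤ) * (4 * hs - hsum - hL) + 52 * hab
    · intro ha hb
      have ha2 : a ^ 2 = 1 := by linarith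
      rw [ha2, hb] at hab
      refine ⟨?_, by linarith⟩
      rw [show a ^ 4 = (a ^ 2) ^ 2 by ring, show b ^ 4 = (b ^ 2) ^ 2 by ring, ha2, hb] at hs
      linarith
    · intro hb hx
      rw [← hb]
      have ha2 : a ^ 2 = 1 := by
        have : b ^ 2 * 1 = b ^ 2 * a ^ 2 := by linarith
        exact (mul_left_cancel₀ (pow_ne_zero 2 hb0) this).symm
      rw [show a ^ 4 = (a ^ 2) ^ 2 by ring, ha2] at hs
      have : 0 < b ^ 2 := by positivity
      nlinarith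

lemma x14_local (N p q : ℤ) (hpq : IsCoprime p q) :
    N ^ 2 + 26 * p ^ 2 * q ^ 2 ≠ 343 * p ^ 4 - q ^ 4 := by
  intro h
  have hsq : ∀ a : ZMod 16, a ^ 2 = 0 ∨ a ^ 2 = 1 ∨ a ^ 2 = 4 ∨ a ^ 2 = 9 := by decide
  have hev : ∀ a : ℤ, ((a : ZMod 16) ^ 2 = 0 ∨ (a : ZMod 16) ^ 2 = 4) → (2 : ℤ) ∣ a := by
    intro a ha
    refine Int.prime_two.dvd_of_dvd_pow (n := 2) ?_
    rcases ha with ha | ha
    · have h16 : ((a ^ 2 : ℤ) : ZMod 16) = 0 := by push_cast; exact ha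
      have := (ZMod.intCast_zmod_eq_zero_iff_dvd _ 16).mp h16
      omega
    · have h16 : ((a ^ 2 - 4 : ℤ) : ZMod 16) = 0 := by push_cast; rw [ha]; decide
      have := (ZMod.intCast_zmod_eq_zero_iff_dvd _ 16).mp h16
      omega
  have h' : (N : ZMod 16) ^ 2 + 10 * (p : ZMod 16) ^ 2 * (q : ZMod 16) ^ 2 =
      7 * ((p : ZMod 16) ^ 2) ^ 2 - ((q : ZMod 16) ^ 2) ^ 2 := by
    have h0 := congrArg (fun t : ℤ => (t : ZMod 16)) h
    push_cast at h0
    rw [show (26 : ZMod 16) = 10 by decide, show (343 : ZMod 16) = 7 by decide] at h0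
    linear_combination h0
  rcases hsq (N : ZMod 16) with hN | hN | hN | hN <;>
    rcases hsq (p : ZMod 16) with hp | hp | hp | hp <;>
      rcases hsq (q : ZMod 16) with hq | hq | hq | hq <;>
        rw [hN, hp, hq] at h' <;>
          first
            | exact absurd h' (by decide)
            | exact Int.prime_two.not_unit
                (hpq.isUnit_of_dvd' (hev p (by simp [hp])) (hev q (by simp [hq])))

/-- The common core of the first step: `P R = 343 f⁴`, `R - P = N² + 26 f²`. -/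
lemma x14_core {N f P R : ℤ} (hNf : IsCoprime N f) (hf : f ≠ 0) (hP : 0 < P) (hR : 0 < R)
    (hPR : P * R = 343 * f ^ 4) (hdiff : R - P = N ^ 2 + 26 * f ^ 2) :
    ∃ x y Z : ℤ, IsCoprime x y ∧ y ≠ 0 ∧ y ∣ f ∧
      Z ^ 2 = x ^ 4 - 26 * x ^ 2 * y ^ 2 - 343 * y ^ 4 ∧
      (y ^ 2 = f ^ 2 → x ^ 2 = 49) ∧ (x ^ 2 = 49 → y ^ 2 = 1 → N ^ 2 = 16 ∧ f ^ 2 = 1) := by
  have h7 : Prime (7 : ℤ) := Int.prime_iff_natAbs_prime.mpr (by norm_num)
  have hnotf : ∀ q : ℤ, Prime q → q ∣ f → q ∣ P → q ∣ R → False := by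
    intro q hq hqf hqP hqR
    have hqN : q ∣ N := by
      refine hq.dvd_of_dvd_pow (n := 2) ?_
      rw [show N ^ 2 = R - P - 26 * f ^ 2 by linarith]
      exact dvd_sub (dvd_sub hqR hqP) ((dvd_pow hqf two_ne_zero).mul_left 26)
    exact hq.not_unit (hNf.isUnit_of_dvd' hqN hqf)
  have only7 : ∀ q : ℕ, q.Prime → (q : ℤ) ∣ P → (q : ℤ) ∣ R → q = 7 := by
    intro q hq h1 h2
    have hqP : Prime (q : ℤ) := Nat.prime_iff_prime_int.mp hq
    rcases hqP.dvd_or_dvd (hPR ▸ h1.mul_right R) with h' | h'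
    · exact (Nat.prime_dvd_prime_iff_eq hq (by norm_num)).mp (Int.natCast_dvd_natCast.mp
        (hqP.dvd_of_dvd_pow (n := 3) (by norm_num; exact h') : (q : ℤ) ∣ ((7 : ℕ) : ℤ)))
    · exact absurd (hqP.dvd_of_dvd_pow h') fun hqf => hnotf q hqP hqf h1 h2
  by_cases hg : Int.gcd P R = 1
  · obtain ⟨p, q, hpq, hfpq, -, hcases⟩ := split_prime_pow_fourth (a := f) (i := 3) h7
      (by norm_num : (343 : ℤ) = 7 ^ 3) (by norm_num) hP hR (Int.isCoprime_iff_gcd_eq_one.mpr hg) hPR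
    rcases hcases with ⟨hP', hR'⟩ | ⟨hP', hR'⟩
    · have hp0 : p ≠ 0 := by rintro rfl; simp at hfpq; exact hf hfpq
      refine ⟨q, p, N, hpq.symm, hp0, (Int.pow_dvd_pow_iff two_ne_zero).mp ⟨q ^ 2, hfpq⟩, ?_, ?_, ?_⟩
      · rw [hP', hR', hfpq] at hdiff; linear_combination -hdiff
      · intro hy
        exfalso
        have hq2 : q ^ 2 = 1 := by
          have : p ^ 2 * 1 = p ^ 2 * q ^ 2 := by linarith
          exact (mul_left_cancel₀ (pow_ne_zero 2 hp0) this).symm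
        rw [hP', hR', show q ^ 4 = (q ^ 2) ^ 2 by ring, hq2] at hdiff
        have : 0 < p ^ 4 := by positivity
        nlinarith [sq_nonneg N, sq_nonneg f]
      · intro hq49 _
        exfalso
        have hc : IsCoprime (7 : ℤ) 7 := by
          refine IsCoprime.of_isCoprime_of_dvd_right (IsCoprime.of_isCoprime_of_dvd_left
            (hP' ▸ hR' ▸ Int.isCoprime_iff_gcd_eq_one.mpr hg)
            (show (7 : ℤ) ∣ 343 * p ^ 4 from ⟨49 * p ^ 4, by ring⟩))
            (show (7 : ℤ) ∣ q ^ 4 from ⟨7 * q ^ 2, by rw [show q ^ 4 = q ^ 2 * q ^ 2 by ring]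
                                                      nth_rw 1 [hq49]; ring⟩)
        exact h7.not_unit (isCoprime_self.mp hc)
    · exfalso
      rw [hP', hR', hfpq] at hdiff
      exact x14_local N p q hpq (by linear_combination -hdiff)
  · obtain ⟨ℓ, hℓ, hℓd⟩ := Nat.exists_prime_and_dvd hg
    have hℓP : (ℓ : ℤ) ∣ P := (Int.natCast_dvd_natCast.mpr hℓd).trans (Int.gcd_dvd_left _ _)
    have hℓR : (ℓ : ℤ) ∣ R := (Int.natCast_dvd_natCast.mpr hℓd).trans (Int.gcd_dvd_right _ _)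
    obtain rfl := only7 ℓ hℓ hℓP hℓR
    push_cast at hℓP hℓR
    obtain ⟨u, rfl⟩ := hℓP
    obtain ⟨v, rfl⟩ := hℓR
    have huv : u * v = 7 * f ^ 4 := by linarith
    have hcop : IsCoprime u v := by
      rw [Int.isCoprime_iff_gcd_eq_one]
      by_contra hg2
      obtain ⟨q, hq, hqd⟩ := Nat.exists_prime_and_dvd hg2
      have hqu : (q : ℤ) ∣ u := (Int.natCast_dvd_natCast.mpr hqd).trans (Int.gcd_dvd_left _ _)
      have hqv : (q : ℤ) ∣ v := (Int.natCast_dvd_natCast.mpr hqd).trans (Int.gcd_dvd_right _ _)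
      obtain rfl := only7 q hq (hqu.mul_left 7) (hqv.mul_left 7)
      push_cast at hqu hqv
      refine hnotf 7 h7 (h7.dvd_of_dvd_pow (n := 4) ?_) (hqu.mul_left 7) (hqv.mul_left 7)
      obtain ⟨u', rfl⟩ := hqu
      obtain ⟨v', rfl⟩ := hqv
      exact ⟨u' * v', by linarith⟩
    obtain ⟨b, a, hba, hfab, -, hcases⟩ := split_prime_pow_fourth (a := f) (i := 1) h7
      (by norm_num : (7 : ℤ) = 7 ^ 1) (by norm_num) (by linarith) (by linarith) hcop huv
    rcases hcases with ⟨hu, hv⟩ | ⟨hu, hv⟩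
    · -- `P = 49 b⁴`, `R = 7 a⁴`
      exfalso
      rw [hu, hv, hfab] at hdiff
      have h7a : ¬ (7 : ℤ) ∣ a := by
        intro h7a
        refine h7.not_unit (isCoprime_self.mp (IsCoprime.of_isCoprime_of_dvd_right
          (IsCoprime.of_isCoprime_of_dvd_left (hu ▸ hv ▸ hcop) (dvd_mul_right 7 _))
          (dvd_pow h7a (by norm_num))))
      have hloc : IsCoprime a (7 * b) :=
        ((h7.coprime_iff_not_dvd.mpr h7a).symm).mul_right hba.symm
      exact x14_local (7 * N) a (7 * b) hloc (by linear_combination (-49 : ℤ) * hdiff)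
    · -- `P = 7 a⁴`, `R = 49 b⁴`
      rw [hu, hv, hfab] at hdiff
      have h7a : ¬ (7 : ℤ) ∣ a := by
        intro h7a
        refine h7.not_unit (isCoprime_self.mp (IsCoprime.of_isCoprime_of_dvd_left
          (IsCoprime.of_isCoprime_of_dvd_right (hu ▸ hv ▸ hcop) (dvd_mul_right 7 _))
          (dvd_pow h7a (by norm_num))))
      have ha0 : a ≠ 0 := by rintro rfl; simp at hfab; exact hf hfab
      refine ⟨7 * b, a, 7 * N, (h7.coprime_iff_not_dvd.mpr h7a).mul_left hba, ha0,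
        (Int.pow_dvd_pow_iff two_ne_zero).mp ⟨b ^ 2, by rw [hfab]; ring⟩,
        by linear_combination (-49 : ℤ) * hdiff, ?_, ?_⟩
      · intro hy
        have : b ^ 2 * a ^ 2 = 1 * a ^ 2 := by linarith
        have hb2 := mul_right_cancel₀ (pow_ne_zero 2 ha0) this
        linear_combination 49 * hb2
      · intro hb hy
        have hb2 : b ^ 2 = 1 := by linarith
        refine ⟨?_, by rw [hfab, hb2, hy]; rfl⟩
        rw [show b ^ 4 = (b ^ 2) ^ 2 by ring, show a ^ 4 = (a ^ 2) ^ 2 by ring, hb2, hy] at hdiff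
        linarith

/-- A solution of `w² = M⁴ + 13 M² e² + 128 e⁴` leads to one of the isogenous quartic. -/
lemma x14_step_one {M e w : ℤ} (hcop : IsCoprime M e) (hM : M ≠ 0) (he : e ≠ 0)
    (h : w ^ 2 = M ^ 4 + 13 * M ^ 2 * e ^ 2 + 128 * e ^ 4) :
    ∃ x y Z : ℤ, IsCoprime x y ∧ y ≠ 0 ∧ y ∣ e ∧
      Z ^ 2 = x ^ 4 - 26 * x ^ 2 * y ^ 2 - 343 * y ^ 4 ∧
      (y ^ 2 = e ^ 2 → x ^ 2 = 49) ∧ (x ^ 2 = 49 → y ^ 2 = 1 → M ^ 2 = 4 ∧ e ^ 2 = 1) := by
  obtain ⟨W, hW0, hW⟩ : ∃ W : ℤ, 0 ≤ W ∧ W ^ 2 = w ^ 2 := ⟨|w|, abs_nonneg w, sq_abs w⟩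
  rw [← hW] at h
  obtain ⟨T, hT⟩ : ∃ T, T = 2 * M ^ 2 + 13 * e ^ 2 := ⟨_, rfl⟩
  have hT0 : 0 < T := by rw [hT]; positivity
  have he4 : 0 < e ^ 4 := by positivity
  have hprod : (2 * W - T) * (2 * W + T) = 343 * e ^ 4 := by
    rw [hT]; linear_combination 4 * h
  have hpos : 0 < 2 * W - T ∧ 0 < 2 * W + T := by
    rcases mul_pos_iff.mp (show 0 < (2 * W - T) * (2 * W + T) by rw [hprod]; linarith) with h' | h'
    · exact h'
    · omega
  rcases Int.even_or_odd e with ⟨f, hef⟩ | heo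
  · obtain rfl : e = 2 * f := by omega
    have hMo : Odd M := by
      rcases Int.even_or_odd M with hM2 | hM2
      · exact absurd (hcop.isUnit_of_dvd' (even_iff_two_dvd.mp hM2) (dvd_mul_right 2 f))
          Int.prime_two.not_unit
      · exact hM2
    obtain ⟨m, hm⟩ := hMo.pow (n := 2)
    obtain ⟨v, hv⟩ : Odd W := by
      have : Odd (W ^ 2) := by
        obtain ⟨l, hl⟩ := hMo.pow (n := 4)
        exact ⟨l + 26 * M ^ 2 * f ^ 2 + 1024 * f ^ 4, by rw [h, hl]; ring⟩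
      exact (Int.odd_pow.mp this).resolve_right two_ne_zero
    obtain ⟨t, ht⟩ : ∃ t, t = m + 13 * f ^ 2 := ⟨_, rfl⟩
    have hT' : T = 4 * t + 2 := by rw [hT, hm, ht]; ring
    have hp : (v - t) * (v + t + 1) = 343 * f ^ 4 :=
      mul_left_cancel₀ (show (16 : ℤ) ≠ 0 by norm_num)
        (by rw [hv, hT'] at hprod; linear_combination hprod)
    obtain ⟨x, y, Z, h1, h2, h3, h4, -, h6⟩ := x14_core hcop.of_mul_right_right
      (right_ne_zero_of_mul he) (by omega) (by omega) hp (by rw [hm, ht]; ring)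
    refine ⟨x, y, Z, h1, h2, h3.mul_left 2, h4, ?_, ?_⟩
    · intro hy
      exfalso
      have hy2 : y ^ 2 ≤ f ^ 2 :=
        Int.le_of_dvd (by have := right_ne_zero_of_mul he; positivity) (pow_dvd_pow_of_dvd h3 2)
      have : 0 < y ^ 2 := by positivity
      nlinarith
    · intro hx hy
      exfalso
      have := (h6 hx hy).1
      omega
  · have hc : IsCoprime (2 * M) e := by
      refine IsCoprime.mul_left ?_ hcop
      obtain ⟨k, hk⟩ := heo
      exact ⟨-k, 1, by rw [hk]; ring⟩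
    obtain ⟨x, y, Z, h1, h2, h3, h4, h5, h6⟩ := x14_core hc he
      hpos.1 hpos.2 hprod (by rw [hT]; ring)
    refine ⟨x, y, Z, h1, h2, h3, h4, h5, fun hx hy => ?_⟩
    obtain ⟨hM2, he2⟩ := h6 hx hy
    exact ⟨by linarith, he2⟩

/-- The quartic of the trivial class of `X₀(14)`. -/
theorem x14_quartic {M e w : ℤ} (hcop : IsCoprime M e)
    (h : w ^ 2 = M ^ 4 + 13 * M ^ 2 * e ^ 2 + 128 * e ^ 4) :
    M = 0 ∨ e = 0 ∨ M ^ 2 = 4 ∧ e ^ 2 = 1 := by
  suffices ∀ n : ℕ, ∀ M e w : ℤ, e.natAbs = n → IsCoprime M e → M ≠ 0 → e ≠ 0 →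
      w ^ 2 = M ^ 4 + 13 * M ^ 2 * e ^ 2 + 128 * e ^ 4 → M ^ 2 = 4 ∧ e ^ 2 = 1 by
    by_cases hM : M = 0
    · exact Or.inl hM
    · by_cases he : e = 0
      · exact Or.inr (Or.inl he)
      · exact Or.inr (Or.inr (this _ M e w rfl hcop hM he h))
  intro n
  induction n using Nat.strong_induction_on with
  | _ n IH => ?_
  intro M e w hn hcop hM he h
  obtain ⟨x, y, Z, hxy, hy, hye, hZ, h49, htriv⟩ := x14_step_one hcop hM he h
  obtain ⟨M', e', w', hcop', hM', he', h', he'y, htriv', heq'⟩ := x14_step_two hxy hy hZ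
  have hle : e'.natAbs ≤ e.natAbs :=
    Nat.le_of_dvd (Int.natAbs_pos.mpr he) (Int.natAbs_dvd_natAbs.mpr (he'y.trans hye))
  rcases lt_or_eq_of_le hle with hlt | heq
  · obtain ⟨hM2, he2⟩ := IH _ (hn ▸ hlt) M' e' w' rfl hcop' hM' he' h'
    obtain ⟨hx, hy1⟩ := htriv' hM2 he2
    exact htriv hx hy1
  · have hee : e' ^ 2 = e ^ 2 := by rw [← Int.natAbs_sq, heq, Int.natAbs_sq]
    have h1 : e' ^ 2 ≤ y ^ 2 := Int.le_of_dvd (by positivity) (pow_dvd_pow_of_dvd he'y 2)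
    have h2 : y ^ 2 ≤ e ^ 2 := Int.le_of_dvd (by positivity) (pow_dvd_pow_of_dvd hye 2)
    have hx := h49 (by linarith)
    exact htriv hx (heq' (by linarith) hx)

/-- One halving step in `m (α m² + β m n + γ n²) = □`. -/
lemma x14_halve {m α β γ n W : ℤ} (h : 2 ∣ m) (he : m * (α * m ^ 2 + β * m * n + 2 * γ * n ^ 2) = W ^ 2) :
    ∃ k W', m = 2 * k ∧ k * (2 * α * k ^ 2 + β * k * n + γ * n ^ 2) = W' ^ 2 := by
  obtain ⟨k, rfl⟩ := h
  obtain ⟨W', rfl⟩ : (2 : ℤ) ∣ W :=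
    Int.prime_two.dvd_of_dvd_pow (n := 2)
      ⟨k * (α * (2 * k) ^ 2 + β * (2 * k) * n + 2 * γ * n ^ 2), by linear_combination -he⟩
  exact ⟨k, W', rfl, mul_left_cancel₀ (show (4 : ℤ) ≠ 0 by norm_num) (by linear_combination he)⟩

/-- An odd class is a square, and must give a square modulo `8`. -/
lemma x14_odd_class {m α β γ E W : ℤ} (hm : 0 < m) (hc : IsCoprime m (E ^ 2)) (hm2 : ¬ (2 : ℤ) ∣ m)
    (hγ : IsCoprime m γ) (hQ : 0 < α * m ^ 2 + β * m * E ^ 2 + γ * (E ^ 2) ^ 2)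
    (he : m * (α * m ^ 2 + β * m * E ^ 2 + γ * (E ^ 2) ^ 2) = W ^ 2) :
    ∃ f g : ℤ, m = f ^ 2 ∧ IsCoprime f E ∧ Odd f ∧
      α * f ^ 4 + β * f ^ 2 * E ^ 2 + γ * E ^ 4 = g ^ 2 := by
  obtain ⟨⟨f, rfl⟩, g, hg⟩ := squares_of_mul_quad hm hc hγ hQ he
  refine ⟨f, g, rfl, (IsCoprime.pow_iff two_pos two_pos).mp hc, ?_, by linear_combination hg⟩
  rcases Int.even_or_odd f with hf | hf
  · exact absurd (dvd_pow (even_iff_two_dvd.mp hf) two_ne_zero) hm2
  · exact hf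

lemma x14_mod8 {α β γ f E g : ℤ} (hf : Odd f) (hE : Odd E)
    (h : α * f ^ 4 + β * f ^ 2 * E ^ 2 + γ * E ^ 4 = g ^ 2)
    (hbad : (α + β + γ) % 8 ∈ ([2, 3, 5, 6, 7] : List ℤ)) : False := by
  obtain ⟨a, ha⟩ : ∃ a, f ^ 2 = 8 * a + 1 := ⟨f ^ 2 / 8, by have := sq_emod_eight_of_odd hf; omega⟩
  obtain ⟨b, hb⟩ : ∃ b, E ^ 2 = 8 * b + 1 := ⟨E ^ 2 / 8, by have := sq_emod_eight_of_odd hE; omega⟩
  rw [show f ^ 4 = (f ^ 2) ^ 2 by ring, show E ^ 4 = (E ^ 2) ^ 2 by ring, ha, hb] at h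
  have key : ∀ c : ZMod 8, c ^ 2 = 0 ∨ c ^ 2 = 1 ∨ c ^ 2 = 4 := by decide
  have h' : ((α + β + γ : ℤ) : ZMod 8) = (g : ZMod 8) ^ 2 := by
    have h0 := congrArg (fun t : ℤ => (t : ZMod 8)) h
    push_cast at h0 ⊢
    rw [show (8 : ZMod 8) = 0 by decide] at h0
    linear_combination h0
  have e : (((α + β + γ) % 8 : ℤ) : ZMod 8) = ((α + β + γ : ℤ) : ZMod 8) :=
    ZMod.intCast_mod (α + β + γ) 8
  rw [h'] at e
  simp only [List.mem_cons, List.not_mem_nil, or_false] at hbad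
  rcases hbad with hb' | hb' | hb' | hb' | hb' <;> rw [hb'] at e <;>
    rcases key (g : ZMod 8) with hg | hg | hg <;> rw [hg] at e <;> exact absurd e (by decide)

/-- The finite rational points of `X₀(14)`. -/
theorem x14_points {X y : ℚ} (e : y ^ 2 = X * (X ^ 2 + 13 * X + 128)) :
    X = 0 ∨ X = 4 ∨ X = 32 := by
  by_cases h0 : X = 0
  · exact Or.inl h0
  right
  have hn : (0 : ℤ) < X.den := by exact_mod_cast X.den_pos
  have hX : X * X.den = X.num := Rat.mul_den_eq_num X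
  obtain ⟨m, E, W, hm, hE, hcop, hW, hXm⟩ : ∃ m E W : ℤ, 0 < m ∧ E ≠ 0 ∧ IsCoprime m (E ^ 2) ∧
      m * (1 * m ^ 2 + 13 * m * E ^ 2 + 2 * 64 * (E ^ 2) ^ 2) = W ^ 2 ∧
      X * (E : ℚ) ^ 2 = m := by
    obtain ⟨m, E, W, hm, hE, hcop, hW, hden, hnum⟩ :=
      integral_form' (β := 13) (γ := 128) h0 (by norm_num) (by push_cast; exact e)
    refine ⟨m, E, W, hm, hE, hcop, by linear_combination hW, ?_⟩
    rw [hnum, show (E : ℚ) ^ 2 = X.den by exact_mod_cast hden.symm]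
    exact_mod_cast hX
  have hfin : ∀ v : ℤ, m = v → E ^ 2 = 1 → X = v := by
    intro v hv hE1
    rw [← hv]
    rw [show (E : ℚ) ^ 2 = 1 by exact_mod_cast hE1, mul_one] at hXm
    exact hXm
  have hEpos : 0 < E ^ 2 := by positivity
  have hEodd : (2 : ℤ) ∣ m → Odd E := by
    intro h2
    rcases Int.even_or_odd E with hE2 | hE2
    · exact absurd (hcop.isUnit_of_dvd' h2 (dvd_pow (even_iff_two_dvd.mp hE2) two_ne_zero))
        Int.prime_two.not_unit
    · exact hE2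
  have cop2 : ∀ k : ℤ, ¬ (2 : ℤ) ∣ k → ∀ i : ℕ, IsCoprime k ((2 : ℤ) ^ i) := fun k hk i =>
    ((Int.prime_two.coprime_iff_not_dvd.mpr hk).symm).pow_right
  by_cases d1 : (2 : ℤ) ∣ m
  swap
  · exfalso
    obtain ⟨f, g, hmf, hfE, hf, hg⟩ := x14_odd_class (γ := 2 * 64) hm hcop d1
      (by simpa using cop2 m d1 7) (by positivity) hW
    rcases x14_quartic hfE (w := g) (by linear_combination -hg) with h' | h' | ⟨h', -⟩
    · simp [h'] at hf
    · exact hE h'
    · have := sq_emod_eight_of_odd hf; omega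
  have hEo := hEodd d1
  obtain ⟨m1, W1, rfl, hW1⟩ := x14_halve (α := 1) (β := 13) (γ := 64) (n := E ^ 2) d1 hW
  have hm1 : 0 < m1 := by linarith
  have hc1 : IsCoprime m1 (E ^ 2) := hcop.of_mul_left_right
  by_cases d2 : (2 : ℤ) ∣ m1
  swap
  · exfalso
    obtain ⟨f, g, -, -, hf, hg⟩ := x14_odd_class hm1 hc1 d2 (by simpa using cop2 m1 d2 6)
      (by positivity) hW1
    exact x14_mod8 hf hEo hg (by decide)
  obtain ⟨m2, W2, rfl, hW2⟩ := x14_halve (α := 2) (β := 13) (γ := 32) (n := E ^ 2) (W := W1) d2 (by linear_combination hW1)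
  have hm2 : 0 < m2 := by linarith
  have hc2 : IsCoprime m2 (E ^ 2) := hc1.of_mul_left_right
  by_cases d3 : (2 : ℤ) ∣ m2
  swap
  · left
    obtain ⟨f, g, hmf, hfE, hf, hg⟩ := x14_odd_class hm2 hc2 d3 (by simpa using cop2 m2 d3 5)
      (by positivity) hW2
    have h2f : IsCoprime (2 * f) E := by
      refine IsCoprime.mul_left ?_ hfE
      obtain ⟨k, hk⟩ := hEo
      exact ⟨-k, 1, by rw [hk]; ring⟩
    rcases x14_quartic h2f (w := 2 * g) (by linear_combination -4 * hg) with h' | h' | ⟨h', hE1⟩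
    · simp [show f = 0 by linarith] at hf
    · exact absurd h' hE
    · rw [hfin 4 (by linarith) hE1]; rfl
  obtain ⟨m3, W3, rfl, hW3⟩ := x14_halve (α := 4) (β := 13) (γ := 16) (n := E ^ 2) (W := W2) d3 (by linear_combination hW2)
  have hm3 : 0 < m3 := by linarith
  have hc3 : IsCoprime m3 (E ^ 2) := hc2.of_mul_left_right
  by_cases d4 : (2 : ℤ) ∣ m3
  swap
  · exfalso
    obtain ⟨f, g, -, -, hf, hg⟩ := x14_odd_class hm3 hc3 d4 (by simpa using cop2 m3 d4 4)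
      (by positivity) hW3
    exact x14_mod8 hf hEo hg (by decide)
  obtain ⟨m4, W4, rfl, hW4⟩ := x14_halve (α := 8) (β := 13) (γ := 8) (n := E ^ 2) (W := W3) d4 (by linear_combination hW3)
  have hm4 : 0 < m4 := by linarith
  have hc4 : IsCoprime m4 (E ^ 2) := hc3.of_mul_left_right
  by_cases d5 : (2 : ℤ) ∣ m4
  swap
  · exfalso
    obtain ⟨f, g, -, -, hf, hg⟩ := x14_odd_class hm4 hc4 d5 (by simpa using cop2 m4 d5 3)
      (by positivity) hW4
    exact x14_mod8 hf hEo hg (by decide)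
  obtain ⟨m5, W5, rfl, hW5⟩ := x14_halve (α := 16) (β := 13) (γ := 4) (n := E ^ 2) (W := W4) d5 (by linear_combination hW4)
  have hm5 : 0 < m5 := by linarith
  have hc5 : IsCoprime m5 (E ^ 2) := hc4.of_mul_left_right
  by_cases d6 : (2 : ℤ) ∣ m5
  swap
  · right
    obtain ⟨f, g, hmf, hfE, hf, hg⟩ := x14_odd_class hm5 hc5 d6 (by simpa using cop2 m5 d6 2)
      (by positivity) hW5
    have h2E : IsCoprime (2 * E) f := by
      refine IsCoprime.mul_left ?_ hfE.symm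
      obtain ⟨k, hk⟩ := hf
      exact ⟨-k, 1, by rw [hk]; ring⟩
    rcases x14_quartic h2E (w := 2 * g) (by linear_combination -4 * hg) with h' | h' | ⟨h', hf1⟩
    · exact absurd (show E = 0 by linarith) hE
    · simp [h'] at hf
    · rw [hfin 32 (by linarith) (by linarith)]; rfl
  exfalso
  obtain ⟨m6, W6, rfl, hW6⟩ := x14_halve (α := 32) (β := 13) (γ := 2) (n := E ^ 2) (W := W5) d6 (by linear_combination hW5)
  have hm6 : 0 < m6 := by linarith
  have hc6 : IsCoprime m6 (E ^ 2) := hc5.of_mul_left_right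
  by_cases d7 : (2 : ℤ) ∣ m6
  swap
  · obtain ⟨f, g, -, -, hf, hg⟩ := x14_odd_class hm6 hc6 d7 (by have := cop2 m6 d7 1; rwa [pow_one] at this)
      (by positivity) hW6
    exact x14_mod8 hf hEo hg (by decide)
  obtain ⟨m7, W7, rfl, hW7⟩ := x14_halve (α := 64) (β := 13) (γ := 1) (n := E ^ 2) (W := W6) d7 (by linear_combination hW6)
  have hm7 : 0 < m7 := by linarith
  obtain ⟨⟨f, rfl⟩, g, hg⟩ := squares_of_mul_quad hm7 hc6.of_mul_left_right isCoprime_one_right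
    (by positivity) hW7
  rcases x14_quartic ((IsCoprime.pow_iff two_pos two_pos).mp hc6.of_mul_left_right).symm (w := g)
    (by linear_combination -hg) with h' | h' | ⟨h', -⟩
  · exact hE h'
  · simp [h'] at hm7
  · have := sq_emod_eight_of_odd hEo; omega

end FLTAgent.SmallCurves
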