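import Fermat.Prelude.Def_FLTPrelim_CofixedLine
import Fermat.Agent.SmallCurves.FreyLines
import Fermat.Agent.SmallCurves.TateForm
import Fermat.Agent.SmallCurves.X14

/-!
No Galois stable seven-line on a curve with square discriminant and a rational point of order two.
-/

set_option autoImplicit false

namespace FLTAgent.SmallCurves

open WeierstrassCurve WeierstrassCurve.Affine

section field

variable {F : Type*} [Field F] [CharZero F]

/-- The product of differences. -/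
def x7W (x₁ x₂ x₃ : F) : F := (x₁ - x₂) * (x₂ - x₃) * (x₃ - x₁)

/-- The product of the distances to the point of order two. -/
def x14Pr (e x₁ x₂ x₃ : F) : F := (e - x₁) * (e - x₂) * (e - x₃)

/-- The second coordinate on `X₀(14)`. -/
def x14Z (e x₁ x₂ x₃ : F) : F :=
  (x7W x₁ x₂ x₃ + 9 * x14Pr e x₁ x₂ x₃ -
    ((e - x₁) + (e - x₂) + (e - x₃)) *
      ((e - x₁) * (e - x₂) + (e - x₂) * (e - x₃) + (e - x₃) * (e - x₁))) /
    (4 * x14Pr e x₁ x₂ x₃)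

set_option maxHeartbeats 1000000 in
lemma x14_identity {r w : F}
    (hG : ((r ^ 2 - r - 1) * w + 1) ^ 2 + 4 * (r ^ 3 - r ^ 2) * w ^ 2 * (w - 1) = 0) :
    let R : F := r * (r - 1)
    let Z : F := 4 * (r * w * (r * (w - 1)) * (r * w - 1))
    let N : F := -(r ^ 2 - r) + 9 * (r * w * (r * (w - 1)) * (r * w - 1)) -
      (r * w + r * (w - 1) + (r * w - 1)) *
        (r * w * (r * (w - 1)) + r * (w - 1) * (r * w - 1) + (r * w - 1) * (r * w))
    let K : F := (r ^ 3 - 8 * r ^ 2 + 5 * r + 1) * Z + N * R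
    (K ^ 2 + 9 * K * (Z * R) + 17 * (Z * R) ^ 2) * N + N ^ 2 * R ^ 2 * Z + 8 * (Z * R) ^ 2 * Z
      = 0 := by
  intro R Z N K
  simp only [K, N, Z, R]
  linear_combination (-32 * r^11 * w^5 + 64 * r^11 * w^4 - 32 * r^11 * w^3 + 128 * r^10 * w^6 - 192 * r^10 *
        w^5 + 64 * r^10 * w^4 - 32 * r^10 * w^3 + 32 * r^10 * w^2 - 128 * r^9 * w^6 - 96 * r^9 *
        w^5 + 416 * r^9 * w^4 - 192 * r^9 * w^3 - 8 * r^9 * w + 320 * r^8 * w^5 - 288 * r^8 *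
        w^4 - 160 * r^8 * w^3 + 160 * r^8 * w^2 - 8 * r^8 * w - 32 * r^7 * w^5 - 224 * r^7 * w^4
        + 384 * r^7 * w^3 - 128 * r^7 * w^2 - 32 * r^7 * w + 8 * r^7 + 64 * r^6 * w^4 - 32 * r^6
        * w^3 - 96 * r^6 * w^2 + 88 * r^6 * w - 16 * r^6 - 32 * r^5 * w^3 + 64 * r^5 * w^2 - 40
        * r^5 * w + 8 * r^5) * hG

/-- The two identities in normal coordinates. -/
lemma level_seven_normal (V : WeierstrassCurve F) {U r w : F} (hU : U ≠ 0) (hr : r ≠ 0)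
    (hr1 : r - 1 ≠ 0) (hw : w ≠ 0) (hw1 : w - 1 ≠ 0) (hw2 : r * w - 1 ≠ 0)
    (h2 : V.b₂ = U * ((1 - (r ^ 2 - r)) ^ 2 - 4 * (r ^ 3 - r ^ 2)))
    (h4 : V.b₄ = (r ^ 3 - r ^ 2) * ((r ^ 2 - r) - 1) * U ^ 2)
    (h6 : V.b₆ = (r ^ 3 - r ^ 2) ^ 2 * U ^ 3) (h8 : V.b₈ = -((r ^ 3 - r ^ 2) ^ 3) * U ^ 4)
    (he : psi2 V ((r ^ 3 - r ^ 2) * w * U) = 0) :
    let h : F := V.Δ / x7W 0 ((r ^ 3 - r ^ 2) * U) ((r ^ 2 - r) * U) ^ 2
    let z : F := x14Z ((r ^ 3 - r ^ 2) * w * U) 0 ((r ^ 3 - r ^ 2) * U) ((r ^ 2 - r) * U)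
    V.c₆ ^ 2 * h = V.Δ * (h ^ 4 + 14 * h ^ 3 + 63 * h ^ 2 + 70 * h - 7) ^ 2 ∧
      ((h + z) ^ 2 + 9 * (h + z) + 17) * z + z ^ 2 + 8 = 0 := by
  intro h z
  have hR : r * (r - 1) ≠ 0 := mul_ne_zero hr hr1
  have hb : r ^ 3 - r ^ 2 = r ^ 2 * (r - 1) := by ring
  have hc : r ^ 2 - r = r * (r - 1) := by ring
  have hb0 : r ^ 3 - r ^ 2 ≠ 0 := by rw [hb]; exact mul_ne_zero (pow_ne_zero 2 hr) hr1
  have hG : ((r ^ 2 - r - 1) * w + 1) ^ 2 + 4 * (r ^ 3 - r ^ 2) * w ^ 2 * (w - 1) = 0 := by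
    have e : psi2 V ((r ^ 3 - r ^ 2) * w * U) = (r ^ 3 - r ^ 2) ^ 2 * U ^ 3 *
        (((r ^ 2 - r - 1) * w + 1) ^ 2 + 4 * (r ^ 3 - r ^ 2) * w ^ 2 * (w - 1)) := by
      simp only [psi2, h2, h4, h6]; ring
    rw [he, eq_comm, mul_eq_zero] at e
    exact e.resolve_left (mul_ne_zero (pow_ne_zero 2 hb0) (pow_ne_zero 3 hU))
  have hD : V.Δ = U ^ 6 * (r * (r - 1)) ^ 7 * (r ^ 3 - 8 * r ^ 2 + 5 * r + 1) := by
    simp only [WeierstrassCurve.Δ, h2, h4, h6, h8]; ring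
  have hW : x7W 0 ((r ^ 3 - r ^ 2) * U) ((r ^ 2 - r) * U) = -((r * (r - 1)) ^ 4 * U ^ 3) := by
    simp only [x7W]; ring
  have hh : h = (r ^ 3 - 8 * r ^ 2 + 5 * r + 1) / (r * (r - 1)) := by
    show V.Δ / _ = _
    rw [hD, hW]; field_simp
  have hc6 : V.c₆ = -(U ^ 3 * ((r ^ 3 - 8 * r ^ 2 + 5 * r + 1) ^ 4 +
      14 * (r ^ 3 - 8 * r ^ 2 + 5 * r + 1) ^ 3 * (r * (r - 1)) +
      63 * (r ^ 3 - 8 * r ^ 2 + 5 * r + 1) ^ 2 * (r * (r - 1)) ^ 2 +
      70 * (r ^ 3 - 8 * r ^ 2 + 5 * r + 1) * (r * (r - 1)) ^ 3 - 7 * (r * (r - 1)) ^ 4)) := by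
    simp only [WeierstrassCurve.c₆, h2, h4, h6]; ring
  constructor
  · rw [hc6, hh, hD]
    generalize r ^ 3 - 8 * r ^ 2 + 5 * r + 1 = H
    generalize hRdef : r * (r - 1) = R at hR ⊢
    field_simp
  · obtain ⟨N, hN⟩ : ∃ N : F, N = -(r ^ 2 - r) + 9 * (r * w * (r * (w - 1)) * (r * w - 1)) -
      (r * w + r * (w - 1) + (r * w - 1)) *
        (r * w * (r * (w - 1)) + r * (w - 1) * (r * w - 1) + (r * w - 1) * (r * w)) := ⟨_, rfl⟩
    obtain ⟨Z, hZ⟩ : ∃ Z : F, Z = 4 * (r * w * (r * (w - 1)) * (r * w - 1)) := ⟨_, rfl⟩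
    have hZ0 : Z ≠ 0 := by
      rw [hZ]
      exact mul_ne_zero (by norm_num)
        (mul_ne_zero (mul_ne_zero (mul_ne_zero hr hw) (mul_ne_zero hr hw1)) hw2)
    have hz : z = N / Z := by
      show x14Z _ _ _ _ = _
      rw [x14Z, hW, x14Pr, hN, hZ]
      rw [show (r ^ 3 - r ^ 2) * w * U - 0 = r * (r - 1) * U * (r * w) by ring,
        show (r ^ 3 - r ^ 2) * w * U - (r ^ 3 - r ^ 2) * U = r * (r - 1) * U * (r * (w - 1)) by ring,
        show (r ^ 3 - r ^ 2) * w * U - (r ^ 2 - r) * U = r * (r - 1) * U * (r * w - 1) by ring]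
      field_simp
    have key := x14_identity hG
    simp only [← hN, ← hZ] at key
    rw [hh, hz]
    generalize r ^ 3 - 8 * r ^ 2 + 5 * r + 1 = H at key ⊢
    generalize r * (r - 1) = R at hR key ⊢
    field_simp
    linear_combination key

/-- The two identities on a translated model. -/
lemma level_seven_aux (V : WeierstrassCurve F) {U b c e : F} (hU : U ≠ 0) (hb : b ≠ 0) (hc : c ≠ 0)
    (h7 : c ^ 3 = b * (b - c)) (h2 : V.b₂ = U * ((1 - c) ^ 2 - 4 * b))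
    (h4 : V.b₄ = b * (c - 1) * U ^ 2) (h6 : V.b₆ = b ^ 2 * U ^ 3) (h8 : V.b₈ = -(b ^ 3) * U ^ 4)
    (he : psi2 V e = 0) (he0 : e ≠ 0) (he2 : e - b * U ≠ 0) (he3 : e - c * U ≠ 0) :
    let h : F := V.Δ / x7W 0 (b * U) (c * U) ^ 2
    let z : F := x14Z e 0 (b * U) (c * U)
    V.c₆ ^ 2 * h = V.Δ * (h ^ 4 + 14 * h ^ 3 + 63 * h ^ 2 + 70 * h - 7) ^ 2 ∧
      ((h + z) ^ 2 + 9 * (h + z) + 17) * z + z ^ 2 + 8 = 0 := by
  obtain ⟨r, hr⟩ : ∃ r, r = b / c := ⟨_, rfl⟩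
  have hbr : b = r * c := by rw [hr]; field_simp
  have hcr : c = r ^ 2 - r := by
    subst hbr
    exact mul_right_cancel₀ (pow_ne_zero 2 hc) (by linear_combination h7)
  obtain rfl : b = r ^ 3 - r ^ 2 := by rw [hbr, hcr]; ring
  subst hcr
  obtain ⟨w, rfl⟩ : ∃ w, e = (r ^ 3 - r ^ 2) * w * U := ⟨e / ((r ^ 3 - r ^ 2) * U), by
      rw [mul_right_comm]; exact (mul_div_cancel₀ e (mul_ne_zero hb hU)).symm⟩
  have hr0 : r ≠ 0 := by intro h0; exact hc (by rw [h0]; ring)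
  have hr1 : r - 1 ≠ 0 := by intro h0; exact hc (by linear_combination r * h0)
  exact level_seven_normal V hU hr0 hr1 (fun h0 => he0 (by rw [h0]; ring))
    (fun h0 => he2 (by linear_combination (r ^ 3 - r ^ 2) * U * h0))
    (fun h0 => he3 (by linear_combination (r ^ 2 - r) * U * h0)) h2 h4 h6 h8 he

end field

local notation "𝕂" => AlgebraicClosure ℚ

/-- A curve with square discriminant and rational two-torsion has no stable seven-line. -/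
theorem no_seven_line (E : WeierstrassCurve ℚ) (hΔ : E.Δ ≠ 0) {ρ e : ℚ} (hρ : E.Δ = ρ ^ 2)
    (he : psi2 E e = 0) :
    ¬ Point.HasGaloisStableCofixedLine (K := AlgebraicClosure ℚ) ℚ E.toAffine 7 := by
  intro hline
  have hp : Nat.Prime 7 := by norm_num
  set W : WeierstrassCurve 𝕂 := E.baseChange 𝕂 with hW
  have hb : W.b₂ = (E.b₂ : 𝕂) ∧ W.b₄ = (E.b₄ : 𝕂) ∧ W.b₆ = (E.b₆ : 𝕂) ∧ W.c₆ = (E.c₆ : 𝕂) ∧
      W.Δ = (E.Δ : 𝕂) := by
    simp [hW, WeierstrassCurve.baseChange, map_b₂, map_b₄, map_b₆, map_c₆, map_Δ]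
  obtain ⟨hb2, hb4, hb6, hc6, hWΔ⟩ := hb
  obtain ⟨P, hP0, hP, hPσ⟩ := exists_eigen_point_of_cofixed E hΔ 7 hp hline
  obtain ⟨U, b, c, V, hU, hb0, hc0, hV, e2, e4, e6, e8, x2, x3, hrec⟩ :=
    exists_tate (W := W) hp (by norm_num) hP0 hP
  have x4 : xMul (W := W) P 4 = xMul (W := W) P 3 := xMul_eq_of_dvd_add hP (by norm_num)
  have h7 : c ^ 3 = b * (b - c) := by
    have := hrec 2 (by norm_num) (by norm_num) (by norm_num)
    rw [x4, x3, x2] at this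
    apply mul_left_cancel₀ (mul_ne_zero hb0 (pow_ne_zero 4 hU))
    linear_combination this
  -- Galois acts by cyclic permutations
  have hperm : ∀ σ : 𝕂 ≃ₐ[ℚ] 𝕂,
      (σ (xMul (W := W) P 1) = xMul (W := W) P 1 ∧ σ (xMul (W := W) P 2) = xMul (W := W) P 2 ∧
        σ (xMul (W := W) P 3) = xMul (W := W) P 3) ∨
      (σ (xMul (W := W) P 1) = xMul (W := W) P 2 ∧ σ (xMul (W := W) P 2) = xMul (W := W) P 3 ∧
        σ (xMul (W := W) P 3) = xMul (W := W) P 1) ∨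
      (σ (xMul (W := W) P 1) = xMul (W := W) P 3 ∧ σ (xMul (W := W) P 2) = xMul (W := W) P 1 ∧
        σ (xMul (W := W) P 3) = xMul (W := W) P 2) := by
    intro σ
    obtain ⟨k, hk⟩ := hPσ σ
    have g : ∀ j, ¬ 7 ∣ j → σ (xMul (W := W) P j) = xMul (W := W) P ((k % 7) * j % 7) := fun j hj => by
      rw [galois_xMul E σ hk j (nsmul_ne_zero_of_prime (W := W) hp hP0 hP hj),
        xMul_mod (W := W) hP (k * j)]
      congr 1
      exact (Nat.mod_mul_mod k j 7).symm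
    have g1 := g 1 (by norm_num)
    have g2 := g 2 (by norm_num)
    have g3 := g 3 (by norm_num)
    have f4 : xMul (W := W) P 4 = xMul (W := W) P 3 := x4
    have f5 : xMul (W := W) P 5 = xMul (W := W) P 2 := xMul_eq_of_dvd_add hP (by norm_num)
    have f6 : xMul (W := W) P 6 = xMul (W := W) P 1 := xMul_eq_of_dvd_add hP (by norm_num)
    have hk7 : k % 7 < 7 := Nat.mod_lt _ (by norm_num)
    interval_cases hm : k % 7 <;> norm_num at g1 g2 g3 <;>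
      (try simp only [f4, f5, f6] at g1 g2 g3)
    · exfalso
      apply hP0
      have h0 : σ • P = 0 := by rw [hk, nsmul_eq_mod hP k, hm, zero_nsmul]
      exact (smul_eq_zero_iff_eq σ).mp h0
    · exact Or.inl ⟨g1, g2, g3⟩
    · exact Or.inr (Or.inl ⟨g1, g2, g3⟩)
    · exact Or.inr (Or.inr ⟨g1, g2, g3⟩)
    · exact Or.inr (Or.inr ⟨g1, g2, g3⟩)
    · exact Or.inr (Or.inl ⟨g1, g2, g3⟩)
    · exact Or.inl ⟨g1, g2, g3⟩
  have heK : psi2 W (e : 𝕂) = 0 := by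
    have : psi2 W (e : 𝕂) = ((psi2 E e : ℚ) : 𝕂) := by simp [psi2, hb2, hb4, hb6]
    rw [this, he, Rat.cast_zero]
  have hne : ∀ j, ¬ 7 ∣ j → (e : 𝕂) ≠ xMul (W := W) P j := fun j hj h =>
    (xMul_two (W := W) hp (by norm_num) hP0 hP hj).1 (h ▸ heK)
  have hVe : psi2 V ((e : 𝕂) - xMul (W := W) P 1) = 0 := by
    rw [← heK]
    simp only [hV, psi2, variableChange_b₂, variableChange_b₄, variableChange_b₆, inv_one,
      Units.val_one]
    ring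
  obtain ⟨hj, hzr⟩ := level_seven_aux V (e := (e : 𝕂) - xMul (W := W) P 1) hU hb0 hc0 h7 e2 e4 e6
    e8 hVe (sub_ne_zero.mpr (hne 1 (by norm_num)))
    (by have := sub_ne_zero.mpr (hne 2 (by norm_num)); rwa [x2, ← sub_sub] at this)
    (by have := sub_ne_zero.mpr (hne 3 (by norm_num)); rwa [x3, ← sub_sub] at this)
  have hVΔ : V.Δ = W.Δ := by simp [hV, variableChange_Δ]
  have hVc : V.c₆ = W.c₆ := by simp [hV, variableChange_c₆]
  have eW : x7W 0 (b * U) (c * U) =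
      x7W (xMul (W := W) P 1) (xMul (W := W) P 2) (xMul (W := W) P 3) := by
    simp only [x7W, x2, x3]; ring
  have ez : x14Z ((e : 𝕂) - xMul (W := W) P 1) 0 (b * U) (c * U) =
      x14Z (e : 𝕂) (xMul (W := W) P 1) (xMul (W := W) P 2) (xMul (W := W) P 3) := by
    simp only [x14Z, x14Pr, x7W, x2, x3]; congr 1 <;> ring
  simp only [hVΔ, hVc, eW, ez, hc6, hWΔ] at hj hzr
  have := isGalois_rat_algebraicClosure
  obtain ⟨h, hh⟩ : ∃ h : ℚ, algebraMap ℚ 𝕂 h =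
      (E.Δ : 𝕂) / x7W (xMul (W := W) P 1) (xMul (W := W) P 2) (xMul (W := W) P 3) ^ 2 := by
    refine (InfiniteGalois.mem_range_algebraMap_iff_fixed _).mpr fun σ => ?_
    rcases hperm σ with ⟨a, b, c⟩ | ⟨a, b, c⟩ | ⟨a, b, c⟩ <;>
      simp only [x7W, map_div₀, map_pow, map_mul, map_sub, map_ratCast, a, b, c] <;> ring
  obtain ⟨z, hz⟩ : ∃ z : ℚ, algebraMap ℚ 𝕂 z =
      x14Z (e : 𝕂) (xMul (W := W) P 1) (xMul (W := W) P 2) (xMul (W := W) P 3) := by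
    refine (InfiniteGalois.mem_range_algebraMap_iff_fixed _).mpr fun σ => ?_
    rcases hperm σ with ⟨a, b, c⟩ | ⟨a, b, c⟩ | ⟨a, b, c⟩ <;>
      simp only [x14Z, x14Pr, x7W, map_div₀, map_pow, map_mul, map_sub, map_add, map_ratCast,
        map_ofNat, a, b, c] <;> ring
  rw [← hh] at hj hzr
  rw [← hz] at hzr
  have hj' : E.c₆ ^ 2 * h = E.Δ * (h ^ 4 + 14 * h ^ 3 + 63 * h ^ 2 + 70 * h - 7) ^ 2 := by
    apply (algebraMap ℚ 𝕂).injective
    simpa using hj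
  have hzr' : ((h + z) ^ 2 + 9 * (h + z) + 17) * z + z ^ 2 + 8 = 0 := by
    apply (algebraMap ℚ 𝕂).injective
    simpa using hzr
  have hh0 : h ≠ 0 := by
    rintro rfl
    norm_num at hj'
    exact hΔ hj'
  have hρ0 : ρ ≠ 0 := by rintro rfl; exact hΔ (by rw [hρ]; ring)
  have hR : h ^ 4 + 14 * h ^ 3 + 63 * h ^ 2 + 70 * h - 7 ≠ 0 := by
    intro h0
    rw [h0, zero_pow two_ne_zero, mul_zero, mul_eq_zero, or_iff_left hh0] at hj'
    -- then `c₆ = 0`, impossible as the quartic has no rational root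
    obtain ⟨d, n, hn, hd, hdn⟩ : ∃ d n : ℤ, 0 < d ∧ IsCoprime n d ∧ h = n / d :=
      ⟨h.den, h.num, by exact_mod_cast h.den_pos,
        Int.isCoprime_iff_gcd_eq_one.mpr (by simpa [Int.gcd] using h.reduced.gcd_eq_one),
        by exact_mod_cast (Rat.num_div_den h).symm⟩
    rw [hdn] at h0
    field_simp at h0
    have h0' : n ^ 4 + 14 * n ^ 3 * d + 63 * n ^ 2 * d ^ 2 + 70 * n * d ^ 3 - 7 * d ^ 4 = 0 := by
      have : ((n : ℚ) ^ 4 + 14 * n ^ 3 * d + 63 * n ^ 2 * d ^ 2 + 70 * n * d ^ 3 - 7 * d ^ 4) = 0 := by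
        linear_combination h0
      exact_mod_cast this
    have h7 : Prime (7 : ℤ) := Int.prime_iff_natAbs_prime.mpr (by norm_num)
    obtain ⟨n', rfl⟩ : (7 : ℤ) ∣ n := h7.dvd_of_dvd_pow (n := 4)
      ⟨-(2 * n ^ 3 * d + 9 * n ^ 2 * d ^ 2 + 10 * n * d ^ 3 - d ^ 4), by linear_combination h0'⟩
    have hd7 : (7 : ℤ) ∣ d := h7.dvd_of_dvd_pow (n := 4)
      ⟨49 * n' ^ 4 + 98 * n' ^ 3 * d + 63 * n' ^ 2 * d ^ 2 + 10 * n' * d ^ 3,
        mul_left_cancel₀ (show (7 : ℤ) ≠ 0 by norm_num) (by linear_combination -h0')⟩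
    exact h7.not_unit (hd.isUnit_of_dvd' (dvd_mul_right 7 n') hd7)
  have hsq : IsSquare h := by
    refine ⟨h * E.c₆ / (ρ * (h ^ 4 + 14 * h ^ 3 + 63 * h ^ 2 + 70 * h - 7)), ?_⟩
    rw [← sq, div_pow, eq_div_iff (pow_ne_zero 2 (mul_ne_zero hρ0 hR)), mul_pow ρ, ← hρ]
    linear_combination -h * hj'
  have hX : (4 * (2 * (h + z) + 9) * z) ^ 2 = (-4 * z) * ((-4 * z) ^ 2 + 13 * (-4 * z) + 128) := by
    linear_combination 64 * z * hzr'
  rcases x14_points hX with hz0 | hz0 | hz0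
  · obtain rfl : z = 0 := by linarith
    norm_num at hzr'
  · obtain rfl : z = -1 := by linarith
    rcases mul_eq_zero.mp (show h * (h + 7) = 0 by linear_combination -hzr') with h' | h'
    · exact hh0 h'
    · obtain rfl : h = -7 := by linarith
      obtain ⟨s, hs⟩ := hsq
      nlinarith [mul_self_nonneg s]
  · obtain rfl : z = -8 := by linarith
    rcases mul_eq_zero.mp (show h * (h - 7) = 0 by linear_combination (-1/8 : ℚ) * hzr') with h' | h'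
    · exact hh0 h'
    · obtain rfl : h = ((7 : ℕ) : ℚ) := by push_cast; linarith
      rw [Rat.isSquare_natCast_iff] at hsq
      exact hp.not_isSquare hsq

end FLTAgent.SmallCurves
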