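import Fermat.Agent.SmallCurves.FreyLines
import Fermat.Agent.SmallCurves.TateForm

/-!
No Galois stable thirteen-line on a curve with square discriminant.
-/

set_option autoImplicit false

namespace FLTAgent.SmallCurves

open WeierstrassCurve WeierstrassCurve.Affine

section field

variable {F : Type*} [Field F]

set_option maxHeartbeats 4000000 in
lemma x13_disc {x y B₂ B₄ B₆ B₈ : F} (hC : y ^ 2 + (x ^ 3 + x ^ 2 + 1) * y - x ^ 2 - x = 0)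
    (h2 : B₂ = (y + 1 - (y + 1 - x * y) * (-(x * y))) ^ 2 -
      4 * ((1 - x * y) * (y + 1 - x * y) * (-(x * y))) * (y + 1))
    (h4 : B₄ = (1 - x * y) * (y + 1 - x * y) * (-(x * y)) *
      ((y + 1 - x * y) * (-(x * y)) - (y + 1)) * (y + 1) * (y + 1))
    (h6 : B₆ = ((1 - x * y) * (y + 1 - x * y) * (-(x * y))) ^ 2 * (y + 1) ^ 4)
    (h8 : B₈ = -((1 - x * y) * (y + 1 - x * y) * (-(x * y))) ^ 3 * (y + 1) ^ 5) :
    (-B₂ ^ 2 * B₈ - 8 * B₄ ^ 3 - 27 * B₆ ^ 2 + 9 * B₂ * B₄ * B₆) * (x + x ^ 2) =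
      (1 - x - 4 * x ^ 2 - x ^ 3) *
        (-((1 - x * y) * (y + 1 - x * y) ^ 2 * x ^ 2 * y ^ 5 * (x + y + 1) * (y + 1) ^ 3)) ^ 2 := by
  subst h2 h4 h6 h8
  linear_combination (-x^16 * y^21 - 5 * x^16 * y^20 - 10 * x^16 * y^19 - 10 * x^16 * y^18 - 5 * x^16 * y^17 -
      x^16 * y^16 - x^15 * y^21 - 4 * x^15 * y^20 - 5 * x^15 * y^19 + 5 * x^15 * y^17 + 4 * x^15 *
      y^16 + x^15 * y^15 + 11 * x^14 * y^21 + 90 * x^14 * y^20 + 308 * x^14 * y^19 + 575 * x^14 *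
      y^18 + 635 * x^14 * y^17 + 416 * x^14 * y^16 + 150 * x^14 * y^15 + 23 * x^14 * y^14 + x^13 *
      y^22 + x^13 * y^21 - 101 * x^13 * y^20 - 675 * x^13 * y^19 - 1999 * x^13 * y^18 - 3349 *
      x^13 * y^17 - 3399 * x^13 * y^16 - 2081 * x^13 * y^15 - 710 * x^13 * y^14 - 104 * x^13 *
      y^13 - 34 * x^12 * y^21 - 194 * x^12 * y^20 - 205 * x^12 * y^19 + 1151 * x^12 * y^18 + 4631
      * x^12 * y^17 + 8011 * x^12 * y^16 + 7921 * x^12 * y^15 + 4645 * x^12 * y^14 + 1511 * x^12 *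
      y^13 + 211 * x^12 * y^12 - 9 * x^11 * y^22 - 26 * x^11 * y^21 + 219 * x^11 * y^20 + 1413 *
      x^11 * y^19 + 3217 * x^11 * y^18 + 2657 * x^11 * y^17 - 2475 * x^11 * y^16 - 8461 * x^11 *
      y^15 - 9452 * x^11 * y^14 - 5643 * x^11 * y^13 - 1804 * x^11 * y^12 - 244 * x^11 * y^11 + 15
      * x^10 * y^22 + 146 * x^10 * y^21 + 459 * x^10 * y^20 + 92 * x^10 * y^19 - 3027 * x^10 *
      y^18 - 8769 * x^10 * y^17 - 11698 * x^10 * y^16 - 7047 * x^10 * y^15 + 1167 * x^10 * y^14 +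
      5143 * x^10 * y^13 + 3731 * x^10 * y^12 + 1251 * x^10 * y^11 + 169 * x^10 * y^10 - 5 * x^9 *
      y^22 - 109 * x^9 * y^21 - 720 * x^9 * y^20 - 2204 * x^9 * y^19 - 3062 * x^9 * y^18 + 383 *
      x^9 * y^17 + 8676 * x^9 * y^16 + 15135 * x^9 * y^15 + 13213 * x^9 * y^14 + 5698 * x^9 * y^13
      + 128 * x^9 * y^12 - 1075 * x^9 * y^11 - 470 * x^9 * y^10 - 68 * x^9 * y^9 - 6 * x^8 * y^22
      - 29 * x^8 * y^21 + 102 * x^8 * y^20 + 1162 * x^8 * y^19 + 3980 * x^8 * y^18 + 7029 * x^8 *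
      y^17 + 6069 * x^8 * y^16 - 391 * x^8 * y^15 - 7183 * x^8 * y^14 - 8466 * x^8 * y^13 - 5005 *
      x^8 * y^12 - 1487 * x^8 * y^11 - 83 * x^8 * y^10 + 70 * x^8 * y^9 + 14 * x^8 * y^8 + 5 * x^7
      * y^22 + 61 * x^7 * y^21 + 287 * x^7 * y^20 + 608 * x^7 * y^19 + 182 * x^7 * y^18 - 2124 *
      x^7 * y^17 - 5550 * x^7 * y^16 - 6949 * x^7 * y^15 - 4511 * x^7 * y^14 - 539 * x^7 * y^13 +
      1595 * x^7 * y^12 + 1414 * x^7 * y^11 + 564 * x^7 * y^10 + 106 * x^7 * y^9 + 4 * x^7 * y^8 -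
      x^7 * y^7 - x^6 * y^22 - 21 * x^6 * y^21 - 159 * x^6 * y^20 - 632 * x^6 * y^19 - 1491 * x^6
      * y^18 - 2108 * x^6 * y^17 - 1477 * x^6 * y^16 + 387 * x^6 * y^15 + 2001 * x^6 * y^14 + 2123
      * x^6 * y^13 + 1167 * x^6 * y^12 + 294 * x^6 * y^11 - 29 * x^6 * y^10 - 42 * x^6 * y^9 - 11
      * x^6 * y^8 - x^6 * y^7 + 2 * x^5 * y^21 + 27 * x^5 * y^20 + 159 * x^5 * y^19 + 544 * x^5 *
      y^18 + 1205 * x^5 * y^17 + 1809 * x^5 * y^16 + 1854 * x^5 * y^15 + 1248 * x^5 * y^14 + 468 *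
      x^5 * y^13 + 5 * x^5 * y^12 - 93 * x^5 * y^11 - 48 * x^5 * y^10 - 11 * x^5 * y^9 - x^5 * y^8
      - x^4 * y^20 - 11 * x^4 * y^19 - 55 * x^4 * y^18 - 165 * x^4 * y^17 - 330 * x^4 * y^16 - 462
      * x^4 * y^15 - 462 * x^4 * y^14 - 330 * x^4 * y^13 - 165 * x^4 * y^12 - 55 * x^4 * y^11 - 11
      * x^4 * y^10 - x^4 * y^9) * hC

set_option maxHeartbeats 4000000 in
lemma x13_c6 {x y B₂ B₄ B₆ : F} (hC : y ^ 2 + (x ^ 3 + x ^ 2 + 1) * y - x ^ 2 - x = 0)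
    (h2 : B₂ = (y + 1 - (y + 1 - x * y) * (-(x * y))) ^ 2 -
      4 * ((1 - x * y) * (y + 1 - x * y) * (-(x * y))) * (y + 1))
    (h4 : B₄ = (1 - x * y) * (y + 1 - x * y) * (-(x * y)) *
      ((y + 1 - x * y) * (-(x * y)) - (y + 1)) * (y + 1) * (y + 1))
    (h6 : B₆ = ((1 - x * y) * (y + 1 - x * y) * (-(x * y))) ^ 2 * (y + 1) ^ 4) :
    (-B₂ ^ 3 + 36 * B₂ * B₄ - 216 * B₆) * (x + x ^ 2) ^ 7 =
      (-((1 - x * y) * (y + 1 - x * y) ^ 2 * x ^ 2 * y ^ 5 * (x + y + 1) * (y + 1) ^ 3)) *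
        (2 * y + (x ^ 3 + x ^ 2 + 1)) *
        ((1 - x - 4 * x ^ 2 - x ^ 3) ^ 6 + 10 * (1 - x - 4 * x ^ 2 - x ^ 3) ^ 5 * (x + x ^ 2) +
          46 * (1 - x - 4 * x ^ 2 - x ^ 3) ^ 4 * (x + x ^ 2) ^ 2 +
          108 * (1 - x - 4 * x ^ 2 - x ^ 3) ^ 3 * (x + x ^ 2) ^ 3 +
          122 * (1 - x - 4 * x ^ 2 - x ^ 3) ^ 2 * (x + x ^ 2) ^ 4 +
          38 * (1 - x - 4 * x ^ 2 - x ^ 3) * (x + x ^ 2) ^ 5 - (x + x ^ 2) ^ 6) := by
  subst h2 h4 h6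
  linear_combination (-x^24 * y^10 - 3 * x^24 * y^9 - 3 * x^24 * y^8 - x^24 * y^7 - 2 * x^23 * y^11 - 16 * x^23 *
      y^10 - 40 * x^23 * y^9 - 34 * x^23 * y^8 - 7 * x^23 * y^7 + 2 * x^23 * y^6 - 24 * x^22 *
      y^11 - 108 * x^22 * y^10 - 203 * x^22 * y^9 - 124 * x^22 * y^8 + 16 * x^22 * y^7 + 25 * x^22
      * y^6 - x^22 * y^5 - 110 * x^21 * y^11 - 347 * x^21 * y^10 - 428 * x^21 * y^9 - 17 * x^21 *
      y^8 + 295 * x^21 * y^7 + 116 * x^21 * y^6 - 15 * x^21 * y^5 - 228 * x^20 * y^11 - 395 * x^20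
      * y^10 + 150 * x^20 * y^9 + 1161 * x^20 * y^8 + 1129 * x^20 * y^7 + 199 * x^20 * y^6 - 96 *
      x^20 * y^5 - 138 * x^19 * y^11 + 586 * x^19 * y^10 + 2472 * x^19 * y^9 + 3348 * x^19 * y^8 +
      1695 * x^19 * y^7 - 247 * x^19 * y^6 - 347 * x^19 * y^5 + 280 * x^18 * y^11 + 2231 * x^18 *
      y^10 + 4372 * x^18 * y^9 + 3184 * x^18 * y^8 - 236 * x^18 * y^7 - 1791 * x^18 * y^6 - 793 *
      x^18 * y^5 + 562 * x^17 * y^11 + 2158 * x^17 * y^10 + 1565 * x^17 * y^9 - 2629 * x^17 * y^8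
      - 5621 * x^17 * y^7 - 4416 * x^17 * y^6 - 1393 * x^17 * y^5 + 260 * x^16 * y^11 - 323 * x^16
      * y^10 - 4680 * x^16 * y^9 - 10298 * x^16 * y^8 - 10622 * x^16 * y^7 - 5561 * x^16 * y^6 -
      824 * x^16 * y^5 + 316 * x^16 * y^4 - 248 * x^15 * y^11 - 2437 * x^15 * y^10 - 7672 * x^15 *
      y^9 - 11026 * x^15 * y^8 - 6817 * x^15 * y^7 + 489 * x^15 * y^6 + 2545 * x^15 * y^5 + 528 *
      x^15 * y^4 - 254 * x^15 * y^3 - 412 * x^14 * y^11 - 2329 * x^14 * y^10 - 4551 * x^14 * y^9 -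
      1448 * x^14 * y^8 + 7145 * x^14 * y^7 + 9729 * x^14 * y^6 + 2754 * x^14 * y^5 - 2058 * x^14
      * y^4 - 942 * x^14 * y^3 + 100 * x^14 * y^2 - 298 * x^13 * y^11 - 734 * x^13 * y^10 + 2012 *
      x^13 * y^9 + 10274 * x^13 * y^8 + 14507 * x^13 * y^7 + 4580 * x^13 * y^6 - 7263 * x^13 * y^5
      - 6250 * x^13 * y^4 - 573 * x^13 * y^3 + 498 * x^13 * y^2 - 17 * x^13 * y + 88 * x^12 * y^11
      + 1762 * x^12 * y^10 + 7017 * x^12 * y^9 + 10324 * x^12 * y^8 + 1116 * x^12 * y^7 - 14079 *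
      x^12 * y^6 - 15213 * x^12 * y^5 - 3775 * x^12 * y^4 + 2224 * x^12 * y^3 + 903 * x^12 * y^2 -
      96 * x^12 * y + x^12 + 448 * x^11 * y^11 + 2476 * x^11 * y^10 + 3542 * x^11 * y^9 - 3834 *
      x^11 * y^8 - 17089 * x^11 * y^7 - 19148 * x^11 * y^6 - 5691 * x^11 * y^5 + 5380 * x^11 * y^4
      + 4433 * x^11 * y^3 + 544 * x^11 * y^2 - 219 * x^11 * y + 6 * x^11 + 228 * x^10 * y^11 - 84
      * x^10 * y^10 - 4788 * x^10 * y^9 - 13611 * x^10 * y^8 - 14992 * x^10 * y^7 - 2915 * x^10 *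
      y^6 + 9218 * x^10 * y^5 + 9107 * x^10 * y^4 + 2707 * x^10 * y^3 - 388 * x^10 * y^2 - 249 *
      x^10 * y + 15 * x^10 - 212 * x^9 * y^11 - 2044 * x^9 * y^10 - 6091 * x^9 * y^9 - 6690 * x^9
      * y^8 + 1530 * x^9 * y^7 + 10936 * x^9 * y^6 + 10860 * x^9 * y^5 + 4113 * x^9 * y^4 - 377 *
      x^9 * y^3 - 755 * x^9 * y^2 - 130 * x^9 * y + 20 * x^9 - 244 * x^8 * y^11 - 1094 * x^8 *
      y^10 - 808 * x^8 * y^9 + 3592 * x^8 * y^8 + 9130 * x^8 * y^7 + 8820 * x^8 * y^6 + 3298 * x^8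
      * y^5 - 773 * x^8 * y^4 - 1190 * x^8 * y^3 - 376 * x^8 * y^2 - 2 * x^8 * y + 15 * x^8 - 24 *
      x^7 * y^11 + 312 * x^7 * y^10 + 2034 * x^7 * y^9 + 4428 * x^7 * y^8 + 4273 * x^7 * y^7 +
      1116 * x^7 * y^6 - 1365 * x^7 * y^5 - 1356 * x^7 * y^4 - 459 * x^7 * y^3 - 18 * x^7 * y^2 +
      29 * x^7 * y + 6 * x^7 + 60 * x^6 * y^11 + 405 * x^6 * y^10 + 909 * x^6 * y^9 + 564 * x^6 *
      y^8 - 895 * x^6 * y^7 - 1856 * x^6 * y^6 - 1355 * x^6 * y^5 - 422 * x^6 * y^4 + 2 * x^6 *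
      y^3 + 40 * x^6 * y^2 + 11 * x^6 * y + x^6 + 20 * x^5 * y^11 + 35 * x^5 * y^10 - 211 * x^5 *
      y^9 - 853 * x^5 * y^8 - 1298 * x^5 * y^7 - 977 * x^5 * y^6 - 325 * x^5 * y^5 + 12 * x^5 *
      y^4 + 41 * x^5 * y^3 + 11 * x^5 * y^2 + x^5 * y - 4 * x^4 * y^11 - 48 * x^4 * y^10 - 174 *
      x^4 * y^9 - 287 * x^4 * y^8 - 222 * x^4 * y^7 - 40 * x^4 * y^6 + 57 * x^4 * y^5 + 42 * x^4 *
      y^4 + 11 * x^4 * y^3 + x^4 * y^2 - 2 * x^3 * y^11 - 7 * x^3 * y^10 + 3 * x^3 * y^9 + 49 *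
      x^3 * y^8 + 97 * x^3 * y^7 + 91 * x^3 * y^6 + 45 * x^3 * y^5 + 11 * x^3 * y^4 + x^3 * y^3 +
      2 * x^2 * y^10 + 11 * x^2 * y^9 + 25 * x^2 * y^8 + 30 * x^2 * y^7 + 20 * x^2 * y^6 + 7 * x^2
      * y^5 + x^2 * y^4) * hC

/-- The product over the orbit. -/
def x13W (x₁ x₂ x₃ x₄ x₅ x₆ : F) : F :=
  (x₁ - x₂) * (x₂ - x₄) * (x₄ - x₅) * (x₅ - x₃) * (x₃ - x₆) * (x₆ - x₁)

/-- The identity in normal coordinates. -/
lemma level_thirteen_normal (V : WeierstrassCurve F) {U r s : F} (hU : U ≠ 0) (hr : r ≠ 0)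
    (hs : s ≠ 0) (hr1 : r - 1 ≠ 0) (hs1 : s - 1 ≠ 0) (hrs : s - r ≠ 0)
    (hT : s ^ 2 - s - r + 1 ≠ 0)
    (hF : r * (r * s - 2 * r + 1) * (s - 1) ^ 3 = (r - s) ^ 3)
    (h2 : V.b₂ = U * ((1 - s * (r - 1)) ^ 2 - 4 * (r * s * (r - 1))))
    (h4 : V.b₄ = r * s * (r - 1) * (s * (r - 1) - 1) * U ^ 2)
    (h6 : V.b₆ = (r * s * (r - 1)) ^ 2 * U ^ 3) (h8 : V.b₈ = -((r * s * (r - 1)) ^ 3) * U ^ 4) :
    let h : F := V.Δ / x13W 0 (r * s * (r - 1) * U) (s * (r - 1) * U) (r * (r - 1) * U)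
      (r * s * (s - 1) * U) (s * (r - 1) * (r - s) / (s - 1) ^ 2 * U)
    V.c₆ ^ 2 * h = V.Δ * (h ^ 2 + 6 * h + 13) *
      (h ^ 6 + 10 * h ^ 5 + 46 * h ^ 4 + 108 * h ^ 3 + 122 * h ^ 2 + 38 * h - 1) ^ 2 := by
  intro h
  have hW : x13W 0 (r * s * (r - 1) * U) (s * (r - 1) * U) (r * (r - 1) * U)
      (r * s * (s - 1) * U) (s * (r - 1) * (r - s) / (s - 1) ^ 2 * U) =
      (r * s ^ 2 * (r - 1) ^ 2 * (r - s) ^ 2 * (s ^ 2 - s - r + 1) / (s - 1) ^ 3) ^ 2 * U ^ 6 := by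
    simp only [x13W]
    field_simp
    linear_combination (s ^ 2 * (r - 1) ^ 2 * U ^ 2 * (r - s) * (s ^ 2 - s - r + 1) ^ 2) * hF
  have h1s : 1 - s ≠ 0 := by rwa [← neg_sub, neg_ne_zero]
  have h1r : 1 - r ≠ 0 := by rwa [← neg_sub, neg_ne_zero]
  obtain ⟨x, hx⟩ : ∃ x, x = (1 - r) * (1 - s) / (s - r) := ⟨_, rfl⟩
  obtain ⟨y, hy⟩ : ∃ y, y = (s - r) / (1 - s) := ⟨_, rfl⟩
  have hC : y ^ 2 + (x ^ 3 + x ^ 2 + 1) * y - x ^ 2 - x = 0 := by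
    rw [hx, hy]
    field_simp
    linear_combination (1 - r) * hF
  have hE : y + 1 ≠ 0 := by
    rw [hy, div_add_one h1s]
    exact div_ne_zero (by rwa [show s - r + (1 - s) = 1 - r by ring]) h1s
  have hx0 : x ≠ 0 := by rw [hx]; exact div_ne_zero (mul_ne_zero h1r h1s) hrs
  have hy0 : y ≠ 0 := by rw [hy]; exact div_ne_zero hrs h1s
  have hx1 : x + x ^ 2 ≠ 0 := by
    rw [show x + x ^ 2 = x * (x + 1) by ring]
    refine mul_ne_zero hx0 fun h0 => ?_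
    have h' : y * (y + 1) = 0 := by
      linear_combination hC - (x ^ 2 * y - x) * h0
    exact (mul_ne_zero hy0 hE) h'
  have hrx : r = 1 - x * y := by rw [hx, hy]; field_simp; ring
  have hsx : s * (y + 1) = y + 1 - x * y := by rw [hx, hy]; field_simp; ring
  obtain ⟨U', rfl⟩ : ∃ U', U = U' * (y + 1) ^ 2 := ⟨U / (y + 1) ^ 2, by field_simp⟩
  have hb : r * s * (r - 1) * (y + 1) = (1 - x * y) * (y + 1 - x * y) * (-(x * y)) := by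
    rw [← hsx, hrx]; ring
  have hc : s * (r - 1) * (y + 1) = (y + 1 - x * y) * (-(x * y)) := by rw [← hsx, hrx]; ring
  obtain ⟨B₂, hB2⟩ : ∃ B, B = (y + 1 - (y + 1 - x * y) * (-(x * y))) ^ 2 -
      4 * ((1 - x * y) * (y + 1 - x * y) * (-(x * y))) * (y + 1) := ⟨_, rfl⟩
  obtain ⟨B₄, hB4⟩ : ∃ B, B = (1 - x * y) * (y + 1 - x * y) * (-(x * y)) *
      ((y + 1 - x * y) * (-(x * y)) - (y + 1)) * (y + 1) * (y + 1) := ⟨_, rfl⟩
  obtain ⟨B₆, hB6⟩ :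
      ∃ B, B = ((1 - x * y) * (y + 1 - x * y) * (-(x * y))) ^ 2 * (y + 1) ^ 4 := ⟨_, rfl⟩
  obtain ⟨B₈, hB8⟩ :
      ∃ B, B = -((1 - x * y) * (y + 1 - x * y) * (-(x * y))) ^ 3 * (y + 1) ^ 5 := ⟨_, rfl⟩
  have e2 : V.b₂ = U' * B₂ := by rw [h2, hB2, ← hb, ← hc]; ring
  have e4 : V.b₄ = U' ^ 2 * B₄ := by rw [h4, hB4, ← hb, ← hc]; ring
  have e6 : V.b₆ = U' ^ 3 * B₆ := by rw [h6, hB6, ← hb]; ring
  have e8 : V.b₈ = U' ^ 4 * B₈ := by rw [h8, hB8, ← hb]; ring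
  have hD := x13_disc hC hB2 hB4 hB6 hB8
  have hC6 := x13_c6 hC hB2 hB4 hB6
  obtain ⟨V₀, hV₀⟩ : ∃ V₀, V₀ =
      -((1 - x * y) * (y + 1 - x * y) ^ 2 * x ^ 2 * y ^ 5 * (x + y + 1) * (y + 1) ^ 3) := ⟨_, rfl⟩
  have hroot : r * s ^ 2 * (r - 1) ^ 2 * (r - s) ^ 2 * (s ^ 2 - s - r + 1) / (s - 1) ^ 3 *
      (y + 1) ^ 6 = V₀ := by
    have hs' : s = (y + 1 - x * y) / (y + 1) := by rw [eq_div_iff hE, hsx]
    rw [hV₀, hrx, hs',
      show (y + 1 - x * y) / (y + 1) - 1 = -(x * y) / (y + 1) by field_simp; ring]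
    field_simp
    ring
  have hWy : x13W 0 (r * s * (r - 1) * (U' * (y + 1) ^ 2)) (s * (r - 1) * (U' * (y + 1) ^ 2))
      (r * (r - 1) * (U' * (y + 1) ^ 2)) (r * s * (s - 1) * (U' * (y + 1) ^ 2))
      (s * (r - 1) * (r - s) / (s - 1) ^ 2 * (U' * (y + 1) ^ 2)) = U' ^ 6 * V₀ ^ 2 := by
    rw [hW, ← hroot]; ring
  have hU' : U' ≠ 0 := left_ne_zero_of_mul hU
  have hV0 : V₀ ≠ 0 := by
    rw [← hroot]
    refine mul_ne_zero (div_ne_zero ?_ (pow_ne_zero 3 hs1)) (pow_ne_zero 6 hE)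
    exact mul_ne_zero (mul_ne_zero (mul_ne_zero (mul_ne_zero hr (pow_ne_zero 2 hs))
      (pow_ne_zero 2 hr1)) (pow_ne_zero 2 (by rwa [← neg_sub, neg_ne_zero]))) hT
  have hΔ : V.Δ * (x + x ^ 2) = U' ^ 6 * ((1 - x - 4 * x ^ 2 - x ^ 3) * V₀ ^ 2) := by
    rw [hV₀, ← hD]
    simp only [WeierstrassCurve.Δ, e2, e4, e6, e8]; ring
  have hh : h = (1 - x - 4 * x ^ 2 - x ^ 3) / (x + x ^ 2) := by
    show V.Δ / _ = _
    rw [hWy, div_eq_div_iff (mul_ne_zero (pow_ne_zero 6 hU') (pow_ne_zero 2 hV0)) hx1]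
    linear_combination hΔ
  have hc6 : V.c₆ * (x + x ^ 2) ^ 7 = U' ^ 3 * (V₀ * (2 * y + (x ^ 3 + x ^ 2 + 1)) *
      ((1 - x - 4 * x ^ 2 - x ^ 3) ^ 6 + 10 * (1 - x - 4 * x ^ 2 - x ^ 3) ^ 5 * (x + x ^ 2) +
          46 * (1 - x - 4 * x ^ 2 - x ^ 3) ^ 4 * (x + x ^ 2) ^ 2 +
          108 * (1 - x - 4 * x ^ 2 - x ^ 3) ^ 3 * (x + x ^ 2) ^ 3 +
          122 * (1 - x - 4 * x ^ 2 - x ^ 3) ^ 2 * (x + x ^ 2) ^ 4 +
          38 * (1 - x - 4 * x ^ 2 - x ^ 3) * (x + x ^ 2) ^ 5 - (x + x ^ 2) ^ 6)) := by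
    rw [hV₀, ← hC6]
    simp only [WeierstrassCurve.c₆, e2, e4, e6]; ring
  have hN : (2 * y + (x ^ 3 + x ^ 2 + 1)) ^ 2 = (1 - x - 4 * x ^ 2 - x ^ 3) ^ 2 +
      6 * (1 - x - 4 * x ^ 2 - x ^ 3) * (x + x ^ 2) + 13 * (x + x ^ 2) ^ 2 := by
    linear_combination 4 * hC
  rw [hh]
  generalize 1 - x - 4 * x ^ 2 - x ^ 3 = H at hΔ hc6 hN ⊢
  generalize x + x ^ 2 = D at hx1 hΔ hc6 hN ⊢
  generalize 2 * y + (x ^ 3 + x ^ 2 + 1) = M at hc6 hN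
  have hΔ' : V.Δ = U' ^ 6 * (H * V₀ ^ 2) / D := by rw [eq_div_iff hx1]; exact hΔ
  have hc6' : V.c₆ = U' ^ 3 * (V₀ * M * (H ^ 6 + 10 * H ^ 5 * D + 46 * H ^ 4 * D ^ 2 +
      108 * H ^ 3 * D ^ 3 + 122 * H ^ 2 * D ^ 4 + 38 * H * D ^ 5 - D ^ 6)) / D ^ 7 := by
    rw [eq_div_iff (pow_ne_zero 7 hx1)]; exact hc6
  rw [hΔ', hc6']
  field_simp
  linear_combination (H * (H ^ 6 + 10 * H ^ 5 * D + 46 * H ^ 4 * D ^ 2 + 108 * H ^ 3 * D ^ 3 +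
    122 * H ^ 2 * D ^ 4 + 38 * H * D ^ 5 - D ^ 6) ^ 2) * hN

end field

local notation "𝕂" => AlgebraicClosure ℚ

/-- A curve with square discriminant has no stable thirteen-line. -/
theorem no_thirteen_line_of_square_disc (E : WeierstrassCurve ℚ) (hΔ : E.Δ ≠ 0) {ρ : ℚ}
    (hρ : E.Δ = ρ ^ 2) :
    ¬ Point.HasGaloisStableCofixedLine (K := AlgebraicClosure ℚ) ℚ E.toAffine 13 := by
  intro hline
  have hp : Nat.Prime 13 := by norm_num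
  set W : WeierstrassCurve 𝕂 := E.baseChange 𝕂 with hW
  have hb : W.c₆ = (E.c₆ : 𝕂) ∧ W.Δ = (E.Δ : 𝕂) := by
    simp [hW, WeierstrassCurve.baseChange, map_c₆, map_Δ]
  obtain ⟨hc6, hWΔ⟩ := hb
  obtain ⟨P, hP0, hP, hPσ⟩ := exists_eigen_point_of_cofixed E hΔ 13 hp hline
  obtain ⟨U, b, c, V, hU, hb0, hc0, hV, e2, e4, e6, e8, x2, x3, hrec⟩ :=
    exists_tate (W := W) hp (by norm_num) hP0 hP
  have x7 : xMul (W := W) P 7 = xMul (W := W) P 6 := xMul_eq_of_dvd_add hP (by norm_num)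
  have hx : ∀ k, ¬ 13 ∣ k → 1 < k → k < 12 → xMul (W := W) P k - xMul (W := W) P 1 ≠ 0 :=
    fun k hk h1 h2 => sub_ne_zero.mpr
      (xMul_ne (W := W) hp hP0 hP hk (by norm_num) h1 (by omega) (by omega))
  have hbc : b ≠ c := by
    intro h
    apply xMul_ne (W := W) hp hP0 hP (k := 3) (l := 2) (by norm_num) (by norm_num) (by norm_num)
      (by norm_num) (by norm_num)
    rw [x2, x3, h]
  obtain ⟨r, hr⟩ : ∃ r, r = b / c := ⟨_, rfl⟩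
  have hr1 : r - 1 ≠ 0 := by
    rw [hr, div_sub_one hc0]; exact div_ne_zero (sub_ne_zero.mpr hbc) hc0
  have hbr : b = r * c := by rw [hr]; field_simp
  clear hr
  obtain ⟨s, hs⟩ : ∃ s, s = c / (r - 1) := ⟨_, rfl⟩
  obtain rfl : c = s * (r - 1) := by rw [hs, div_mul_cancel₀ _ hr1]
  clear hs
  obtain rfl : b = r * s * (r - 1) := by rw [hbr]; ring
  have hs0 : s ≠ 0 := left_ne_zero_of_mul hc0
  have hr0 : r ≠ 0 := left_ne_zero_of_mul (left_ne_zero_of_mul hb0)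
  obtain ⟨x1, hx1⟩ : ∃ t, t = xMul (W := W) P 1 := ⟨_, rfl⟩
  have x4 : xMul (W := W) P 4 - x1 = r * (r - 1) * U := by
    have h := hrec 2 (by norm_num) (by norm_num) (by norm_num)
    norm_num at h
    rw [x2, x3, ← hx1] at h
    apply mul_right_cancel₀ (mul_ne_zero hb0 (mul_ne_zero (pow_ne_zero 2 hc0) (pow_ne_zero 3 hU)))
    linear_combination h
  have x5 : xMul (W := W) P 5 - x1 = r * s * (s - 1) * U := by
    have h := hrec 3 (by norm_num) (by norm_num) (by norm_num)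
    norm_num at h
    rw [x3, ← hx1, x4] at h
    apply mul_right_cancel₀ (mul_ne_zero (mul_ne_zero hc0 (pow_ne_zero 2 (mul_ne_zero hr0 hr1)))
      (pow_ne_zero 3 hU))
    linear_combination h
  have hs1 : s - 1 ≠ 0 := by
    intro h
    refine hx 5 (by norm_num) (by norm_num) (by norm_num) ?_
    rw [← hx1, x5, h]; ring
  have x6 : xMul (W := W) P 6 - x1 = s * (r - 1) * (r - s) / (s - 1) ^ 2 * U := by
    have h := hrec 4 (by norm_num) (by norm_num) (by norm_num)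
    norm_num at h
    rw [← hx1, x4, x5] at h
    have hne : r * (r - 1) * U * (r * s * (s - 1) * U) ^ 2 ≠ 0 :=
      mul_ne_zero (mul_ne_zero (mul_ne_zero hr0 hr1) hU)
        (pow_ne_zero 2 (mul_ne_zero (mul_ne_zero (mul_ne_zero hr0 hs0) hs1) hU))
    apply mul_right_cancel₀ hne
    rw [show s * (r - 1) * (r - s) / (s - 1) ^ 2 * U * (r * (r - 1) * U * (r * s * (s - 1) * U) ^ 2) =
      r ^ 3 * s ^ 3 * (r - 1) ^ 2 * (r - s) * U ^ 4 by field_simp]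
    linear_combination h
  have hrs : s - r ≠ 0 := by
    intro h
    refine hx 6 (by norm_num) (by norm_num) (by norm_num) ?_
    rw [← hx1, x6, show r - s = -(s - r) by ring, h]; ring
  have hT : s ^ 2 - s - r + 1 ≠ 0 := by
    intro h
    apply xMul_ne (W := W) hp hP0 hP (k := 5) (l := 4) (by norm_num) (by norm_num) (by norm_num)
      (by norm_num) (by norm_num)
    linear_combination x5 - x4 + r * U * h
  have hF : r * (r * s - 2 * r + 1) * (s - 1) ^ 3 = (r - s) ^ 3 := by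
    have h := hrec 5 (by norm_num) (by norm_num) (by norm_num)
    norm_num at h
    rw [x7, ← hx1, x5, x6] at h
    obtain ⟨Y, hY⟩ : ∃ Y, Y = s * (r - 1) * (r - s) / (s - 1) ^ 2 := ⟨_, rfl⟩
    rw [← hY] at h
    have hN : Y * (s - 1) ^ 2 = s * (r - 1) * (r - s) := by
      rw [hY, div_mul_cancel₀ _ (pow_ne_zero 2 hs1)]
    have h' : (s * (r - 1) * (r - s)) ^ 3 * (r * s * (s - 1)) * U ^ 4 =
        (r * s * (r - 1)) ^ 2 * (r * s * (r - 1) * (s - 1) ^ 2 - s * (r - 1) * (r - s)) *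
          (s - 1) ^ 4 * U ^ 4 := by
      rw [← hN]; linear_combination (s - 1) ^ 6 * h
    apply mul_left_cancel₀ (mul_ne_zero (mul_ne_zero (mul_ne_zero hr0 hs1) (pow_ne_zero 4 hs0))
      (mul_ne_zero (pow_ne_zero 3 hr1) (pow_ne_zero 4 hU)))
    linear_combination -h'
  have hj := level_thirteen_normal V hU hr0 hs0 hr1 hs1 hrs hT hF e2 e4 e6 e8
  have eW : x13W 0 (r * s * (r - 1) * U) (s * (r - 1) * U) (r * (r - 1) * U)
      (r * s * (s - 1) * U) (s * (r - 1) * (r - s) / (s - 1) ^ 2 * U) =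
      x13W (xMul (W := W) P 1) (xMul (W := W) P 2) (xMul (W := W) P 3) (xMul (W := W) P 4)
        (xMul (W := W) P 5) (xMul (W := W) P 6) := by
    simp only [x13W, ← hx1, x2, x3]
    rw [← x4, ← x5, ← x6]
    ring
  have hVΔ : V.Δ = W.Δ := by simp [hV, variableChange_Δ]
  have hVc : V.c₆ = W.c₆ := by simp [hV, variableChange_c₆]
  simp only [hVΔ, hVc, eW, hc6, hWΔ] at hj
  have := isGalois_rat_algebraicClosure
  obtain ⟨h, hh⟩ : ∃ h : ℚ, algebraMap ℚ 𝕂 h = (E.Δ : 𝕂) /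
      x13W (xMul (W := W) P 1) (xMul (W := W) P 2) (xMul (W := W) P 3) (xMul (W := W) P 4)
        (xMul (W := W) P 5) (xMul (W := W) P 6) := by
    refine (InfiniteGalois.mem_range_algebraMap_iff_fixed _).mpr fun σ => ?_
    obtain ⟨k, hk⟩ := hPσ σ
    have g : ∀ j, ¬ 13 ∣ j → σ (xMul (W := W) P j) = xMul (W := W) P ((k % 13) * j % 13) :=
      fun j hj => by
        rw [galois_xMul E σ hk j (nsmul_ne_zero_of_prime (W := W) hp hP0 hP hj),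
          xMul_mod (W := W) hP (k * j)]
        congr 1
        exact (Nat.mod_mul_mod k j 13).symm
    have g1 := g 1 (by norm_num)
    have g2 := g 2 (by norm_num)
    have g3 := g 3 (by norm_num)
    have g4 := g 4 (by norm_num)
    have g5 := g 5 (by norm_num)
    have g6 := g 6 (by norm_num)
    have f7 : xMul (W := W) P 7 = xMul (W := W) P 6 := x7
    have f8 : xMul (W := W) P 8 = xMul (W := W) P 5 := xMul_eq_of_dvd_add hP (by norm_num)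
    have f9 : xMul (W := W) P 9 = xMul (W := W) P 4 := xMul_eq_of_dvd_add hP (by norm_num)
    have f10 : xMul (W := W) P 10 = xMul (W := W) P 3 := xMul_eq_of_dvd_add hP (by norm_num)
    have f11 : xMul (W := W) P 11 = xMul (W := W) P 2 := xMul_eq_of_dvd_add hP (by norm_num)
    have f12 : xMul (W := W) P 12 = xMul (W := W) P 1 := xMul_eq_of_dvd_add hP (by norm_num)
    have hk13 : k % 13 < 13 := Nat.mod_lt _ (by norm_num)
    simp only [x13W, map_div₀, map_mul, map_sub, map_ratCast]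
    interval_cases hm : k % 13 <;> norm_num at g1 g2 g3 g4 g5 g6 <;>
      (try simp only [f7, f8, f9, f10, f11, f12] at g1 g2 g3 g4 g5 g6) <;>
      first
        | (simp only [g1, g2, g3, g4, g5, g6]; done)
        | (simp only [g1, g2, g3, g4, g5, g6]; ring1)
        | (exfalso; apply hP0
           have h0 : σ • P = 0 := by rw [hk, nsmul_eq_mod hP k, hm, zero_nsmul]
           exact (smul_eq_zero_iff_eq σ).mp h0)
  rw [← hh] at hj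
  have hj' : E.c₆ ^ 2 * h = E.Δ * (h ^ 2 + 6 * h + 13) *
      (h ^ 6 + 10 * h ^ 5 + 46 * h ^ 4 + 108 * h ^ 3 + 122 * h ^ 2 + 38 * h - 1) ^ 2 := by
    apply (algebraMap ℚ 𝕂).injective
    simpa using hj
  have hρ0 : ρ ≠ 0 := by rintro rfl; exact hΔ (by rw [hρ]; ring)
  have hR : h ^ 6 + 10 * h ^ 5 + 46 * h ^ 4 + 108 * h ^ 3 + 122 * h ^ 2 + 38 * h - 1 ≠ 0 := by
    intro h0
    obtain ⟨d, n, hd, hcop, hdn⟩ : ∃ d n : ℤ, 0 < d ∧ IsCoprime n d ∧ h = n / d :=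
      ⟨h.den, h.num, by exact_mod_cast h.den_pos,
        Int.isCoprime_iff_gcd_eq_one.mpr (by simpa [Int.gcd] using h.reduced.gcd_eq_one),
        by exact_mod_cast (Rat.num_div_den h).symm⟩
    rw [hdn] at h0
    field_simp at h0
    have h0' : n ^ 6 + 10 * n ^ 5 * d + 46 * n ^ 4 * d ^ 2 + 108 * n ^ 3 * d ^ 3 +
        122 * n ^ 2 * d ^ 4 + 38 * n * d ^ 5 - d ^ 6 = 0 := by
      have : ((n : ℚ) ^ 6 + 10 * n ^ 5 * d + 46 * n ^ 4 * d ^ 2 + 108 * n ^ 3 * d ^ 3 +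
        122 * n ^ 2 * d ^ 4 + 38 * n * d ^ 5 - d ^ 6) = 0 := by
        linear_combination h0
      exact_mod_cast this
    have hn : IsUnit n := by
      refine (hcop.pow_right (n := 6)).isUnit_of_dvd' dvd_rfl
        ⟨n ^ 5 + 10 * n ^ 4 * d + 46 * n ^ 3 * d ^ 2 + 108 * n ^ 2 * d ^ 3 + 122 * n * d ^ 4 +
          38 * d ^ 5, by linear_combination -h0'⟩
    have hd1 : IsUnit d := by
      refine (hcop.symm.pow_right (n := 6)).isUnit_of_dvd' dvd_rfl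
        ⟨-(10 * n ^ 5 + 46 * n ^ 4 * d + 108 * n ^ 3 * d ^ 2 + 122 * n ^ 2 * d ^ 3 +
          38 * n * d ^ 4 - d ^ 5), by linear_combination h0'⟩
    rcases Int.isUnit_iff.mp hn with rfl | rfl <;> rcases Int.isUnit_iff.mp hd1 with rfl | rfl <;>
      norm_num at h0'
  have hsq : (h * E.c₆ / (ρ * (h ^ 6 + 10 * h ^ 5 + 46 * h ^ 4 + 108 * h ^ 3 + 122 * h ^ 2 +
      38 * h - 1))) ^ 2 = h * (h ^ 2 + 6 * h + 13) := by
    rw [div_pow, div_eq_iff (pow_ne_zero 2 (mul_ne_zero hρ0 hR)), mul_pow ρ, ← hρ]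
    linear_combination h * hj'
  have h0 := sq_thirteen hsq
  subst h0
  norm_num at hj'
  exact hΔ hj'

end FLTAgent.SmallCurves
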