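import Fermat.Prelude.Def_FLTPrelim_FreyPackage
import Fermat.Agent.SmallCurves.LevelSeven
import Fermat.Agent.SmallCurves.LevelThirteen

/-!
The Frey curve has no Galois stable cofixed line for `p = 5, 7, 13`.
-/

set_option autoImplicit false

namespace FLTAgent.SmallCurves

open WeierstrassCurve WeierstrassCurve.Affine

lemma frey_disc_eq (P : FreyPackage) :
    P.freyCurve.Δ = ((P.a : ℚ) ^ P.p * (P.b : ℚ) ^ P.p * (P.c : ℚ) ^ P.p / 16) ^ 2 := by
  have h : (P.c : ℚ) ^ P.p = (P.a : ℚ) ^ P.p + (P.b : ℚ) ^ P.p := by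
    exact_mod_cast P.hFLT.symm
  simp only [FreyPackage.freyCurve, WeierstrassCurve.Δ, WeierstrassCurve.b₂, WeierstrassCurve.b₄,
    WeierstrassCurve.b₆, WeierstrassCurve.b₈, h]
  ring

lemma frey_disc_ne_zero (P : FreyPackage) : P.freyCurve.Δ ≠ 0 := by
  rw [frey_disc_eq]
  have ha : (P.a : ℚ) ≠ 0 := by exact_mod_cast P.ha0
  have hb : (P.b : ℚ) ≠ 0 := by exact_mod_cast P.hb0
  have hc : (P.c : ℚ) ≠ 0 := by exact_mod_cast P.hc0
  exact pow_ne_zero 2 (div_ne_zero (mul_ne_zero (mul_ne_zero (pow_ne_zero _ ha) (pow_ne_zero _ hb))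
    (pow_ne_zero _ hc)) (by norm_num))

theorem frey_no_cofixed_5_7_13 (P : FreyPackage) (hp : P.p = 5 ∨ P.p = 7 ∨ P.p = 13) :
    ¬ Point.HasGaloisStableCofixedLine (K := AlgebraicClosure ℚ) ℚ P.freyCurve P.p := by
  have hΔ := frey_disc_ne_zero P
  have hsq := frey_disc_eq P
  rcases hp with h | h | h
  · have := no_five_line_of_square_disc P.freyCurve hΔ hsq
    rw [h]
    exact this
  · have he : psi2 P.freyCurve 0 = 0 := by
      simp [psi2, FreyPackage.freyCurve, WeierstrassCurve.b₆]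
    have := no_seven_line P.freyCurve hΔ hsq he
    rw [h]
    exact this
  · have := no_thirteen_line_of_square_disc P.freyCurve hΔ hsq
    rw [h]
    exact this

end FLTAgent.SmallCurves
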