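import Mathlib

/-!
Points of order three and five on a Weierstrass curve over a field of characteristic zero,
through the duplication formula only.
-/

set_option autoImplicit false

namespace FLTAgent.SmallCurves

open Polynomial WeierstrassCurve WeierstrassCurve.Affine

variable {F : Type*} [Field F] (W : WeierstrassCurve F)

/-- `ψ₂²` as a function. -/
def psi2 (x : F) : F := 4 * x ^ 3 + W.b₂ * x ^ 2 + 2 * W.b₄ * x + W.b₆

/-- `φ₂` as a function. -/
def phi2 (x : F) : F := x ^ 4 - W.b₄ * x ^ 2 - 2 * W.b₆ * x - W.b₈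

/-- `ψ₃` as a function. -/
def psi3 (x : F) : F :=
  3 * x ^ 4 + W.b₂ * x ^ 3 + 3 * W.b₄ * x ^ 2 + 3 * W.b₆ * x + W.b₈

/-- reduced `ψ₄` as a function. -/
def psi4 (x : F) : F :=
  2 * x ^ 6 + W.b₂ * x ^ 5 + 5 * W.b₄ * x ^ 4 + 10 * W.b₆ * x ^ 3 + 10 * W.b₈ * x ^ 2 +
    (W.b₂ * W.b₈ - W.b₄ * W.b₆) * x + (W.b₄ * W.b₈ - W.b₆ ^ 2)

/-- `ψ₅` as a function. -/
def psi5 (x : F) : F := psi4 W x * psi2 W x ^ 2 - psi3 W x ^ 3

lemma phi2_eq (x : F) : phi2 W x = x * psi2 W x - psi3 W x := by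
  simp only [phi2, psi2, psi3]; ring

lemma eval_Ψ₃_eq (x : F) : W.Ψ₃.eval x = psi3 W x := by
  simp [Ψ₃, psi3]

lemma eval_preΨ'_five (x : F) : (W.preΨ' 5).eval x = psi5 W x := by
  have h := W.preΨ'_odd 0
  norm_num [W.preΨ'_one, W.preΨ'_two, W.preΨ'_three, W.preΨ'_four] at h
  rw [h]
  simp [preΨ₄, Ψ₂Sq, Ψ₃, psi5, psi2, psi3, psi4]

/-- The squared `2 y + a₁ x + a₃` is `ψ₂²`. -/
lemma sq_eq_psi2 {x y : F} (h : W.toAffine.Equation x y) :
    (2 * y + W.a₁ * x + W.a₃) ^ 2 = psi2 W x := by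
  rw [Affine.equation_iff] at h
  simp only [psi2, WeierstrassCurve.b₂, WeierstrassCurve.b₄, WeierstrassCurve.b₆]
  linear_combination 4 * h

/-- Duplication numerator as a form in the tangent slope. -/
lemma phi2_eq_tangent {x y : F} (h : W.toAffine.Equation x y) :
    phi2 W x =
      (3 * x ^ 2 + 2 * W.a₂ * x + W.a₄ - W.a₁ * y) ^ 2 +
      W.a₁ * (3 * x ^ 2 + 2 * W.a₂ * x + W.a₄ - W.a₁ * y) * (2 * y + W.a₁ * x + W.a₃) -
      (W.a₂ + 2 * x) * (2 * y + W.a₁ * x + W.a₃) ^ 2 := by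
  rw [Affine.equation_iff] at h
  simp only [phi2, WeierstrassCurve.b₂, WeierstrassCurve.b₄, WeierstrassCurve.b₆,
    WeierstrassCurve.b₈]
  linear_combination (4 * W.a₂ + 8 * x + W.a₁ ^ 2) * h

lemma psi2_or_psi3_ne_zero {x y : F} (h : W.toAffine.Nonsingular x y) :
    psi2 W x ≠ 0 ∨ psi3 W x ≠ 0 := by
  by_contra hc
  push Not at hc
  rw [Affine.nonsingular_iff'] at h
  have hD : 2 * y + W.a₁ * x + W.a₃ = 0 := by
    have := sq_eq_psi2 W h.1
    rw [hc.1] at this
    exact pow_eq_zero_iff (n := 2) two_ne_zero |>.mp this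
  have hN := phi2_eq_tangent W h.1
  rw [phi2_eq, hc.1, hc.2, hD] at hN
  have : (3 * x ^ 2 + 2 * W.a₂ * x + W.a₄ - W.a₁ * y) ^ 2 = 0 := by linear_combination -hN
  rw [pow_eq_zero_iff two_ne_zero] at this
  rcases h.2 with h' | h'
  · exact h' (by linear_combination -this)
  · exact h' hD

variable [DecidableEq F]

/-- Doubling of a point which is not of order two. -/
lemma two_nsmul_some {x y : F} (h : W.toAffine.Nonsingular x y)
    (h2 : (2 : ℕ) • Point.some x y h ≠ 0) :
    ∃ (x' y' : F) (h' : W.toAffine.Nonsingular x' y'),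
      (2 : ℕ) • Point.some x y h = Point.some x' y' h' ∧ psi2 W x ≠ 0 ∧
        x' * psi2 W x = phi2 W x := by
  rw [two_nsmul] at h2 ⊢
  have hy : y ≠ W.toAffine.negY x y := fun hy => h2 (Point.add_self_of_Y_eq hy)
  have hD : 2 * y + W.a₁ * x + W.a₃ ≠ 0 := by
    intro hD
    apply hy
    simp only [Affine.negY]
    linear_combination hD
  refine ⟨_, _, _, Point.add_self_of_Y_ne hy, ?_, ?_⟩
  · rw [← sq_eq_psi2 W h.1]; exact pow_ne_zero 2 hD
  · have hs : W.toAffine.slope x x y y * (2 * y + W.a₁ * x + W.a₃) =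
        3 * x ^ 2 + 2 * W.a₂ * x + W.a₄ - W.a₁ * y := by
      rw [Affine.slope_of_Y_ne rfl hy]
      have : y - W.toAffine.negY x y = 2 * y + W.a₁ * x + W.a₃ := by
        simp only [Affine.negY]; ring
      rw [this, div_mul_cancel₀ _ hD]
    rw [← sq_eq_psi2 W h.1, phi2_eq_tangent W h.1, ← hs, Affine.addX]
    ring

/-- Two points with the same abscissa. -/
lemma eq_or_eq_neg_of_X_eq {x y x' y' : F} (h : W.toAffine.Nonsingular x y)
    (h' : W.toAffine.Nonsingular x' y') (hx : x = x') :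
    Point.some x y h = Point.some x' y' h' ∨ Point.some x y h = -Point.some x' y' h' := by
  subst hx
  rcases Affine.Y_eq_of_X_eq h.1 h'.1 rfl with rfl | rfl
  · exact Or.inl rfl
  · exact Or.inr (by rw [Point.neg_some])

lemma psi3_eq_zero_of_three_nsmul {x y : F} (h : W.toAffine.Nonsingular x y)
    (h3 : (3 : ℕ) • Point.some x y h = 0) : psi3 W x = 0 := by
  have h2 : (2 : ℕ) • Point.some x y h = -Point.some x y h := by
    rw [eq_neg_iff_add_eq_zero, ← succ_nsmul]; exact h3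
  obtain ⟨x', y', h', he, -, hφ⟩ := two_nsmul_some W h (by rw [h2]; simp)
  rw [h2, Point.neg_some] at he
  obtain rfl : x = x' := (Point.some.inj he).1
  rw [phi2_eq] at hφ
  linear_combination hφ

lemma three_nsmul_eq_zero_of_psi3 {x y : F} (h : W.toAffine.Nonsingular x y)
    (h3 : psi3 W x = 0) : (3 : ℕ) • Point.some x y h = 0 := by
  have hp : psi2 W x ≠ 0 := (psi2_or_psi3_ne_zero W h).resolve_right (not_not.mpr h3)
  have h2 : (2 : ℕ) • Point.some x y h ≠ 0 := by
    intro h2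
    rw [two_nsmul, add_eq_zero_iff_eq_neg, Point.neg_some] at h2
    apply hp
    rw [← sq_eq_psi2 W h.1]
    have := (Point.some.inj h2).2
    simp only [Affine.negY] at this
    rw [pow_eq_zero_iff two_ne_zero]
    linear_combination this
  obtain ⟨x', y', h', he, -, hφ⟩ := two_nsmul_some W h h2
  rw [phi2_eq, h3, sub_zero] at hφ
  rcases eq_or_eq_neg_of_X_eq W h' h (mul_right_cancel₀ hp hφ) with hh | hh
  · rw [hh, two_nsmul] at he
    exact absurd (add_left_cancel (he.trans (add_zero _).symm)) (by simp)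
  · rw [hh] at he
    rw [succ_nsmul, he, neg_add_cancel]

variable [CharZero F]

omit [DecidableEq F] in
lemma b₈_eq : W.b₈ = (W.b₂ * W.b₆ - W.b₄ ^ 2) / 4 := by
  rw [eq_div_iff (show (4 : F) ≠ 0 by norm_num), mul_comm]; exact W.b_relation

omit [DecidableEq F] in
/-- `ψ₂²` at the double. -/
lemma psi2_at_double {x x' : F} (hx' : x' * psi2 W x = phi2 W x) :
    psi2 W x' * psi2 W x ^ 3 = psi4 W x ^ 2 := by
  have e : psi2 W x' * psi2 W x ^ 3 =
      4 * (x' * psi2 W x) ^ 3 + W.b₂ * (x' * psi2 W x) ^ 2 * psi2 W x +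
        2 * W.b₄ * (x' * psi2 W x) * psi2 W x ^ 2 + W.b₆ * psi2 W x ^ 3 := by
    simp only [psi2]; ring
  rw [e, hx']
  simp only [psi2, phi2, psi4, b₈_eq W]
  ring

omit [DecidableEq F] in
/-- The abscissa of the quadruple against the abscissa. -/
lemma phi2_at_double {x x' : F} (hx' : x' * psi2 W x = phi2 W x) :
    (phi2 W x' - x * psi2 W x') * psi2 W x ^ 4 = -(psi3 W x * psi5 W x) := by
  have e : phi2 W x' * psi2 W x ^ 4 =
      (x' * psi2 W x) ^ 4 - W.b₄ * (x' * psi2 W x) ^ 2 * psi2 W x ^ 2 -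
        2 * W.b₆ * (x' * psi2 W x) * psi2 W x ^ 3 - W.b₈ * psi2 W x ^ 4 := by
    simp only [phi2]; ring
  rw [sub_mul, e, show x * psi2 W x' * psi2 W x ^ 4 = x * psi2 W x * (psi2 W x' * psi2 W x ^ 3) by
    ring, psi2_at_double W hx', hx']
  simp only [psi2, phi2, psi3, psi4, psi5, b₈_eq W]
  ring

/-- Data attached to a point of order five. -/
lemma five_torsion_data {x y : F} (h : W.toAffine.Nonsingular x y)
    (h5 : (5 : ℕ) • Point.some x y h = 0) :
    ∃ (x' y' : F) (h' : W.toAffine.Nonsingular x' y'),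
      (2 : ℕ) • Point.some x y h = Point.some x' y' h' ∧ x' ≠ x ∧
        psi2 W x ≠ 0 ∧ psi2 W x' ≠ 0 ∧ psi5 W x = 0 ∧
        x' * psi2 W x = phi2 W x ∧ x * psi2 W x' = phi2 W x' := by
  set P := Point.some x y h with hP
  have hP0 : P ≠ 0 := by simp [hP]
  have h2 : (2 : ℕ) • P ≠ 0 := fun h2 => hP0 <| by
    have : P = (5 : ℕ) • P - (2 : ℕ) • ((2 : ℕ) • P) := by abel
    rw [this, h5, h2, smul_zero, sub_zero]
  have h3 : (3 : ℕ) • P ≠ 0 := fun h3 => hP0 <| by
    have : P = (2 : ℕ) • ((3 : ℕ) • P) - (5 : ℕ) • P := by abel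
    rw [this, h5, h3, smul_zero, sub_zero]
  obtain ⟨x', y', h', he, hp, hφ⟩ := two_nsmul_some W h h2
  have h4 : (2 : ℕ) • ((2 : ℕ) • P) = -P := by
    have : (2 : ℕ) • ((2 : ℕ) • P) = (5 : ℕ) • P - P := by abel
    rw [this, h5, zero_sub]
  have hne : x' ≠ x := by
    intro hx
    rcases eq_or_eq_neg_of_X_eq W h' h hx with hh | hh <;> rw [hh, ← hP] at he
    · exact hP0 (by simpa [two_nsmul] using he)
    · exact h3 (by rw [succ_nsmul, he, neg_add_cancel])
  have h40 : (2 : ℕ) • Point.some x' y' h' ≠ 0 := by rw [← he, h4]; simpa using hP0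
  obtain ⟨x'', y'', h'', he', hp', hφ'⟩ := two_nsmul_some W h' h40
  rw [← he, h4, hP, Point.neg_some] at he'
  obtain rfl : x = x'' := (Point.some.inj he').1
  refine ⟨x', y', h', he, hne, hp, hp', ?_, hφ, hφ'⟩
  have e := phi2_at_double W hφ
  rw [← hφ', sub_self, zero_mul, zero_eq_neg, mul_eq_zero] at e
  refine e.resolve_left fun hψ => hne ?_
  rw [phi2_eq, hψ, sub_zero] at hφ
  exact mul_right_cancel₀ hp hφ

lemma five_nsmul_eq_zero_of_psi5 {x y : F} (h : W.toAffine.Nonsingular x y)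
    (h5 : psi5 W x = 0) : (5 : ℕ) • Point.some x y h = 0 := by
  have hp : psi2 W x ≠ 0 := by
    intro hp
    have := (psi2_or_psi3_ne_zero W h).resolve_left (not_not.mpr hp)
    simp [psi5, hp, this] at h5
  set P := Point.some x y h with hP
  have hP0 : P ≠ 0 := by simp [hP]
  have h2 : (2 : ℕ) • P ≠ 0 := by
    intro h2
    rw [two_nsmul, add_eq_zero_iff_eq_neg, hP, Point.neg_some] at h2
    apply hp
    rw [← sq_eq_psi2 W h.1, pow_eq_zero_iff two_ne_zero]
    have := (Point.some.inj h2).2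
    simp only [Affine.negY] at this
    linear_combination this
  obtain ⟨x', y', h', he, -, hφ⟩ := two_nsmul_some W h h2
  have h3 : psi3 W x ≠ 0 := by
    intro h3
    have hx : x' = x := mul_right_cancel₀ hp (by rw [hφ, phi2_eq, h3, sub_zero])
    have e := psi2_at_double W hφ
    rw [hx] at e
    simp only [psi5, h3, mul_eq_zero, pow_eq_zero_iff, ne_eq, OfNat.ofNat_ne_zero, not_false_eq_true,
      zero_pow, sub_zero, hp, or_false] at h5
    rw [h5] at e
    simp [hp] at e
  have h32 : (3 : ℕ) • P ≠ 0 := fun h' => h3 (psi3_eq_zero_of_three_nsmul W h h')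
  have e := phi2_at_double W hφ
  rw [h5, mul_zero, neg_zero, mul_eq_zero] at e
  have he2 : phi2 W x' = x * psi2 W x' :=
    sub_eq_zero.mp (e.resolve_right (pow_ne_zero 4 hp))
  have h40 : (2 : ℕ) • Point.some x' y' h' ≠ 0 := by
    intro h40
    rw [two_nsmul, add_eq_zero_iff_eq_neg, Point.neg_some] at h40
    have hp' : psi2 W x' = 0 := by
      rw [← sq_eq_psi2 W h'.1, pow_eq_zero_iff two_ne_zero]
      have := (Point.some.inj h40).2
      simp only [Affine.negY] at this
      linear_combination this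
    have := (psi2_or_psi3_ne_zero W h').resolve_left (not_not.mpr hp')
    apply this
    rw [phi2_eq, hp'] at he2
    linear_combination -he2
  obtain ⟨x'', y'', h'', he', hp', hφ'⟩ := two_nsmul_some W h' h40
  rw [← he] at he'
  rcases eq_or_eq_neg_of_X_eq W h'' h (mul_right_cancel₀ hp' (hφ'.trans he2)) with hh | hh
  · rw [hh, ← hP] at he'
    exfalso; apply h32
    have : (3 : ℕ) • P = (2 : ℕ) • ((2 : ℕ) • P) - P := by abel
    rw [this, he', sub_self]
  · rw [hh, ← hP] at he'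
    have : (5 : ℕ) • P = (2 : ℕ) • ((2 : ℕ) • P) + P := by abel
    rw [this, he', neg_add_cancel]

variable [IsAlgClosed F]

omit [CharZero F] [DecidableEq F] in
lemma exists_nonsingular (hΔ : W.Δ ≠ 0) (x : F) : ∃ y : F, W.toAffine.Nonsingular x y := by
  let p : F[X] := X ^ 2 + C (W.a₁ * x + W.a₃) * X - C (x ^ 3 + W.a₂ * x ^ 2 + W.a₄ * x + W.a₆)
  have hp : p.degree = 2 := by simp only [p]; compute_degree!
  obtain ⟨y, hy⟩ := IsAlgClosed.exists_root p (by rw [hp]; decide)
  refine ⟨y, (Affine.equation_iff_nonsingular_of_Δ_ne_zero (W := W.toAffine) hΔ).mp ?_⟩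
  rw [Affine.equation_iff]
  simp only [p, IsRoot.def, eval_sub, eval_add, eval_mul, eval_pow, eval_X, eval_C] at hy
  linear_combination hy

/-- There is a point of order three. -/
lemma exists_three_torsion (hΔ : W.Δ ≠ 0) :
    ∃ P : W.toAffine.Point, P ≠ 0 ∧ (3 : ℕ) • P = 0 := by
  obtain ⟨x, hx⟩ := IsAlgClosed.exists_root W.Ψ₃
    (Polynomial.natDegree_pos_iff_degree_pos.mp (W.natDegree_Ψ₃_pos (by norm_num))).ne'
  obtain ⟨y, h⟩ := exists_nonsingular W hΔ x
  rw [IsRoot.def, eval_Ψ₃_eq] at hx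
  exact ⟨_, by simp, three_nsmul_eq_zero_of_psi3 W h hx⟩

/-- There is a point of order five. -/
lemma exists_five_torsion (hΔ : W.Δ ≠ 0) :
    ∃ P : W.toAffine.Point, P ≠ 0 ∧ (5 : ℕ) • P = 0 := by
  obtain ⟨x, hx⟩ := IsAlgClosed.exists_root (W.preΨ' 5)
    (Polynomial.natDegree_pos_iff_degree_pos.mp
      (W.natDegree_preΨ'_pos (by norm_num) (by norm_num))).ne'
  obtain ⟨y, h⟩ := exists_nonsingular W hΔ x
  rw [IsRoot.def, eval_preΨ'_five] at hx
  exact ⟨_, by simp, five_nsmul_eq_zero_of_psi5 W h hx⟩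

omit [IsAlgClosed F] [CharZero F] in
/-- A torsion set whose abscissae lie among the roots of a polynomial is small. -/
lemma natCard_le_of_roots {T : Set W.toAffine.Point} (f : F[X]) (hf : f ≠ 0)
    (hT : ∀ x y h, Point.some x y h ∈ T → f.eval x = 0) :
    T.Finite ∧ Nat.card T ≤ 2 * f.natDegree + 1 := by
  classical
  let pts : F → Finset W.toAffine.Point := fun x =>
    if h : ∃ y, W.toAffine.Nonsingular x y then
      {Point.some x _ h.choose_spec, -Point.some x _ h.choose_spec} else ∅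
  have hsub : T ⊆ (insert 0 (f.roots.toFinset.biUnion pts) : Finset W.toAffine.Point) := by
    rintro (_ | ⟨x, y, h⟩) hP
    · simp [Point.zero_def]
    · simp only [Finset.coe_insert, Set.mem_insert_iff, Finset.mem_coe, Finset.mem_biUnion]
      refine Or.inr ⟨x, by simpa [hf] using hT x y h hP, ?_⟩
      have hex : ∃ y, W.toAffine.Nonsingular x y := ⟨y, h⟩
      simp only [pts, dif_pos hex, Finset.mem_insert, Finset.mem_singleton]
      exact eq_or_eq_neg_of_X_eq W h hex.choose_spec rfl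
  refine ⟨(Finset.finite_toSet _).subset hsub, ?_⟩
  calc Nat.card T ≤ Nat.card ((insert 0 (f.roots.toFinset.biUnion pts) : Finset W.toAffine.Point) :
        Set W.toAffine.Point) := Nat.card_mono (Finset.finite_toSet _) hsub
    _ = (insert 0 (f.roots.toFinset.biUnion pts)).card := by
        rw [Nat.card_coe_set_eq, Set.ncard_coe_finset]
    _ ≤ (f.roots.toFinset.biUnion pts).card + 1 := Finset.card_insert_le _ _
    _ ≤ f.roots.toFinset.card * 2 + 1 := by
        refine Nat.add_le_add_right (Finset.card_biUnion_le_card_mul _ _ _ fun x _ => ?_) 1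
        simp only [pts]; split_ifs
        · exact Finset.card_le_two
        · simp
    _ ≤ 2 * f.natDegree + 1 := by
        have := (Multiset.toFinset_card_le f.roots).trans (card_roots' f)
        omega

omit [IsAlgClosed F] [CharZero F] in
lemma three_torsion_card [CharZero F] :
    {P : W.toAffine.Point | (3 : ℕ) • P = 0}.Finite ∧
      Nat.card {P : W.toAffine.Point | (3 : ℕ) • P = 0} ≤ 9 := by
  have h := natCard_le_of_roots W (T := {P : W.toAffine.Point | (3 : ℕ) • P = 0}) W.Ψ₃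
    (W.Ψ₃_ne_zero (by norm_num)) fun x y h hP => by
      rw [eval_Ψ₃_eq]; exact psi3_eq_zero_of_three_nsmul W h hP
  have := W.natDegree_Ψ₃_le
  exact ⟨h.1, by omega⟩

omit [IsAlgClosed F] in
lemma five_torsion_card :
    {P : W.toAffine.Point | (5 : ℕ) • P = 0}.Finite ∧
      Nat.card {P : W.toAffine.Point | (5 : ℕ) • P = 0} ≤ 25 := by
  have h := natCard_le_of_roots W (T := {P : W.toAffine.Point | (5 : ℕ) • P = 0}) (W.preΨ' 5)
    (W.preΨ'_ne_zero (by norm_num)) fun x y h hP => by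
      rw [eval_preΨ'_five]
      obtain ⟨-, -, -, -, -, -, -, h5, -, -⟩ := five_torsion_data W h hP
      exact h5
  have : (W.preΨ' 5).natDegree ≤ 12 := by
    simpa [Nat.even_iff] using W.natDegree_preΨ'_le 5
  exact ⟨h.1, by omega⟩

end FLTAgent.SmallCurves
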